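/-
S51 project: the action of an admissible change of variables on the points of a Weierstrass
curve over a field, as an isomorphism of groups.

Mathlib convention: `C • W` is the curve obtained from `W` by the substitution
`(X, Y) ↦ (u² X + r, u³ Y + u² s X + t)`, so a point `(x, y)` of `C • W` corresponds to the point
`(u² x + r, u³ y + u² s x + t)` of `W`.
-/
import Mathlib

set_option autoImplicit false

noncomputable section

namespace Fermat.Agent.Lib.S51

open WeierstrassCurve WeierstrassCurve.Affine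

variable {F : Type*} [Field F]

/-- the `x`-coordinate on `W` of the point `(x, _)` of `C • W` -/
def vcX (C : VariableChange F) (x : F) : F := (C.u : F) ^ 2 * x + C.r

/-- the `y`-coordinate on `W` of the point `(x, y)` of `C • W` -/
def vcY (C : VariableChange F) (x y : F) : F := (C.u : F) ^ 3 * y + (C.u : F) ^ 2 * C.s * x + C.t

lemma vcX_injective (C : VariableChange F) : Function.Injective (vcX C) := by
  intro x x' h
  have hu : (C.u : F) ≠ 0 := C.u.ne_zero
  simp only [vcX] at h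
  have : (C.u : F) ^ 2 * (x - x') = 0 := by linear_combination h
  rcases mul_eq_zero.mp this with h1 | h1
  · exact absurd h1 (pow_ne_zero 2 hu)
  · exact sub_eq_zero.mp h1

lemma vcY_injective (C : VariableChange F) (x : F) : Function.Injective (vcY C x) := by
  intro y y' h
  have hu : (C.u : F) ≠ 0 := C.u.ne_zero
  simp only [vcY] at h
  have : (C.u : F) ^ 3 * (y - y') = 0 := by linear_combination h
  rcases mul_eq_zero.mp this with h1 | h1
  · exact absurd h1 (pow_ne_zero 3 hu)
  · exact sub_eq_zero.mp h1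

section Curve

variable (W : WeierstrassCurve F) (C : VariableChange F)

lemma vc_unit_inv : ((C.u⁻¹ : Fˣ) : F) = (C.u : F)⁻¹ := Units.val_inv_eq_inv_val C.u

/-- the Weierstrass polynomial transforms by the factor `u⁻⁶` -/
lemma vc_equation_expr (x y : F) :
    y ^ 2 + (C • W).a₁ * x * y + (C • W).a₃ * y -
        (x ^ 3 + (C • W).a₂ * x ^ 2 + (C • W).a₄ * x + (C • W).a₆) =
      ((C.u : F)⁻¹) ^ 6 * ((vcY C x y) ^ 2 + W.a₁ * vcX C x * vcY C x y + W.a₃ * vcY C x y -
        ((vcX C x) ^ 3 + W.a₂ * (vcX C x) ^ 2 + W.a₄ * vcX C x + W.a₆)) := by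
  have hu : (C.u : F) ≠ 0 := C.u.ne_zero
  simp only [variableChange_a₁, variableChange_a₂, variableChange_a₃, variableChange_a₄,
    variableChange_a₆, vc_unit_inv, vcX, vcY]
  field_simp
  ring

lemma vc_polynomialY_expr (x y : F) :
    2 * y + (C • W).a₁ * x + (C • W).a₃ =
      ((C.u : F)⁻¹) ^ 3 * (2 * vcY C x y + W.a₁ * vcX C x + W.a₃) := by
  have hu : (C.u : F) ≠ 0 := C.u.ne_zero
  simp only [variableChange_a₁, variableChange_a₃, vc_unit_inv, vcX, vcY]
  field_simp
  ring

lemma vc_polynomialX_expr (x y : F) :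
    (C • W).a₁ * y - (3 * x ^ 2 + 2 * (C • W).a₂ * x + (C • W).a₄) =
      ((C.u : F)⁻¹) ^ 4 * ((W.a₁ * vcY C x y - (3 * (vcX C x) ^ 2 + 2 * W.a₂ * vcX C x + W.a₄)) +
        C.s * (2 * vcY C x y + W.a₁ * vcX C x + W.a₃)) := by
  have hu : (C.u : F) ≠ 0 := C.u.ne_zero
  simp only [variableChange_a₁, variableChange_a₂, variableChange_a₄, vc_unit_inv, vcX, vcY]
  field_simp
  ring

lemma equation_vc (x y : F) :
    (C • W).toAffine.Equation x y ↔ W.toAffine.Equation (vcX C x) (vcY C x y) := by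
  have hu : ((C.u : F)⁻¹) ^ 6 ≠ 0 := pow_ne_zero 6 (inv_ne_zero C.u.ne_zero)
  rw [equation_iff', equation_iff', vc_equation_expr, mul_eq_zero]
  constructor
  · rintro (h | h)
    · exact absurd h hu
    · exact h
  · exact fun h => Or.inr h

lemma nonsingular_vc (x y : F) :
    (C • W).toAffine.Nonsingular x y ↔ W.toAffine.Nonsingular (vcX C x) (vcY C x y) := by
  have hu3 : ((C.u : F)⁻¹) ^ 3 ≠ 0 := pow_ne_zero 3 (inv_ne_zero C.u.ne_zero)
  have hu4 : ((C.u : F)⁻¹) ^ 4 ≠ 0 := pow_ne_zero 4 (inv_ne_zero C.u.ne_zero)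
  rw [nonsingular_iff', nonsingular_iff', equation_vc, vc_polynomialY_expr, vc_polynomialX_expr]
  refine and_congr_right fun _ => ?_
  by_cases hY : 2 * vcY C x y + W.a₁ * vcX C x + W.a₃ = 0
  · simp only [hY, mul_zero, add_zero, ne_eq, not_true_eq_false, or_false, mul_eq_zero, hu4,
      false_or]
  · simp only [ne_eq, mul_eq_zero, hu3, hY, false_or, not_false_eq_true, or_true]

lemma negY_vc (x y : F) :
    W.toAffine.negY (vcX C x) (vcY C x y) = vcY C x ((C • W).toAffine.negY x y) := by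
  have hu : (C.u : F) ≠ 0 := C.u.ne_zero
  simp only [negY, variableChange_a₁, variableChange_a₃, vc_unit_inv, vcX, vcY]
  field_simp
  ring

lemma addX_vc (x₁ x₂ ℓ : F) :
    W.toAffine.addX (vcX C x₁) (vcX C x₂) ((C.u : F) * ℓ + C.s) =
      vcX C ((C • W).toAffine.addX x₁ x₂ ℓ) := by
  have hu : (C.u : F) ≠ 0 := C.u.ne_zero
  simp only [addX, variableChange_a₁, variableChange_a₂, vc_unit_inv, vcX]
  field_simp
  ring

lemma negAddY_vc (x₁ x₂ y₁ ℓ : F) :
    W.toAffine.negAddY (vcX C x₁) (vcX C x₂) (vcY C x₁ y₁) ((C.u : F) * ℓ + C.s) =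
      vcY C ((C • W).toAffine.addX x₁ x₂ ℓ) ((C • W).toAffine.negAddY x₁ x₂ y₁ ℓ) := by
  have hu : (C.u : F) ≠ 0 := C.u.ne_zero
  simp only [negAddY, addX, variableChange_a₁, variableChange_a₂, vc_unit_inv, vcX, vcY]
  field_simp
  ring

lemma addY_vc (x₁ x₂ y₁ ℓ : F) :
    W.toAffine.addY (vcX C x₁) (vcX C x₂) (vcY C x₁ y₁) ((C.u : F) * ℓ + C.s) =
      vcY C ((C • W).toAffine.addX x₁ x₂ ℓ) ((C • W).toAffine.addY x₁ x₂ y₁ ℓ) := by
  rw [addY, addY, negAddY_vc, addX_vc, negY_vc]

/-- the map on points induced by a change of variables -/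
def vcPointFun : (C • W).toAffine.Point → W.toAffine.Point
  | .zero => 0
  | .some x y h => .some (vcX C x) (vcY C x y) ((nonsingular_vc W C x y).mp h)

@[simp]
lemma vcPointFun_zero : vcPointFun W C 0 = 0 := rfl

@[simp]
lemma vcPointFun_some {x y : F} (h : (C • W).toAffine.Nonsingular x y) :
    vcPointFun W C (.some x y h) = .some (vcX C x) (vcY C x y) ((nonsingular_vc W C x y).mp h) :=
  rfl

variable [DecidableEq F]

lemma slope_vc {x₁ x₂ y₁ y₂ : F} (h₁ : (C • W).toAffine.Equation x₁ y₁)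
    (h₂ : (C • W).toAffine.Equation x₂ y₂)
    (hxy : ¬(x₁ = x₂ ∧ y₁ = (C • W).toAffine.negY x₂ y₂)) :
    W.toAffine.slope (vcX C x₁) (vcX C x₂) (vcY C x₁ y₁) (vcY C x₂ y₂) =
      (C.u : F) * (C • W).toAffine.slope x₁ x₂ y₁ y₂ + C.s := by
  have hu : (C.u : F) ≠ 0 := C.u.ne_zero
  by_cases hx : x₁ = x₂
  · subst hx
    have hy : y₁ ≠ (C • W).toAffine.negY x₁ y₂ := fun h => hxy ⟨rfl, h⟩
    have hy12 : y₁ = y₂ := Y_eq_of_Y_ne h₁ h₂ rfl hy
    subst hy12
    have hy' : vcY C x₁ y₁ ≠ W.toAffine.negY (vcX C x₁) (vcY C x₁ y₁) := by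
      rw [negY_vc]
      exact fun h => hy (vcY_injective C x₁ h)
    rw [slope_of_Y_ne rfl hy, slope_of_Y_ne rfl hy']
    have hd : y₁ - (C • W).toAffine.negY x₁ y₁ ≠ 0 := sub_ne_zero.mpr hy
    have hd' : vcY C x₁ y₁ - W.toAffine.negY (vcX C x₁) (vcY C x₁ y₁) ≠ 0 := sub_ne_zero.mpr hy'
    have hD : vcY C x₁ y₁ - W.toAffine.negY (vcX C x₁) (vcY C x₁ y₁) =
        (C.u : F) ^ 3 * (y₁ - (C • W).toAffine.negY x₁ y₁) := by
      simp only [negY, variableChange_a₁, variableChange_a₃, vc_unit_inv, vcX, vcY]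
      field_simp
      ring
    have hN : 3 * vcX C x₁ ^ 2 + 2 * W.toAffine.a₂ * vcX C x₁ + W.toAffine.a₄ -
          W.toAffine.a₁ * vcY C x₁ y₁ =
        (C.u : F) ^ 4 * (3 * x₁ ^ 2 + 2 * (C • W).toAffine.a₂ * x₁ + (C • W).toAffine.a₄ -
          (C • W).toAffine.a₁ * y₁) +
        C.s * ((C.u : F) ^ 3 * (y₁ - (C • W).toAffine.negY x₁ y₁)) := by
      simp only [negY, variableChange_a₁, variableChange_a₂, variableChange_a₃, variableChange_a₄,
        vc_unit_inv, vcX, vcY]
      field_simp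
      ring
    rw [hN, hD]
    field_simp
  · have hx' : vcX C x₁ ≠ vcX C x₂ := fun h => hx (vcX_injective C h)
    rw [slope_of_X_ne hx, slope_of_X_ne hx']
    have hd : x₁ - x₂ ≠ 0 := sub_ne_zero.mpr hx
    have hd' : vcX C x₁ - vcX C x₂ ≠ 0 := sub_ne_zero.mpr hx'
    rw [div_eq_iff hd']
    simp only [vcX, vcY]
    field_simp
    ring

lemma vcPointFun_add (P Q : (C • W).toAffine.Point) :
    vcPointFun W C (P + Q) = vcPointFun W C P + vcPointFun W C Q := by
  rcases P with _ | ⟨x₁, y₁, h₁⟩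
  · change vcPointFun W C (0 + Q) = 0 + vcPointFun W C Q
    rw [zero_add, zero_add]
  rcases Q with _ | ⟨x₂, y₂, h₂⟩
  · change vcPointFun W C (Point.some x₁ y₁ h₁ + 0) = vcPointFun W C (Point.some x₁ y₁ h₁) + 0
    rw [add_zero, add_zero]
  by_cases hxy : x₁ = x₂ ∧ y₁ = (C • W).toAffine.negY x₂ y₂
  · rw [Point.add_of_Y_eq hxy.1 hxy.2, vcPointFun_some, vcPointFun_some,
      Point.add_of_Y_eq (congrArg _ hxy.1) (by rw [negY_vc, hxy.2, hxy.1])]
    rfl
  · have hxy' : ¬(vcX C x₁ = vcX C x₂ ∧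
        vcY C x₁ y₁ = W.toAffine.negY (vcX C x₂) (vcY C x₂ y₂)) := by
      rintro ⟨h1, h2⟩
      have hx := vcX_injective C h1
      subst hx
      rw [negY_vc] at h2
      exact hxy ⟨rfl, vcY_injective C x₁ h2⟩
    rw [Point.add_some hxy, vcPointFun_some, vcPointFun_some, vcPointFun_some, Point.add_some hxy']
    have hs := slope_vc W C h₁.1 h₂.1 hxy
    congr 1
    · rw [hs, addX_vc]
    · rw [hs, addY_vc]

/-- the additive homomorphism on points induced by a change of variables -/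
def vcPointHom : (C • W).toAffine.Point →+ W.toAffine.Point where
  toFun := vcPointFun W C
  map_zero' := rfl
  map_add' := vcPointFun_add W C

lemma vcPointHom_injective : Function.Injective (vcPointHom W C) := by
  rintro (_ | ⟨x₁, y₁, h₁⟩) (_ | ⟨x₂, y₂, h₂⟩) h
  · rfl
  · exact absurd h.symm (Point.some_ne_zero _)
  · exact absurd h (Point.some_ne_zero _)
  · have h' : Point.some (vcX C x₁) (vcY C x₁ y₁) ((nonsingular_vc W C x₁ y₁).mp h₁) =
        Point.some (vcX C x₂) (vcY C x₂ y₂) ((nonsingular_vc W C x₂ y₂).mp h₂) := h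
    rw [Point.some.injEq] at h'
    have hx := vcX_injective C h'.1
    subst hx
    have hy := vcY_injective C x₁ h'.2
    subst hy
    rfl

lemma vcPointHom_surjective : Function.Surjective (vcPointHom W C) := by
  have hu : (C.u : F) ≠ 0 := C.u.ne_zero
  rintro (_ | ⟨x, y, h⟩)
  · exact ⟨0, rfl⟩
  · set x' : F := (x - C.r) / (C.u : F) ^ 2 with hx'
    set y' : F := (y - C.t - C.s * (x - C.r)) / (C.u : F) ^ 3 with hy'
    have e1 : vcX C x' = x := by
      simp only [vcX, hx']
      field_simp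
      ring
    have e2 : vcY C x' y' = y := by
      simp only [vcY, hx', hy']
      field_simp
      ring
    have hns : (C • W).toAffine.Nonsingular x' y' := by
      rw [nonsingular_vc, e1, e2]
      exact h
    refine ⟨Point.some x' y' hns, ?_⟩
    change Point.some (vcX C x') (vcY C x' y') _ = Point.some x y h
    simp only [e1, e2]

/-- the isomorphism of groups of points induced by a change of variables -/
def vcPointEquiv : (C • W).toAffine.Point ≃+ W.toAffine.Point :=
  AddEquiv.ofBijective (vcPointHom W C) ⟨vcPointHom_injective W C, vcPointHom_surjective W C⟩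

@[simp]
lemma vcPointEquiv_zero : vcPointEquiv W C 0 = 0 := rfl

@[simp]
lemma vcPointEquiv_some {x y : F} (h : (C • W).toAffine.Nonsingular x y) :
    vcPointEquiv W C (.some x y h) =
      .some (vcX C x) (vcY C x y) ((nonsingular_vc W C x y).mp h) :=
  rfl

lemma vcPointEquiv_eq_zero_iff (P : (C • W).toAffine.Point) : vcPointEquiv W C P = 0 ↔ P = 0 :=
  (vcPointEquiv W C).map_eq_zero_iff

lemma addOrderOf_vcPointEquiv (P : (C • W).toAffine.Point) :
    addOrderOf (vcPointEquiv W C P) = addOrderOf P :=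
  (vcPointEquiv W C).addOrderOf_eq P

end Curve

section RingHom

variable {K : Type*} [Field K] (φ : F →+* K) (C : VariableChange F)

lemma vcX_map (x : F) : vcX (C.map φ) (φ x) = φ (vcX C x) := by
  simp only [vcX, VariableChange.map_u, VariableChange.map_r, Units.coe_map, MonoidHom.coe_coe,
    map_add, map_mul, map_pow]

lemma vcY_map (x y : F) : vcY (C.map φ) (φ x) (φ y) = φ (vcY C x y) := by
  simp only [vcY, VariableChange.map_u, VariableChange.map_s, VariableChange.map_t, Units.coe_map,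
    MonoidHom.coe_coe, map_add, map_mul, map_pow]

end RingHom

end Fermat.Agent.Lib.S51
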