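/-
S51 project: auxiliary plan-independent lemmas (helper3).
(D3) elements of `ℚ̄` fixed by the whole Galois group are rational;
(D4) automorphisms (variable changes fixing the curve) are `±1` when `c₄ c₆ ≠ 0`.
-/
import Mathlib

set_option autoImplicit false

namespace Fermat.Agent.Lib.S51

open WeierstrassCurve

/-! ### (D3) -/

theorem isGalois_rat_algebraicClosure : IsGalois ℚ (AlgebraicClosure ℚ) := by
  haveI : Algebra.IsAlgebraic ℚ (AlgebraicClosure ℚ) := AlgebraicClosure.isAlgebraic ℚ
  haveI : IsAlgClosure ℚ (AlgebraicClosure ℚ) := ⟨inferInstance, inferInstance⟩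
  haveI : Normal ℚ (AlgebraicClosure ℚ) := IsAlgClosure.normal ℚ (AlgebraicClosure ℚ)
  exact isGalois_iff.mpr ⟨inferInstance, inferInstance⟩

theorem mem_range_of_forall_galois_fixed (x : AlgebraicClosure ℚ)
    (h : ∀ σ : AlgebraicClosure ℚ ≃ₐ[ℚ] AlgebraicClosure ℚ, σ x = x) :
    ∃ q : ℚ, algebraMap ℚ (AlgebraicClosure ℚ) q = x :=
  haveI := isGalois_rat_algebraicClosure
  (InfiniteGalois.mem_range_algebraMap_iff_fixed x).mpr h

/-! ### (D4) -/

/-- The variable change `(x, y) ↦ (x, -y - a₁ x - a₃)` (negation of points). -/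
def negVariableChange {F : Type*} [CommRing F] (E : WeierstrassCurve F) : VariableChange F :=
  ⟨-1, 0, -E.a₁, -E.a₃⟩

theorem variableChange_eq_one_or_neg {F : Type*} [Field F] [CharZero F] (E : WeierstrassCurve F)
    (hc₄ : E.c₄ ≠ 0) (hc₆ : E.c₆ ≠ 0) (C : VariableChange F) (hC : C • E = E) :
    C = 1 ∨ C = negVariableChange E := by
  have h4 := congrArg WeierstrassCurve.c₄ hC
  have h6 := congrArg WeierstrassCurve.c₆ hC
  rw [variableChange_c₄] at h4
  rw [variableChange_c₆] at h6
  have hu4 : ((C.u⁻¹ : Fˣ) : F) ^ 4 = 1 := by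
    have : (((C.u⁻¹ : Fˣ) : F) ^ 4 - 1) * E.c₄ = 0 := by linear_combination h4
    rcases mul_eq_zero.mp this with h | h
    · linear_combination h
    · exact absurd h hc₄
  have hu6 : ((C.u⁻¹ : Fˣ) : F) ^ 6 = 1 := by
    have : (((C.u⁻¹ : Fˣ) : F) ^ 6 - 1) * E.c₆ = 0 := by linear_combination h6
    rcases mul_eq_zero.mp this with h | h
    · linear_combination h
    · exact absurd h hc₆
  have hu2 : ((C.u⁻¹ : Fˣ) : F) ^ 2 = 1 := by
    have : ((C.u⁻¹ : Fˣ) : F) ^ 6 = ((C.u⁻¹ : Fˣ) : F) ^ 4 * ((C.u⁻¹ : Fˣ) : F) ^ 2 := by ring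
    rw [hu6, hu4, one_mul] at this
    exact this.symm
  have h1 := congrArg WeierstrassCurve.a₁ hC
  have h2 := congrArg WeierstrassCurve.a₂ hC
  have h3 := congrArg WeierstrassCurve.a₃ hC
  rw [variableChange_a₁] at h1
  rw [variableChange_a₂] at h2
  rw [variableChange_a₃] at h3
  have h2F : (2 : F) ≠ 0 := two_ne_zero
  have h3F : (3 : F) ≠ 0 := three_ne_zero
  have hupm : ((C.u⁻¹ : Fˣ) : F) = 1 ∨ ((C.u⁻¹ : Fˣ) : F) = -1 := by
    have : (((C.u⁻¹ : Fˣ) : F) - 1) * (((C.u⁻¹ : Fˣ) : F) + 1) = 0 := by linear_combination hu2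
    rcases mul_eq_zero.mp this with h | h
    · left; linear_combination h
    · right; linear_combination h
  rcases hupm with hu | hu
  · left
    rw [hu] at h1 h2 h3
    have hs : C.s = 0 := by
      have : 2 * C.s = 0 := by linear_combination h1
      exact (mul_eq_zero.mp this).resolve_left h2F
    have hr : C.r = 0 := by
      rw [hs] at h2
      have : 3 * C.r = 0 := by linear_combination h2
      exact (mul_eq_zero.mp this).resolve_left h3F
    have ht : C.t = 0 := by
      rw [hr] at h3
      have : 2 * C.t = 0 := by linear_combination h3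
      exact (mul_eq_zero.mp this).resolve_left h2F
    have hu' : C.u = 1 := by
      have : (C.u⁻¹ : Fˣ) = 1 := Units.ext hu
      simpa using this
    cases C
    simp_all [VariableChange.one_def]
  · right
    rw [hu] at h1 h2 h3
    have hs : C.s = -E.a₁ := by
      have : 2 * (C.s + E.a₁) = 0 := by linear_combination -h1
      have := (mul_eq_zero.mp this).resolve_left h2F
      linear_combination this
    have hr : C.r = 0 := by
      rw [hs] at h2
      have : 3 * C.r = 0 := by linear_combination h2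
      exact (mul_eq_zero.mp this).resolve_left h3F
    have ht : C.t = -E.a₃ := by
      rw [hr] at h3
      have : 2 * (C.t + E.a₃) = 0 := by linear_combination -h3
      have := (mul_eq_zero.mp this).resolve_left h2F
      linear_combination this
    have hu' : C.u = -1 := by
      have h : (C.u⁻¹ : Fˣ) = -1 := Units.ext (by simpa using hu)
      have := congrArg (fun z => z⁻¹) h
      simpa using this
    cases C
    simp_all [negVariableChange]

end Fermat.Agent.Lib.S51
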