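/-
S51 project: a semistable integral Weierstrass curve has an irreducible mod-3 or mod-5
representation (no semistable elliptic curve over ℚ has a rational 15-isogeny).

This file fixes the basic definitions and the interfaces of the pieces (helper7, architect).

Notation. For a Weierstrass curve `W` over a commutative ring and `x` in the ring:
* `psi2Sq W x = 4x³ + b₂x² + 2b₄x + b₆`  (`= (2y + a₁x + a₃)²` on the curve),
* `dupNum W x = x⁴ - b₄x² - 2b₆x - b₈`   (`x(2P) = dupNum / psi2Sq`),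
* `psi3 W x = 3x⁴ + b₂x³ + 3b₄x² + 3b₆x + b₈` (vanishes exactly at the `x` of points of order 3).
-/
import Mathlib
import Fermat.Prelude.Def_FLTPrelim_GaloisRep
import Fermat.Prelude.Def_FLTPrelim_Modularity
import Fermat.Prelude.Def_FLTPrelim_ModularRep

set_option autoImplicit false

open WeierstrassCurve

namespace Fermat.Agent.Lib.S51

section Basic

variable {F : Type*} [CommRing F]

/-- `4x³ + b₂x² + 2b₄x + b₆`. -/
def psi2Sq (W : WeierstrassCurve F) (x : F) : F := 4 * x ^ 3 + W.b₂ * x ^ 2 + 2 * W.b₄ * x + W.b₆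

/-- `x⁴ - b₄x² - 2b₆x - b₈`. -/
def dupNum (W : WeierstrassCurve F) (x : F) : F := x ^ 4 - W.b₄ * x ^ 2 - 2 * W.b₆ * x - W.b₈

/-- `3x⁴ + b₂x³ + 3b₄x² + 3b₆x + b₈`. -/
def psi3 (W : WeierstrassCurve F) (x : F) : F :=
  3 * x ^ 4 + W.b₂ * x ^ 3 + 3 * W.b₄ * x ^ 2 + 3 * W.b₆ * x + W.b₈

end Basic

/-- The "15-isogeny data" extracted from a counterexample, over a field `K ⊇ k`:
`xT` is the `x`-coordinate of a point of order 3, `xP`, `xQ` those of a point `P` of order 5 and of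
`Q = 2P`. -/
structure IsogenyData {K : Type*} [Field K] (W : WeierstrassCurve K) (xT xP xQ : K) : Prop where
  hT : psi3 W xT = 0
  hP : psi2Sq W xP ≠ 0
  hQ : psi2Sq W xQ ≠ 0
  hPQ : xQ * psi2Sq W xP = dupNum W xP
  hQP : xP * psi2Sq W xQ = dupNum W xQ
  hne : xP ≠ xQ
  hTP : xT ≠ xP
  hTQ : xT ≠ xQ

/-- Piece (C): the rational points of `y² = x(x-16)(x+9)` (`= X₀(15)`, Cremona `15a1`). -/
def RationalPoints15a1 : Prop :=
  ∀ X Y : ℚ, Y ^ 2 = X * (X - 16) * (X + 9) → X = 0 ∨ X = 16 ∨ X = -9 ∨ X = 36 ∨ X = -4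

/-- Piece (B): the key identity.  From isogeny data one gets a point on `15a1`, together with the
relations that recover `t` (hence `j`) from that point. -/
def KeyIdentity : Prop :=
  ∀ {K : Type} [Field K] [CharZero K] (W : WeierstrassCurve K), W.Δ ≠ 0 →
    ∀ xT xP xQ : K, IsogenyData W xT xP xQ →
      psi2Sq W xT ≠ 0 ∧ (xT - xP) * (xT - xQ) / (xQ - xP) ^ 2 ≠ 0 ∧
      (∀ U t m w : K, U = (xT - xP) * (xT - xQ) / (xQ - xP) ^ 2 → t = W.Δ / psi2Sq W xT ^ 2 →
        m = -9 * U → w = 9 / (t * U ^ 2) →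
        m ^ 2 + (w ^ 2 + 5 * w + 9) * m - w ^ 2 = 0 ∧ (t + 27) * (t + 3) ^ 3 * W.Δ = W.c₄ ^ 3 * t)

/-- Piece (D): the endgame.  The four `j`-invariants of curves with a rational 15-isogeny do not
occur for semistable integral models. -/
def Endgame : Prop :=
  ∀ W : WeierstrassCurve ℤ, W.Δ ≠ 0 → W.IsSemistableModel →
    ∀ j : ℚ, j * (W.Δ : ℚ) = (W.c₄ : ℚ) ^ 3 →
      j ≠ -25 / 2 ∧ j ≠ -349938025 / 8 ∧ j ≠ -121945 / 32 ∧ j ≠ 46969655 / 32768

/-- Piece (A): extraction of the isogeny data from the failure of irreducibility mod 3 and mod 5.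
`K = AlgebraicClosure ℚ`, `W` an elliptic curve over `ℚ`.  The numbers `xT` and
`U = (xT-xP)(xT-xQ)/(xQ-xP)²` are rational. -/
def Extraction : Prop :=
  ∀ W : WeierstrassCurve ℚ, W.Δ ≠ 0 →
    ¬ Affine.Point.GaloisRepIsIrreducible (K := AlgebraicClosure ℚ) ℚ W 3 →
    ¬ Affine.Point.GaloisRepIsIrreducible (K := AlgebraicClosure ℚ) ℚ W 5 →
    ∃ xT xP xQ : AlgebraicClosure ℚ,
      IsogenyData (W.map (algebraMap ℚ (AlgebraicClosure ℚ))) xT xP xQ ∧
      (∃ q : ℚ, algebraMap ℚ (AlgebraicClosure ℚ) q = xT) ∧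
      (∃ q : ℚ, algebraMap ℚ (AlgebraicClosure ℚ) q = (xT - xP) * (xT - xQ) / (xQ - xP) ^ 2)

end Fermat.Agent.Lib.S51
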