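/-
S51 project: assembly of the pieces (helper7).
-/
import Mathlib
import Fermat.Agent.Lib.S51.Defs

set_option autoImplicit false

open WeierstrassCurve

namespace Fermat.Agent.Lib.S51

section MapLemmas

variable {A B : Type*} [CommRing A] [CommRing B] (f : A →+* B) (W : WeierstrassCurve A)

theorem psi2Sq_map (x : A) : psi2Sq (W.map f) (f x) = f (psi2Sq W x) := by
  simp [psi2Sq, map_b₂, map_b₄, map_b₆, map_ofNat]

theorem dupNum_map (x : A) : dupNum (W.map f) (f x) = f (dupNum W x) := by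
  simp [dupNum, map_b₄, map_b₆, map_b₈, map_ofNat]

theorem psi3_map (x : A) : psi3 (W.map f) (f x) = f (psi3 W x) := by
  simp [psi3, map_b₂, map_b₄, map_b₆, map_b₈, map_ofNat]

end MapLemmas

/-- The arithmetic core over `ℚ`: rational `U`, `t` satisfying the key identity force `j` to be one
of the four exceptional values. -/
theorem j_mem_of_identity (hC : RationalPoints15a1) (U t j : ℚ) (hU : U ≠ 0) (ht : t ≠ 0)
    (hid : (-9 * U) ^ 2 + ((9 / (t * U ^ 2)) ^ 2 + 5 * (9 / (t * U ^ 2)) + 9) * (-9 * U) -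
      (9 / (t * U ^ 2)) ^ 2 = 0)
    (hj : (t + 27) * (t + 3) ^ 3 = j * t) :
    j = -25 / 2 ∨ j = -349938025 / 8 ∨ j = -121945 / 32 ∨ j = 46969655 / 32768 := by
  set w : ℚ := 9 / (t * U ^ 2) with hw
  have hU2 : U ^ 2 ≠ 0 := pow_ne_zero 2 hU
  have hw0 : w ≠ 0 := by
    rw [hw]
    exact div_ne_zero (by norm_num) (mul_ne_zero ht hU2)
  have htw : t * w * U ^ 2 = 9 := by
    rw [hw]; field_simp
  have hXY : (4 * (2 * (-9 * U - 1) * w + 5 * (-9 * U))) ^ 2 =
      (36 * U) * (36 * U - 16) * (36 * U + 9) := by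
    linear_combination (64 * (-9 * U - 1)) * hid
  have key : ∀ t' : ℚ, t = t' → j = (t' + 27) * (t' + 3) ^ 3 / t' := by
    intro t' h
    subst h
    field_simp
    linarith
  rcases hC _ _ hXY with h | h | h | h | h
  · exact absurd (by linarith : U = 0) hU
  · -- X = 16, m = -4, w = -2, t = -729/32
    have hU' : U = 4 / 9 := by linarith
    rw [hU'] at hid htw
    have hw2 : (w + 2) ^ 2 = 0 := by linear_combination (-1 / 5 : ℚ) * hid
    have hw' : w = -2 := by
      have := pow_eq_zero_iff (two_ne_zero) |>.mp hw2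
      linarith
    rw [hw'] at htw
    have ht' : t = -729 / 32 := by linarith
    right; right; right
    rw [key _ ht']; norm_num
  · -- X = -9, m = 9/4, w = -9/2, t = -32
    have hU' : U = -1 / 4 := by linarith
    rw [hU'] at hid htw
    have hw2 : (w + 9 / 2) ^ 2 = 0 := by linear_combination (4 / 5 : ℚ) * hid
    have hw' : w = -9 / 2 := by
      have := pow_eq_zero_iff (two_ne_zero) |>.mp hw2
      linarith
    rw [hw'] at htw
    have ht' : t = -32 := by linarith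
    right; right; left
    rw [key _ ht']; norm_num
  · -- X = 36, m = -9, w = -9/2, t = -2
    have hU' : U = 1 := by linarith
    rw [hU'] at hid htw
    have hw2 : w * (w + 9 / 2) = 0 := by linear_combination (-1 / 10 : ℚ) * hid
    have hw' : w = -9 / 2 := by
      rcases mul_eq_zero.mp hw2 with h0 | h0
      · exact absurd h0 hw0
      · linarith
    rw [hw'] at htw
    have ht' : t = -2 := by linarith
    left
    rw [key _ ht']; norm_num
  · -- X = -4, m = 1, w = -2, t = -729/2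
    have hU' : U = -1 / 9 := by linarith
    rw [hU'] at hid htw
    have hw' : w = -2 := by linear_combination (1 / 5 : ℚ) * hid
    rw [hw'] at htw
    have ht' : t = -729 / 2 := by linarith
    right; left
    rw [key _ ht']; norm_num

/-- **S51 from the pieces.** -/
theorem s51_of_pieces (hC : RationalPoints15a1) (hB : KeyIdentity) (hD : Endgame)
    (hA : Extraction) (W : WeierstrassCurve ℤ) (hΔ : W.Δ ≠ 0) (hW : W.IsSemistableModel) :
    W.ModRepIsIrreducible 3 ∨ W.ModRepIsIrreducible 5 := by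
  by_contra hcon
  rw [not_or] at hcon
  obtain ⟨h3, h5⟩ := hcon
  set Wq : WeierstrassCurve ℚ := W.map (Int.castRingHom ℚ) with hWq
  have hΔq : Wq.Δ = (W.Δ : ℚ) := by rw [hWq, map_Δ]; rfl
  have hc4q : Wq.c₄ = (W.c₄ : ℚ) := by rw [hWq, map_c₄]; rfl
  have hΔq0 : Wq.Δ ≠ 0 := by rw [hΔq]; exact_mod_cast hΔ
  obtain ⟨xT, xP, xQ, hdata, ⟨qT, hqT⟩, ⟨qU, hqU⟩⟩ := hA Wq hΔq0 h3 h5
  set φ : ℚ →+* AlgebraicClosure ℚ := algebraMap ℚ (AlgebraicClosure ℚ) with hφ
  have hφinj : Function.Injective φ := φ.injective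
  set WK : WeierstrassCurve (AlgebraicClosure ℚ) := Wq.map φ with hWK
  have hΔK : WK.Δ = φ Wq.Δ := by rw [hWK, map_Δ]
  have hc4K : WK.c₄ = φ Wq.c₄ := by rw [hWK, map_c₄]
  have hΔK0 : WK.Δ ≠ 0 := by
    rw [hΔK]; exact (map_ne_zero_iff φ hφinj).mpr hΔq0
  obtain ⟨hpsi, hU0, hmain⟩ := hB WK hΔK0 xT xP xQ hdata
  have hpsiK : psi2Sq WK xT = φ (psi2Sq Wq qT) := by
    rw [← hqT, hWK]; exact psi2Sq_map φ Wq qT
  have hpsiq0 : psi2Sq Wq qT ≠ 0 := by
    intro h
    apply hpsi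
    rw [hpsiK, h, map_zero]
  have hqU0 : qU ≠ 0 := by
    intro h
    apply hU0
    rw [← hqU, h, map_zero]
  set tq : ℚ := Wq.Δ / psi2Sq Wq qT ^ 2 with htq
  have htq0 : tq ≠ 0 := div_ne_zero hΔq0 (pow_ne_zero 2 hpsiq0)
  obtain ⟨hid, hj⟩ := hmain (φ qU) (φ tq) (φ (-9 * qU)) (φ (9 / (tq * qU ^ 2)))
    (by rw [hqU]) (by rw [htq, map_div₀, map_pow, ← hpsiK, ← hΔK])
    (by rw [map_mul, map_neg, map_ofNat]) (by simp [map_div₀, map_mul, map_pow, map_ofNat])
  have hid' : (-9 * qU) ^ 2 + ((9 / (tq * qU ^ 2)) ^ 2 + 5 * (9 / (tq * qU ^ 2)) + 9) * (-9 * qU) -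
      (9 / (tq * qU ^ 2)) ^ 2 = 0 := by
    apply hφinj
    rw [map_zero, ← hid]
    simp only [map_sub, map_add, map_mul, map_pow, map_ofNat]
  have hj' : (tq + 27) * (tq + 3) ^ 3 * Wq.Δ = Wq.c₄ ^ 3 * tq := by
    apply hφinj
    rw [hΔK, hc4K] at hj
    simp only [map_add, map_mul, map_pow, map_ofNat]
    exact hj
  set j : ℚ := Wq.c₄ ^ 3 / Wq.Δ with hjdef
  have hjt : (tq + 27) * (tq + 3) ^ 3 = j * tq := by
    rw [hjdef]; field_simp; linarith
  have hjΔ : j * (W.Δ : ℚ) = (W.c₄ : ℚ) ^ 3 := by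
    rw [hjdef, ← hΔq, ← hc4q]; field_simp
  obtain ⟨n1, n2, n3, n4⟩ := hD W hΔ hW j hjΔ
  rcases j_mem_of_identity hC qU tq j hqU0 htq0 hid' hjt with h | h | h | h
  · exact n1 h
  · exact n2 h
  · exact n3 h
  · exact n4 h

end Fermat.Agent.Lib.S51
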