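/-
S51 project, piece (Ca2): the integer 2-descent classification on `y² = x(x-1)(x-81)`.
-/
import Mathlib

set_option autoImplicit false

namespace Fermat.Agent.Lib.S51

/-- squares modulo `3`: `m² = -(n s)²` forces `3 ∣ n s`. -/
theorem h8_mod3_aux : ∀ m n s : ZMod 3, n ≠ 0 → s ≠ 0 → m ^ 2 ≠ n * (-(s ^ 2)) * n := by decide

/-- `m² = n (3a - s²) (n - 3b)` is impossible when `3 ∤ n`, `3 ∤ s`. -/
theorem h8_mod3 (m n s a b : ℤ) (hn : ¬ (3 : ℤ) ∣ n) (hs : ¬ (3 : ℤ) ∣ s)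
    (h : m ^ 2 = n * (3 * a - s ^ 2) * (n - 3 * b)) : False := by
  have hn' : (n : ZMod 3) ≠ 0 := by
    rwa [Ne, ZMod.intCast_zmod_eq_zero_iff_dvd]
  have hs' : (s : ZMod 3) ≠ 0 := by
    rwa [Ne, ZMod.intCast_zmod_eq_zero_iff_dvd]
  have h3 : ((3 : ℤ) : ZMod 3) = 0 := by decide
  have := congrArg (Int.cast : ℤ → ZMod 3) h
  push_cast at this
  have h3' : (3 : ZMod 3) = 0 := by decide
  rw [h3', zero_mul, zero_mul, zero_sub, sub_zero] at this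
  exact h8_mod3_aux _ _ _ hn' hs' this

/-- a positive integer coprime to its cofactor in a square is a square -/
theorem h8_sq_of_coprime_pos (a b c : ℤ) (hab : IsCoprime a b) (h : a * b = c ^ 2) (ha : 0 < a) :
    ∃ α : ℤ, a = α ^ 2 := by
  obtain ⟨α, hα | hα⟩ := Int.sq_of_isCoprime hab h
  · exact ⟨α, hα⟩
  · exfalso
    have : 0 ≤ α ^ 2 := sq_nonneg α
    omega


/-- division step: `m² = 9 X` gives `m = 3 m'` with `m'² = X` -/
theorem h8_div_step (m X : ℤ) (h : m ^ 2 = 9 * X) : ∃ m' : ℤ, m = 3 * m' ∧ m' ^ 2 = X := by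
  have h3 : (3 : ℤ) ∣ m := by
    have : (3 : ℤ) ∣ m ^ 2 := ⟨3 * X, by rw [h]; ring⟩
    exact Int.prime_three.dvd_of_dvd_pow this
  obtain ⟨m', rfl⟩ := h3
  refine ⟨m', rfl, ?_⟩
  have : 9 * m' ^ 2 = 9 * X := by rw [← h]; ring
  exact mul_left_cancel₀ (by norm_num) this

theorem h8_odd_sq_zmod8 : ∀ k : ZMod 8, (2 * k + 1) ^ 2 = 1 := by decide

theorem h8_sq_zmod8_of_odd (s : ℤ) (hs : ¬ (2 : ℤ) ∣ s) : ((s : ZMod 8)) ^ 2 = 1 := by
  have : s % 2 = 1 := by omega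
  obtain ⟨k, hk⟩ : ∃ k, s = 2 * k + 1 := ⟨s / 2, by omega⟩
  rw [hk]
  push_cast
  exact h8_odd_sq_zmod8 _

theorem h8_mod8_aux : ∀ β γ s : ZMod 8, s ^ 2 = 1 →
    β ^ 2 - γ ^ 2 ≠ 10 * s ^ 2 ∧ β ^ 2 - γ ^ 2 ≠ -(10 * s ^ 2) ∧
    β ^ 2 - γ ^ 2 ≠ 2 * s ^ 2 ∧ β ^ 2 - γ ^ 2 ≠ -(2 * s ^ 2) := by decide


/-- The core of the classification of the two factors `B = ±(n - s²)`, `C = ±(n - 81 s²)`. -/
theorem h8_core (B C μ s ε : ℤ) (hε : ε = 1 ∨ ε = -1) (hB : 0 < B) (hC : 0 < C)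
    (hμ : μ ^ 2 = B * C) (hdiff : B - C = ε * 80 * s ^ 2) (hcop : IsCoprime B s)
    (h8 : (2 : ℤ) ∣ B → (8 : ℤ) ∣ B ∧ ¬ (2 : ℤ) ∣ s) :
    ∃ β γ : ℤ, (B = β ^ 2 ∧ C = γ ^ 2) ∨ (B = 5 * β ^ 2 ∧ C = 5 * γ ^ 2) := by
  obtain ⟨g, hgdef⟩ : ∃ g : ℕ, g = Int.gcd B C := ⟨_, rfl⟩
  have hgpos : 0 < g := by
    rw [hgdef]
    exact Int.gcd_pos_of_ne_zero_left _ hB.ne'
  have hgB : (g : ℤ) ∣ B := by rw [hgdef]; exact Int.gcd_dvd_left ..
  have hgC : (g : ℤ) ∣ C := by rw [hgdef]; exact Int.gcd_dvd_right ..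
  -- `g ∣ 80`
  have hg80 : (g : ℤ) ∣ 80 := by
    have h1 : (g : ℤ) ∣ (ε * 80) * s ^ 2 := by
      rw [← hdiff]; exact dvd_sub hgB hgC
    have h2 : IsCoprime (g : ℤ) (s ^ 2) :=
      IsCoprime.of_isCoprime_of_dvd_left hcop.pow_right hgB
    have h3 : (g : ℤ) ∣ ε * 80 := h2.dvd_of_dvd_mul_right h1
    rcases hε with rfl | rfl
    · simpa using h3
    · simpa using h3
  obtain ⟨B', hB'⟩ := hgB
  obtain ⟨C', hC'⟩ := hgC
  have hgZ : (0 : ℤ) < (g : ℤ) := by exact_mod_cast hgpos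
  have hB'pos : 0 < B' := by
    rw [hB'] at hB
    exact (mul_pos_iff_of_pos_left hgZ).mp hB
  have hC'pos : 0 < C' := by
    rw [hC'] at hC
    exact (mul_pos_iff_of_pos_left hgZ).mp hC
  have hcop' : IsCoprime B' C' := by
    rw [Int.isCoprime_iff_gcd_eq_one]
    have h1 : Int.gcd ((g : ℤ) * B') ((g : ℤ) * C') = g := by rw [← hB', ← hC', hgdef]
    rw [Int.gcd_mul_left, Int.natAbs_natCast] at h1
    exact Nat.eq_of_mul_eq_mul_left hgpos (by rw [h1, mul_one])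
  -- `g ∣ μ`
  have hgμ : (g : ℤ) ∣ μ := by
    have : (g : ℤ) ^ 2 ∣ μ ^ 2 := ⟨B' * C', by rw [hμ, hB', hC']; ring⟩
    exact (Int.pow_dvd_pow_iff two_ne_zero).mp this
  obtain ⟨ν, hν⟩ := hgμ
  have hν2 : B' * C' = ν ^ 2 := by
    have : (g : ℤ) ^ 2 * (B' * C') = (g : ℤ) ^ 2 * ν ^ 2 := by
      rw [← mul_pow, ← hν, hμ, hB', hC']; ring
    exact mul_left_cancel₀ (pow_ne_zero 2 hgZ.ne') this
  obtain ⟨β, hβ⟩ := h8_sq_of_coprime_pos B' C' ν hcop' hν2 hB'pos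
  obtain ⟨γ, hγ⟩ := h8_sq_of_coprime_pos C' B' ν hcop'.symm (by rw [mul_comm]; exact hν2) hC'pos
  -- the even case: `8 ∣ g`
  have heven : (2 : ℤ) ∣ (g : ℤ) → (8 : ℤ) ∣ (g : ℤ) ∧ ¬ (2 : ℤ) ∣ s := by
    intro h2
    have h2B : (2 : ℤ) ∣ B := by rw [hB']; exact Dvd.dvd.mul_right h2 _
    obtain ⟨h8B, hsodd⟩ := h8 h2B
    refine ⟨?_, hsodd⟩
    have h8C : (8 : ℤ) ∣ C := by
      have : C = B - ε * 80 * s ^ 2 := by linarith
      rw [this]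
      exact dvd_sub h8B ⟨ε * 10 * s ^ 2, by ring⟩
    rw [hgdef]
    exact Int.dvd_coe_gcd h8B h8C
  -- case analysis on `g`
  have hgdiv : g ∣ 80 := by exact_mod_cast hg80
  have hgmem : g ∈ Nat.divisors 80 := Nat.mem_divisors.mpr ⟨hgdiv, by norm_num⟩
  have hdivs : Nat.divisors 80 = {1, 2, 4, 5, 8, 10, 16, 20, 40, 80} := by decide
  rw [hdivs] at hgmem
  simp only [Finset.mem_insert, Finset.mem_singleton] at hgmem
  -- the two impossible cases `g = 8`, `g = 40` need the relation `β² - γ² = ±(10 or 2) s²`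
  have hrel : (g : ℤ) * (β ^ 2 - γ ^ 2) = ε * 80 * s ^ 2 := by
    rw [← hdiff, hB', hC', hβ, hγ]; ring
  rcases hgmem with rfl | rfl | rfl | rfl | rfl | rfl | rfl | rfl | rfl | rfl
  · exact ⟨β, γ, Or.inl ⟨by rw [hB', hβ]; ring, by rw [hC', hγ]; ring⟩⟩
  · exfalso
    have := (heven (by norm_num)).1
    norm_num at this
  · exfalso
    have := (heven (by norm_num)).1
    norm_num at this
  · exact ⟨β, γ, Or.inr ⟨by rw [hB', hβ]; ring, by rw [hC', hγ]; ring⟩⟩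
  · exfalso
    have hsodd := (heven (by norm_num)).2
    have hs1 := h8_sq_zmod8_of_odd s hsodd
    have hrel' : β ^ 2 - γ ^ 2 = ε * 10 * s ^ 2 := by
      have : ((8 : ℕ) : ℤ) * (β ^ 2 - γ ^ 2) = ((8 : ℕ) : ℤ) * (ε * 10 * s ^ 2) := by
        rw [hrel]; push_cast; ring
      exact mul_left_cancel₀ (by norm_num) this
    have hz := congrArg (Int.cast : ℤ → ZMod 8) hrel'
    push_cast at hz
    obtain ⟨a1, a2, -, -⟩ := h8_mod8_aux (β : ZMod 8) (γ : ZMod 8) (s : ZMod 8) hs1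
    rcases hε with rfl | rfl
    · apply a1; rw [hz]; push_cast; ring
    · apply a2; rw [hz]; push_cast; ring
  · exfalso
    have := (heven (by norm_num)).1
    norm_num at this
  · exact ⟨4 * β, 4 * γ, Or.inl ⟨by rw [hB', hβ]; push_cast; ring, by rw [hC', hγ]; push_cast; ring⟩⟩
  · exfalso
    have := (heven (by norm_num)).1
    norm_num at this
  · exfalso
    have hsodd := (heven (by norm_num)).2
    have hs1 := h8_sq_zmod8_of_odd s hsodd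
    have hrel' : β ^ 2 - γ ^ 2 = ε * 2 * s ^ 2 := by
      have : ((40 : ℕ) : ℤ) * (β ^ 2 - γ ^ 2) = ((40 : ℕ) : ℤ) * (ε * 2 * s ^ 2) := by
        rw [hrel]; push_cast; ring
      exact mul_left_cancel₀ (by norm_num) this
    have hz := congrArg (Int.cast : ℤ → ZMod 8) hrel'
    push_cast at hz
    obtain ⟨-, -, a3, a4⟩ := h8_mod8_aux (β : ZMod 8) (γ : ZMod 8) (s : ZMod 8) hs1
    rcases hε with rfl | rfl
    · apply a3; rw [hz]; push_cast; ring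
    · apply a4; rw [hz]; push_cast; ring
  · exact ⟨4 * β, 4 * γ, Or.inr ⟨by rw [hB', hβ]; push_cast; ring, by rw [hC', hγ]; push_cast; ring⟩⟩


/-- `n` is coprime to `a n - s²` when it is coprime to `s`. -/
theorem h8_coprime_sub (n s a : ℤ) (h : IsCoprime n s) : IsCoprime n (a * n - s ^ 2) := by
  have h1 : IsCoprime n (-(s ^ 2)) := h.pow_right.neg_right
  have h2 := h1.add_mul_left_right a
  have : -(s ^ 2) + n * a = a * n - s ^ 2 := by ring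
  rwa [this] at h2

/-- The first factor is a square. -/
theorem h8_first_sq (n s m : ℤ) (hcop : IsCoprime n s) (hn : 0 < n)
    (h : m ^ 2 = n * (n - s ^ 2) * (n - 81 * s ^ 2)) : ∃ α : ℤ, n = α ^ 2 := by
  have h3 : Prime (3 : ℤ) := Int.prime_three
  by_cases hn3 : (3 : ℤ) ∣ n
  swap
  · -- `3 ∤ n`
    have hc3 : IsCoprime n 3 := (h3.coprime_iff_not_dvd.mpr hn3).symm
    have hc81 : IsCoprime n 81 := by
      have := hc3.pow_right (n := 4)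
      norm_num at this
      exact this
    have hc1 : IsCoprime n (n - s ^ 2) := by
      have := h8_coprime_sub n s 1 hcop
      rwa [one_mul] at this
    have hc2 : IsCoprime n (n - 81 * s ^ 2) := by
      have h1 : IsCoprime n (-(81 * s ^ 2)) := (hc81.mul_right hcop.pow_right).neg_right
      have h2 := h1.add_mul_left_right 1
      have : -(81 * s ^ 2) + n * 1 = n - 81 * s ^ 2 := by ring
      rwa [this] at h2
    exact h8_sq_of_coprime_pos n ((n - s ^ 2) * (n - 81 * s ^ 2)) m (hc1.mul_right hc2)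
      (by rw [h]; ring) hn
  -- `3 ∣ n`, hence `3 ∤ s`
  have hs3 : ¬ (3 : ℤ) ∣ s := fun hs3 => h3.not_isUnit (hcop.isUnit_of_dvd' hn3 hs3)
  obtain ⟨n₁, rfl⟩ := hn3
  have hcop₁ : IsCoprime n₁ s := hcop.of_mul_left_right
  obtain ⟨m₁, -, hm₁⟩ := h8_div_step m (n₁ * (3 * n₁ - s ^ 2) * (n₁ - 27 * s ^ 2))
    (by rw [h]; ring)
  by_cases hn₁ : (3 : ℤ) ∣ n₁
  swap
  · exact (h8_mod3 m₁ n₁ s n₁ (9 * s ^ 2) hn₁ hs3 (by rw [hm₁]; ring)).elim
  obtain ⟨n₂, rfl⟩ := hn₁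
  have hcop₂ : IsCoprime n₂ s := hcop₁.of_mul_left_right
  obtain ⟨m₂, -, hm₂⟩ := h8_div_step m₁ (n₂ * (9 * n₂ - s ^ 2) * (n₂ - 9 * s ^ 2))
    (by rw [hm₁]; ring)
  have hn₂pos : 0 < n₂ := by omega
  by_cases hn₂ : (3 : ℤ) ∣ n₂
  swap
  · -- `v₃(n) = 2`
    have hc3 : IsCoprime n₂ 3 := (h3.coprime_iff_not_dvd.mpr hn₂).symm
    have hc9 : IsCoprime n₂ 9 := by
      have := hc3.pow_right (n := 2)
      norm_num at this
      exact this
    have hc1 : IsCoprime n₂ (9 * n₂ - s ^ 2) := h8_coprime_sub n₂ s 9 hcop₂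
    have hc2 : IsCoprime n₂ (n₂ - 9 * s ^ 2) := by
      have h1 : IsCoprime n₂ (-(9 * s ^ 2)) := (hc9.mul_right hcop₂.pow_right).neg_right
      have h2 := h1.add_mul_left_right 1
      have : -(9 * s ^ 2) + n₂ * 1 = n₂ - 9 * s ^ 2 := by ring
      rwa [this] at h2
    obtain ⟨α, hα⟩ := h8_sq_of_coprime_pos n₂ ((9 * n₂ - s ^ 2) * (n₂ - 9 * s ^ 2)) m₂
      (hc1.mul_right hc2) (by rw [hm₂]; ring) hn₂pos
    exact ⟨3 * α, by rw [hα]; ring⟩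
  obtain ⟨n₃, rfl⟩ := hn₂
  have hcop₃ : IsCoprime n₃ s := hcop₂.of_mul_left_right
  obtain ⟨m₃, -, hm₃⟩ := h8_div_step m₂ (n₃ * (27 * n₃ - s ^ 2) * (n₃ - 3 * s ^ 2))
    (by rw [hm₂]; ring)
  by_cases hn₃ : (3 : ℤ) ∣ n₃
  swap
  · exact (h8_mod3 m₃ n₃ s (9 * n₃) (s ^ 2) hn₃ hs3 (by rw [hm₃]; ring)).elim
  obtain ⟨n₄, rfl⟩ := hn₃
  have hcop₄ : IsCoprime n₄ s := hcop₃.of_mul_left_right
  obtain ⟨m₄, -, hm₄⟩ := h8_div_step m₃ (n₄ * (81 * n₄ - s ^ 2) * (n₄ - s ^ 2))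
    (by rw [hm₃]; ring)
  have hn₄pos : 0 < n₄ := by omega
  have hc1 : IsCoprime n₄ (81 * n₄ - s ^ 2) := h8_coprime_sub n₄ s 81 hcop₄
  have hc2 : IsCoprime n₄ (n₄ - s ^ 2) := by
    have := h8_coprime_sub n₄ s 1 hcop₄
    rwa [one_mul] at this
  obtain ⟨α, hα⟩ := h8_sq_of_coprime_pos n₄ ((81 * n₄ - s ^ 2) * (n₄ - s ^ 2)) m₄
    (hc1.mul_right hc2) (by rw [hm₄]; ring) hn₄pos
  exact ⟨9 * α, by rw [hα]; ring⟩


/-- If `α² - s²` is even with `α`, `s` coprime then it is divisible by `8` and `s` is odd. -/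
theorem h8_eight_dvd (α s k : ℤ) (hcop : IsCoprime (α ^ 2) s) (h2 : (2 : ℤ) ∣ α ^ 2 - k * s ^ 2)
    (hk : k % 8 = 1) : (8 : ℤ) ∣ α ^ 2 - k * s ^ 2 ∧ ¬ (2 : ℤ) ∣ s := by
  have hsodd : ¬ (2 : ℤ) ∣ s := by
    intro hs
    have hα2 : (2 : ℤ) ∣ α ^ 2 := by
      have : α ^ 2 = (α ^ 2 - k * s ^ 2) + k * s ^ 2 := by ring
      rw [this]
      exact dvd_add h2 (Dvd.dvd.mul_left (Dvd.dvd.pow hs two_ne_zero) _)
    exact Int.prime_two.not_isUnit (hcop.isUnit_of_dvd' hα2 hs)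
  refine ⟨?_, hsodd⟩
  have hαodd : ¬ (2 : ℤ) ∣ α := by
    intro hα
    have hks : (2 : ℤ) ∣ k * s ^ 2 := by
      have : k * s ^ 2 = α ^ 2 - (α ^ 2 - k * s ^ 2) := by ring
      rw [this]
      exact dvd_sub (Dvd.dvd.pow hα two_ne_zero) h2
    rcases Int.prime_two.dvd_or_dvd hks with h | h
    · omega
    · exact hsodd (Int.prime_two.dvd_of_dvd_pow h)
  have h1 := h8_sq_zmod8_of_odd α hαodd
  have h2' := h8_sq_zmod8_of_odd s hsodd
  have hk' : ((k : ℤ) : ZMod 8) = 1 := by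
    have : k = 8 * (k / 8) + 1 := by omega
    rw [this]
    push_cast
    have : (8 : ZMod 8) = 0 := by decide
    rw [this]
    ring
  have hz : ((α ^ 2 - k * s ^ 2 : ℤ) : ZMod 8) = 0 := by
    push_cast
    rw [h1, h2', hk']
    ring
  exact (ZMod.intCast_zmod_eq_zero_iff_dvd _ 8).mp hz

/-- **Piece (Ca2)**: the integer 2-descent classification for `y² = x (x - 1) (x - 81)`. -/
theorem h8_class_int (n s m : ℤ) (hcop : IsCoprime n s) (hs : s ≠ 0) (hm : m ≠ 0)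
    (h : m ^ 2 = n * (n - s ^ 2) * (n - 81 * s ^ 2)) :
    ∃ α β γ : ℤ, n = α ^ 2 ∧
      ((n - s ^ 2 = β ^ 2 ∧ n - 81 * s ^ 2 = γ ^ 2) ∨
       (s ^ 2 - n = β ^ 2 ∧ 81 * s ^ 2 - n = γ ^ 2) ∨
       (n - s ^ 2 = 5 * β ^ 2 ∧ n - 81 * s ^ 2 = 5 * γ ^ 2) ∨
       (s ^ 2 - n = 5 * β ^ 2 ∧ 81 * s ^ 2 - n = 5 * γ ^ 2)) := by
  have hs2 : 0 < s ^ 2 := by positivity
  have hm2 : 0 < m ^ 2 := by positivity
  -- signs
  have hn : 0 < n := by
    by_contra hle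
    push Not at hle
    have h1 : n - s ^ 2 < 0 := by linarith
    have h2 : n - 81 * s ^ 2 < 0 := by linarith
    have h3 : 0 < (n - s ^ 2) * (n - 81 * s ^ 2) := mul_pos_of_neg_of_neg h1 h2
    have h4 : n * ((n - s ^ 2) * (n - 81 * s ^ 2)) ≤ 0 :=
      mul_nonpos_of_nonpos_of_nonneg hle h3.le
    rw [h, mul_assoc] at hm2
    linarith
  have hBC : 0 < (n - s ^ 2) * (n - 81 * s ^ 2) := by
    rw [h, mul_assoc] at hm2
    exact (mul_pos_iff_of_pos_left hn).mp hm2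
  -- `n` is a square
  obtain ⟨α, hα⟩ := h8_first_sq n s m hcop hn h
  have hα0 : α ≠ 0 := by
    rintro rfl
    simp at hα
    omega
  -- `μ² = B C`
  have hαm : α ∣ m := by
    have : α ^ 2 ∣ m ^ 2 := ⟨(n - s ^ 2) * (n - 81 * s ^ 2), by rw [h, hα]; ring⟩
    exact (Int.pow_dvd_pow_iff two_ne_zero).mp this
  obtain ⟨μ, hμ⟩ := hαm
  have hμ2 : μ ^ 2 = (n - s ^ 2) * (n - 81 * s ^ 2) := by
    have : α ^ 2 * μ ^ 2 = α ^ 2 * ((n - s ^ 2) * (n - 81 * s ^ 2)) := by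
      rw [← mul_pow, ← hμ, h, hα]; ring
    exact mul_left_cancel₀ (pow_ne_zero 2 hα0) this
  have hcopα : IsCoprime (α ^ 2) s := by rwa [← hα]
  refine ⟨α, ?_⟩
  rcases mul_pos_iff.mp hBC with ⟨hB, hC⟩ | ⟨hB, hC⟩
  · -- both positive
    have hcopB : IsCoprime (n - s ^ 2) s := by
      have h1 : IsCoprime s (n - s ^ 2) := by
        have h1 : IsCoprime s n := hcop.symm
        have h2 := h1.add_mul_left_right (-s)
        have : n + s * -s = n - s ^ 2 := by ring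
        rwa [this] at h2
      exact h1.symm
    obtain ⟨β, γ, hcase⟩ := h8_core (n - s ^ 2) (n - 81 * s ^ 2) μ s 1 (Or.inl rfl) hB hC hμ2
      (by ring) hcopB (by
        intro h2
        have := h8_eight_dvd α s 1 hcopα (by rw [← hα, one_mul]; exact h2) (by norm_num)
        rwa [← hα, one_mul] at this)
    rcases hcase with ⟨h1, h2⟩ | ⟨h1, h2⟩
    · exact ⟨β, γ, hα, Or.inl ⟨h1, h2⟩⟩
    · exact ⟨β, γ, hα, Or.inr (Or.inr (Or.inl ⟨h1, h2⟩))⟩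
  · -- both negative
    have hcopB : IsCoprime (s ^ 2 - n) s := by
      have h1 : IsCoprime s (s ^ 2 - n) := by
        have h1 : IsCoprime s (-n) := hcop.symm.neg_right
        have h2 := h1.add_mul_left_right s
        have : -n + s * s = s ^ 2 - n := by ring
        rwa [this] at h2
      exact h1.symm
    obtain ⟨β, γ, hcase⟩ := h8_core (s ^ 2 - n) (81 * s ^ 2 - n) μ s (-1) (Or.inr rfl)
      (by linarith) (by linarith) (by rw [hμ2]; ring) (by ring) hcopB (by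
        intro h2
        have h2' : (2 : ℤ) ∣ α ^ 2 - 1 * s ^ 2 := by
          have : α ^ 2 - 1 * s ^ 2 = -(s ^ 2 - n) := by rw [hα]; ring
          rw [this]
          exact (dvd_neg).mpr h2
        obtain ⟨h8, hodd⟩ := h8_eight_dvd α s 1 hcopα h2' (by norm_num)
        refine ⟨?_, hodd⟩
        have : s ^ 2 - n = -(α ^ 2 - 1 * s ^ 2) := by rw [hα]; ring
        rw [this]
        exact (dvd_neg).mpr h8)
    rcases hcase with ⟨h1, h2⟩ | ⟨h1, h2⟩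
    · exact ⟨β, γ, hα, Or.inr (Or.inl ⟨h1, h2⟩)⟩
    · exact ⟨β, γ, hα, Or.inr (Or.inr (Or.inr ⟨h1, h2⟩))⟩

end Fermat.Agent.Lib.S51
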