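/-
S51 project, piece (Cb) of the descent (helper4's plan, msg 170): 2-adic growth of the denominator
under halving/doubling on `E2 : y² = x(x-1)(x-81)`.

If `a² - 1 = b²`, `a² - 81 = c²` (rational, `abc ≠ 0`) and `z = (a⁴ - 81)/(2abc)`, then the
2-adic valuation of the denominator of `z` is strictly larger than that of `a`.
-/
import Mathlib

set_option autoImplicit false

namespace Fermat.Agent.Lib.S51

/-- A rational number whose square is an integer is an integer. -/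
theorem h5_int_of_sq_int (q : ℚ) (n : ℤ) (h : q ^ 2 = n) : ∃ m : ℤ, q = m := by
  have hden : (q ^ 2).den = 1 := by rw [h]; exact Rat.den_intCast n
  rw [Rat.den_pow] at hden
  have h1 : q.den = 1 := by
    rcases pow_eq_one_iff.mp hden with h0 | h0
    · exact h0
    · exact absurd h0 two_ne_zero
  exact ⟨q.num, (Rat.den_eq_one_iff q).mp h1 |>.symm⟩

theorem h5_sq_emod_eight_of_odd (A : ℤ) (h : A % 2 = 1) : A ^ 2 % 8 = 1 := by
  have h8 : A % 8 = 1 ∨ A % 8 = 3 ∨ A % 8 = 5 ∨ A % 8 = 7 := by omega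
  rcases h8 with h | h | h | h <;> simp [pow_two, Int.mul_emod, h]

theorem h5_four_dvd_of_eight_dvd_sq (B : ℤ) (h : B ^ 2 % 8 = 0) : B % 4 = 0 := by
  have h8 : B % 8 = 0 ∨ B % 8 = 1 ∨ B % 8 = 2 ∨ B % 8 = 3 ∨ B % 8 = 4 ∨ B % 8 = 5 ∨ B % 8 = 6
      ∨ B % 8 = 7 := by omega
  rcases h8 with h' | h' | h' | h' | h' | h' | h' | h' <;>
    simp [pow_two, Int.mul_emod, h'] at h <;> omega

theorem h5_sq_emod_four (B : ℤ) : B ^ 2 % 4 = 0 ∨ B ^ 2 % 4 = 1 := by
  have h4 : B % 4 = 0 ∨ B % 4 = 1 ∨ B % 4 = 2 ∨ B % 4 = 3 := by omega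
  rcases h4 with h' | h' | h' | h' <;> simp [pow_two, Int.mul_emod, h']

theorem h5_isCoprime_two_of_odd (N : ℤ) (h : N % 2 = 1) : IsCoprime (2:ℤ) N := by
  refine ⟨-(N / 2), 1, ?_⟩
  have := Int.emod_add_mul_ediv N 2
  rw [h] at this
  linarith

/-- Integer form of the growth statement: `2^(k+1) ∣ den z` whenever `2^k ∣ S = den a`. -/
theorem h5_growth_int (A B C S zn zd : ℤ) (hcop : IsCoprime A S)
    (hB : B ^ 2 = A ^ 2 - S ^ 2) (hC : C ^ 2 = A ^ 2 - 81 * S ^ 2)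
    (key : zn * (2 * A * B * C * S) = zd * (A ^ 4 - 81 * S ^ 4)) (k : ℕ) (hk : (2:ℤ) ^ k ∣ S) :
    (2:ℤ) ^ (k + 1) ∣ zd := by
  by_cases hSe : S % 2 = 0
  · -- S even: A odd, N odd
    have hA : A % 2 = 1 := by
      by_contra hA
      have hA0 : A % 2 = 0 := by omega
      have h2A : (2:ℤ) ∣ A := Int.dvd_of_emod_eq_zero hA0
      have h2S : (2:ℤ) ∣ S := Int.dvd_of_emod_eq_zero hSe
      have := hcop.isUnit_of_dvd' h2A h2S
      exact absurd this (by decide)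
    have hN : (A ^ 4 - 81 * S ^ 4) % 2 = 1 := by
      have h1 : A ^ 4 % 2 = 1 := by
        rw [show A ^ 4 = A * A * A * A by ring]; simp [Int.mul_emod, hA]
      have h2 : (81 * S ^ 4) % 2 = 0 := by
        rw [show 81 * S ^ 4 = 81 * S * S * S * S by ring]; simp [Int.mul_emod, hSe]
      omega
    have hdvd : (2:ℤ) ^ (k + 1) ∣ zd * (A ^ 4 - 81 * S ^ 4) := by
      rw [← key]
      obtain ⟨S', hS'⟩ := hk
      refine ⟨zn * A * B * C * S', ?_⟩
      rw [hS']; ring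
    have hcop2 : IsCoprime ((2:ℤ) ^ (k + 1)) (A ^ 4 - 81 * S ^ 4) :=
      IsCoprime.pow_left (h5_isCoprime_two_of_odd _ hN)
    exact hcop2.dvd_of_dvd_mul_right hdvd
  · -- S odd
    have hS1 : S % 2 = 1 := by omega
    have hk0 : k = 0 := by
      by_contra hk0
      have h2 : (2:ℤ) ∣ S := dvd_trans (dvd_pow_self 2 hk0) hk
      have := Int.emod_eq_zero_of_dvd h2
      omega
    subst hk0
    have hS8 := h5_sq_emod_eight_of_odd S hS1
    have hA : A % 2 = 1 := by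
      by_contra hA
      have hA0 : A % 2 = 0 := by omega
      have hA4 : A ^ 2 % 4 = 0 := by
        have h4 : A % 4 = 0 ∨ A % 4 = 2 := by omega
        rcases h4 with h' | h' <;> simp [pow_two, Int.mul_emod, h']
      have := h5_sq_emod_four B
      omega
    have hA8 := h5_sq_emod_eight_of_odd A hA
    have hB4 : B % 4 = 0 := h5_four_dvd_of_eight_dvd_sq B (by omega)
    have hC4 : C % 4 = 0 := h5_four_dvd_of_eight_dvd_sq C (by omega)
    obtain ⟨B₁, rfl⟩ := Int.dvd_of_emod_eq_zero hB4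
    obtain ⟨C₁, rfl⟩ := Int.dvd_of_emod_eq_zero hC4
    -- M := (A² + 9 S²)/2 is odd
    have hM : (A ^ 2 + 9 * S ^ 2) % 4 = 2 := by omega
    obtain ⟨M, hMdef⟩ : ∃ M, A ^ 2 + 9 * S ^ 2 = 2 * M := ⟨(A ^ 2 + 9 * S ^ 2) / 2, by omega⟩
    have hModd : M % 2 = 1 := by omega
    have hQodd : (2 * B₁ ^ 2 - S ^ 2) % 2 = 1 := by omega
    have hfac : A ^ 4 - 81 * S ^ 4 = 16 * ((2 * B₁ ^ 2 - S ^ 2) * M) := by
      have e1 : A ^ 2 - 9 * S ^ 2 = 8 * (2 * B₁ ^ 2 - S ^ 2) := by linear_combination -hB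
      calc A ^ 4 - 81 * S ^ 4 = (A ^ 2 - 9 * S ^ 2) * (A ^ 2 + 9 * S ^ 2) := by ring
        _ = 16 * ((2 * B₁ ^ 2 - S ^ 2) * M) := by rw [e1, hMdef]; ring
    have hdvd : (2:ℤ) ∣ zd * ((2 * B₁ ^ 2 - S ^ 2) * M) := by
      refine ⟨zn * A * B₁ * C₁ * S, ?_⟩
      have : (16:ℤ) * (zd * ((2 * B₁ ^ 2 - S ^ 2) * M)) = 16 * (2 * (zn * A * B₁ * C₁ * S)) := by
        rw [hfac] at key; linear_combination -key
      exact mul_left_cancel₀ (by norm_num) this
    have hodd : ((2 * B₁ ^ 2 - S ^ 2) * M) % 2 = 1 := by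
      rw [Int.mul_emod, hQodd, hModd]; rfl
    have := (h5_isCoprime_two_of_odd _ hodd).dvd_of_dvd_mul_right hdvd
    simpa using this

/-- **2-adic growth** (piece (Cb)). -/
theorem h5_growth (a b c : ℚ) (h1 : a ^ 2 - 1 = b ^ 2) (h2 : a ^ 2 - 81 = c ^ 2)
    (habc : a * b * c ≠ 0) :
    padicValNat 2 a.den < padicValNat 2 ((a ^ 4 - 81) / (2 * a * b * c)).den := by
  have hS0 : (a.den : ℚ) ≠ 0 := by exact_mod_cast a.den_ne_zero
  have haS : a * (a.den : ℚ) = a.num := Rat.mul_den_eq_num a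
  have ha0 : a ≠ 0 := fun h => habc (by rw [h]; ring)
  have hb0 : b ≠ 0 := fun h => habc (by rw [h]; ring)
  have hc0 : c ≠ 0 := fun h => habc (by rw [h]; ring)
  -- B and C
  obtain ⟨B, hB⟩ := h5_int_of_sq_int (b * a.den) (a.num ^ 2 - (a.den : ℤ) ^ 2) (by
    push_cast; rw [← haS]; linear_combination -(a.den : ℚ) ^ 2 * h1)
  obtain ⟨C, hC⟩ := h5_int_of_sq_int (c * a.den) (a.num ^ 2 - 81 * (a.den : ℤ) ^ 2) (by
    push_cast; rw [← haS]; linear_combination -(a.den : ℚ) ^ 2 * h2)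
  have hBsq : B ^ 2 = a.num ^ 2 - (a.den : ℤ) ^ 2 := by
    have : ((B:ℚ)) ^ 2 = (a.num : ℚ) ^ 2 - (a.den : ℚ) ^ 2 := by
      rw [← hB, ← haS]; linear_combination -(a.den : ℚ) ^ 2 * h1
    exact_mod_cast this
  have hCsq : C ^ 2 = a.num ^ 2 - 81 * (a.den : ℤ) ^ 2 := by
    have : ((C:ℚ)) ^ 2 = (a.num : ℚ) ^ 2 - 81 * (a.den : ℚ) ^ 2 := by
      rw [← hC, ← haS]; linear_combination -(a.den : ℚ) ^ 2 * h2
    exact_mod_cast this
  set z : ℚ := (a ^ 4 - 81) / (2 * a * b * c) with hz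
  have hzq : z * (2 * (a.num : ℚ) * B * C * a.den) = (a.num : ℚ) ^ 4 - 81 * (a.den : ℚ) ^ 4 := by
    rw [← hB, ← hC, ← haS, hz]
    field_simp
  have key : z.num * (2 * a.num * B * C * (a.den : ℤ))
      = (z.den : ℤ) * (a.num ^ 4 - 81 * (a.den : ℤ) ^ 4) := by
    have : (z.num : ℚ) * (2 * (a.num : ℚ) * B * C * a.den)
        = (z.den : ℚ) * ((a.num : ℚ) ^ 4 - 81 * (a.den : ℚ) ^ 4) := by
      rw [← hzq, ← Rat.mul_den_eq_num z]; ring
    exact_mod_cast this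
  have hcop : IsCoprime a.num (a.den : ℤ) := Rat.isCoprime_num_den a
  -- apply the integer statement with k = padicValNat 2 a.den
  have hk : (2:ℤ) ^ (padicValNat 2 a.den) ∣ (a.den : ℤ) := by
    have : 2 ^ (padicValNat 2 a.den) ∣ a.den := pow_padicValNat_dvd
    exact_mod_cast this
  have hdvd := h5_growth_int a.num B C a.den z.num z.den hcop hBsq hCsq key _ hk
  have hdvd' : 2 ^ (padicValNat 2 a.den + 1) ∣ z.den := by exact_mod_cast hdvd
  have := (padicValNat_dvd_iff_le (p := 2) z.den_ne_zero).mp hdvd'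
  omega


end Fermat.Agent.Lib.S51
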