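/-
helper4: S51 piece (C): the rational points of 15a1 : Y^2 = X (X - 16) (X + 9),
via the 2-isogenous curve E2 : y^2 = x (x - 1) (x - 81) and a 2-adic infinite descent.
-/
import Mathlib
import Fermat.Agent.Lib.S51.Defs
import Fermat.Agent.Lib.S51.DescentClassInt
import Fermat.Agent.Lib.S51.DescentGrowth

namespace Fermat.Agent.Lib.S51

/-- (Ca) the 2-descent class theorem on `E2 : y^2 = x (x - 1) (x - 81)`. -/
def H4ClassE2 : Prop :=
  ∀ x y : ℚ, y ^ 2 = x * (x - 1) * (x - 81) → y ≠ 0 →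
    ∃ a b c : ℚ, x = a ^ 2 ∧
      ((x - 1 = b ^ 2 ∧ x - 81 = c ^ 2) ∨ (1 - x = b ^ 2 ∧ 81 - x = c ^ 2) ∨
        (x - 1 = 5 * b ^ 2 ∧ x - 81 = 5 * c ^ 2) ∨ (1 - x = 5 * b ^ 2 ∧ 81 - x = 5 * c ^ 2))

/-- (Cb) 2-adic growth of the denominator under doubling on `E2`. -/
def H4GrowthE2 : Prop :=
  ∀ a b c : ℚ, a ^ 2 - 1 = b ^ 2 → a ^ 2 - 81 = c ^ 2 → a * b * c ≠ 0 →
    padicValNat 2 a.den < padicValNat 2 ((a ^ 4 - 81) / (2 * a * b * c)).den

/-- the `x`-coordinate of the double of a point of `E2`, as a function of its `x`-coordinate. -/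
noncomputable def h4dup (t : ℚ) : ℚ := (t ^ 2 - 81) ^ 2 / (4 * (t * (t - 1) * (t - 81)))

theorem h4dup_of_point (x y : ℚ) (h : y ^ 2 = x * (x - 1) * (x - 81)) :
    ((x ^ 2 - 81) / (2 * y)) ^ 2 = h4dup x := by
  unfold h4dup
  rw [div_pow, mul_pow, h]
  norm_num

theorem h4dup_of_triple (a b c : ℚ) (h1 : a ^ 2 - 1 = b ^ 2) (h2 : a ^ 2 - 81 = c ^ 2) :
    ((a ^ 4 - 81) / (2 * a * b * c)) ^ 2 = h4dup (a ^ 2) := by
  have h : (a * b * c) ^ 2 = a ^ 2 * (a ^ 2 - 1) * (a ^ 2 - 81) := by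
    rw [h1, h2]; ring
  have := h4dup_of_point (a ^ 2) (a * b * c) h
  rw [← this]
  congr 1
  ring

theorem h4dup_inv (x : ℚ) (h0 : x ≠ 0) (h1 : x - 1 ≠ 0) (h81 : x - 81 ≠ 0) :
    h4dup (81 / x) = h4dup x := by
  unfold h4dup
  have e1 : 81 / x - 1 = (81 - x) / x := by field_simp
  have e2 : 81 / x - 81 = 81 * (1 - x) / x := by field_simp
  have e3 : (81 / x) ^ 2 - 81 = 81 * (81 - x ^ 2) / x ^ 2 := by field_simp
  rw [e1, e2, e3]
  have h1' : (1 : ℚ) - x ≠ 0 := by intro h; apply h1; linarith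
  have h81' : (81 : ℚ) - x ≠ 0 := by intro h; apply h81; linarith
  field_simp
  ring

theorem h4dup_one (x : ℚ) (h0 : x ≠ 0) (h1 : x - 1 ≠ 0) (h81 : x - 81 ≠ 0) :
    h4dup ((x - 81) / (x - 1)) = h4dup x := by
  unfold h4dup
  have e1 : (x - 81) / (x - 1) - 1 = -80 / (x - 1) := by field_simp; ring
  have e2 : (x - 81) / (x - 1) - 81 = -80 * x / (x - 1) := by field_simp; ring
  have e3 : ((x - 81) / (x - 1)) ^ 2 - 81 = -80 * (x ^ 2 - 81) / (x - 1) ^ 2 := by
    field_simp; ring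
  rw [e1, e2, e3]
  field_simp

theorem h4dup_eightyone (x : ℚ) (h0 : x ≠ 0) (h1 : x - 1 ≠ 0) (h81 : x - 81 ≠ 0) :
    h4dup (81 * (x - 1) / (x - 81)) = h4dup x := by
  unfold h4dup
  have e1 : 81 * (x - 1) / (x - 81) - 1 = 80 * x / (x - 81) := by field_simp; ring
  have e2 : 81 * (x - 1) / (x - 81) - 81 = 6480 / (x - 81) := by field_simp; ring
  have e3 : (81 * (x - 1) / (x - 81)) ^ 2 - 81 = 6480 * (x ^ 2 - 81) / (x - 81) ^ 2 := by
    field_simp; ring
  rw [e1, e2, e3]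
  field_simp
  ring


/-- Translation by a 2-torsion point: every rational point of `E2` with `y ≠ 0` gives a point
of the trivial class with the same double. -/
theorem h4_translate (hC : H4ClassE2) (x y : ℚ) (h : y ^ 2 = x * (x - 1) * (x - 81))
    (hy : y ≠ 0) :
    ∃ a b c : ℚ, a ^ 2 - 1 = b ^ 2 ∧ a ^ 2 - 81 = c ^ 2 ∧ a * b * c ≠ 0 ∧
      (x ^ 2 - 81) / (2 * y) = (a ^ 4 - 81) / (2 * a * b * c) := by
  have hx0 : x ≠ 0 := by rintro rfl; apply hy; nlinarith [h]
  have hx1 : x - 1 ≠ 0 := by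
    intro h0; apply hy; rw [h0] at h; simpa using h
  have hx81 : x - 81 ≠ 0 := by
    intro h0; apply hy; rw [h0] at h; simpa using h
  -- it suffices to find a triple with the right duplication value
  suffices hsuff : ∃ a b c : ℚ, a ^ 2 - 1 = b ^ 2 ∧ a ^ 2 - 81 = c ^ 2 ∧ a * b * c ≠ 0 ∧
      h4dup (a ^ 2) = h4dup x by
    obtain ⟨a, b, c, h1, h2, h0, hd⟩ := hsuff
    have hsq : ((x ^ 2 - 81) / (2 * y)) ^ 2 = ((a ^ 4 - 81) / (2 * a * b * c)) ^ 2 := by
      rw [h4dup_of_point x y h, h4dup_of_triple a b c h1 h2, hd]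
    rcases sq_eq_sq_iff_eq_or_eq_neg.mp hsq with he | he
    · exact ⟨a, b, c, h1, h2, h0, he⟩
    · refine ⟨a, b, -c, h1, by rw [h2]; ring, ?_, ?_⟩
      · simpa using h0
      · rw [he]
        have : 2 * a * b * -c = -(2 * a * b * c) := by ring
        rw [this, div_neg]
  obtain ⟨a, b, c, hxa, hcase⟩ := hC x y h hy
  have ha : a ≠ 0 := by rintro rfl; apply hx0; simpa using hxa
  have ha2 : a ^ 2 = x := hxa.symm
  rcases hcase with ⟨hb, hc⟩ | ⟨hb, hc⟩ | ⟨hb, hc⟩ | ⟨hb, hc⟩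
  · -- trivial class
    have hb0 : b ≠ 0 := by rintro rfl; apply hx1; simpa using hb
    have hc0 : c ≠ 0 := by rintro rfl; apply hx81; simpa using hc
    exact ⟨a, b, c, by rw [ha2, hb], by rw [ha2, hc], by positivity, by rw [ha2]⟩
  · -- class of (0,0): x ↦ 81 / x
    have hb0 : b ≠ 0 := by rintro rfl; apply hx1; linarith [hb]
    have hc0 : c ≠ 0 := by rintro rfl; apply hx81; linarith [hc]
    have hb2 : b ^ 2 = 1 - x := hb.symm
    have hc2 : c ^ 2 = 81 - x := hc.symm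
    refine ⟨9 / a, c / a, 9 * b / a, ?_, ?_, by positivity, ?_⟩
    · rw [div_pow, div_pow, ha2, hc2]; field_simp; ring
    · rw [div_pow, div_pow, mul_pow, ha2, hb2]; field_simp; ring
    · rw [div_pow, ha2]
      have : (9 : ℚ) ^ 2 / x = 81 / x := by norm_num
      rw [this, h4dup_inv x hx0 hx1 hx81]
  · -- class of (81,0): x ↦ 81 (x - 1) / (x - 81)
    have hb0 : b ≠ 0 := by rintro rfl; apply hx1; simpa using hb
    have hc0 : c ≠ 0 := by rintro rfl; apply hx81; simpa using hc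
    have hb2 : b ^ 2 = (x - 1) / 5 := by rw [hb]; ring
    have hc2 : c ^ 2 = (x - 81) / 5 := by rw [hc]; ring
    refine ⟨9 * b / c, 4 * a / c, 36 / c, ?_, ?_, by positivity, ?_⟩
    · rw [div_pow, div_pow, mul_pow, mul_pow, ha2, hb2, hc2]; field_simp; ring
    · rw [div_pow, div_pow, mul_pow, hb2, hc2]; field_simp; ring
    · rw [div_pow, mul_pow, hb2, hc2]
      have : (9 : ℚ) ^ 2 * ((x - 1) / 5) / ((x - 81) / 5) = 81 * (x - 1) / (x - 81) := by
        field_simp; ring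
      rw [this, h4dup_eightyone x hx0 hx1 hx81]
  · -- class of (1,0): x ↦ (x - 81) / (x - 1)
    have hb0 : b ≠ 0 := by rintro rfl; apply hx1; linarith [hb]
    have hc0 : c ≠ 0 := by rintro rfl; apply hx81; linarith [hc]
    have hb2 : b ^ 2 = (1 - x) / 5 := by rw [hb]; ring
    have hc2 : c ^ 2 = (81 - x) / 5 := by rw [hc]; ring
    have hx1' : (1 : ℚ) - x ≠ 0 := by intro h; apply hx1; linarith
    refine ⟨c / b, 4 / b, 4 * a / b, ?_, ?_, by positivity, ?_⟩
    · rw [div_pow, div_pow, hb2, hc2]; field_simp; ring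
    · rw [div_pow, div_pow, mul_pow, ha2, hb2, hc2]; field_simp; ring
    · rw [div_pow, hb2, hc2]
      have : (81 - x) / 5 / ((1 - x) / 5) = (x - 81) / (x - 1) := by
        field_simp; ring
      rw [this, h4dup_one x hx0 hx1 hx81]


/-- Halving on `E2`: a point of the trivial class is the double of a rational point. -/
theorem h4_halve (a b c : ℚ) (h1 : a ^ 2 - 1 = b ^ 2) (h2 : a ^ 2 - 81 = c ^ 2) :
    ∃ X Y : ℚ, Y ^ 2 = X * (X - 1) * (X - 81) ∧ Y ≠ 0 ∧ a = (X ^ 2 - 81) / (2 * Y) := by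
  have hp : a + b ≠ 0 := by
    intro h0
    have : (a + b) * (a - b) = 1 := by linear_combination h1
    rw [h0, zero_mul] at this
    exact zero_ne_one this
  have hq : a + c ≠ 0 := by
    intro h0
    have : (a + c) * (a - c) = 81 := by linear_combination h2
    rw [h0, zero_mul] at this
    norm_num at this
  have hw : b + c ≠ 0 := by
    intro h0
    have : (b + c) * (b - c) = 80 := by linear_combination h2 - h1
    rw [h0, zero_mul] at this
    norm_num at this
  refine ⟨(a + b) * (a + c), (a + b) * (a + c) * (b + c), ?_, by positivity, ?_⟩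
  · have e1 : (a + b) * (a + c) - 1 = (a + b) * (b + c) := by linear_combination h1
    have e2 : (a + b) * (a + c) - 81 = (a + c) * (b + c) := by linear_combination h2
    rw [e1, e2]; ring
  · rw [eq_div_iff (by positivity)]
    linear_combination (-(a ^ 2 - c ^ 2)) * h1 - h2


/-- The trivial class of `E2` contains no rational point (2-adic infinite descent). -/
theorem h4_no_trivial_class (hC : H4ClassE2) (hG : H4GrowthE2) (a b c : ℚ)
    (h1 : a ^ 2 - 1 = b ^ 2) (h2 : a ^ 2 - 81 = c ^ 2) : False := by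
  induction hn : padicValNat 2 a.den using Nat.strong_induction_on generalizing a b c with
  | _ n ih =>
    obtain ⟨X, Y, hXY, hY, haXY⟩ := h4_halve a b c h1 h2
    obtain ⟨a', b', c', h1', h2', h0', he⟩ := h4_translate hC X Y hXY hY
    have hlt := hG a' b' c' h1' h2' h0'
    rw [← he, ← haXY, hn] at hlt
    exact ih _ hlt a' b' c' h1' h2' rfl

/-- `E2(ℚ)` consists of the 2-torsion only. -/
theorem h4_points_E2 (hC : H4ClassE2) (hG : H4GrowthE2) (x y : ℚ)
    (h : y ^ 2 = x * (x - 1) * (x - 81)) : y = 0 := by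
  by_contra hy
  obtain ⟨a, b, c, h1, h2, -, -⟩ := h4_translate hC x y h hy
  exact h4_no_trivial_class hC hG a b c h1 h2

/-- The rational points of `15a1 : Y^2 = X (X - 16) (X + 9)`. -/
theorem h4_points_15a1 (hC : H4ClassE2) (hG : H4GrowthE2) (X Y : ℚ)
    (h : Y ^ 2 = X * (X - 16) * (X + 9)) :
    X = 0 ∨ X = 16 ∨ X = -9 ∨ X = 36 ∨ X = -4 := by
  by_cases h16 : X - 16 = 0
  · right; left; linarith
  have key := h4_points_E2 hC hG (X * (X + 9) / (X - 16))
    (Y * (X ^ 2 - 32 * X - 144) / (X - 16) ^ 2) (by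
      have e1 : X * (X + 9) / (X - 16) - 1 = (X + 4) ^ 2 / (X - 16) := by
        field_simp; ring
      have e2 : X * (X + 9) / (X - 16) - 81 = (X - 36) ^ 2 / (X - 16) := by
        field_simp; ring
      rw [e1, e2, div_pow, mul_pow, h]
      field_simp
      ring)
  rw [div_eq_zero_iff] at key
  rcases key with key | key
  · rcases mul_eq_zero.mp key with hY | hq
    · rw [hY] at h
      have h' : X * (X - 16) * (X + 9) = 0 := by rw [← h]; ring
      rcases mul_eq_zero.mp h' with h2 | h2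
      · rcases mul_eq_zero.mp h2 with h3 | h3
        · left; exact h3
        · exact absurd h3 h16
      · right; right; left; linarith
    · have : (X - 36) * (X + 4) = 0 := by linear_combination hq
      rcases mul_eq_zero.mp this with h' | h'
      · right; right; right; left; linarith
      · right; right; right; right; linarith
  · exact absurd ((pow_eq_zero_iff (two_ne_zero)).mp key) h16

/-- (Ca2) integer form of the class theorem. -/
def H4ClassInt : Prop :=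
  ∀ n s m : ℤ, IsCoprime n s → s ≠ 0 → m ≠ 0 → m ^ 2 = n * (n - s ^ 2) * (n - 81 * s ^ 2) →
    ∃ α β γ : ℤ, n = α ^ 2 ∧
      ((n - s ^ 2 = β ^ 2 ∧ n - 81 * s ^ 2 = γ ^ 2) ∨
        (s ^ 2 - n = β ^ 2 ∧ 81 * s ^ 2 - n = γ ^ 2) ∨
        (n - s ^ 2 = 5 * β ^ 2 ∧ n - 81 * s ^ 2 = 5 * γ ^ 2) ∨
        (s ^ 2 - n = 5 * β ^ 2 ∧ 81 * s ^ 2 - n = 5 * γ ^ 2))

/-- a rational number whose square is an integer is an integer -/
theorem h4_rat_int_of_sq_int (z : ℚ) (M : ℤ) (h : z ^ 2 = M) : ∃ m : ℤ, z = m := by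
  have hden : (z ^ 2).den = 1 := by rw [h]; exact Rat.den_intCast M
  rw [Rat.den_pow] at hden
  have : z.den = 1 := by
    rcases Nat.eq_zero_or_pos z.den with h0 | h0
    · exact absurd h0 z.den_ne_zero
    · exact (Nat.pow_eq_one.mp hden).resolve_right (by norm_num)
  exact ⟨z.num, (Rat.coe_int_num_of_den_eq_one this).symm⟩

/-- (Ca1): a rational point of `E2` with `y ≠ 0` comes from coprime integers. -/
theorem h4_int_of_point (x y : ℚ) (h : y ^ 2 = x * (x - 1) * (x - 81)) (hy : y ≠ 0) :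
    ∃ n s m : ℤ, IsCoprime n s ∧ s ≠ 0 ∧ m ≠ 0 ∧ m ^ 2 = n * (n - s ^ 2) * (n - 81 * s ^ 2) ∧
      x = n / (s : ℚ) ^ 2 := by
  set n : ℤ := x.num with hn
  set d : ℤ := (x.den : ℤ) with hd
  have hdpos : 0 < d := by rw [hd]; exact_mod_cast x.den_pos
  have hdne : (d : ℚ) ≠ 0 := by exact_mod_cast hdpos.ne'
  have hx : x = n / (d : ℚ) := by
    rw [hn, hd]; push_cast; exact (Rat.num_div_den x).symm
  -- z = y d^2 is an integer
  have hz : (y * d ^ 2) ^ 2 = ((d * (n * (n - d) * (n - 81 * d)) : ℤ) : ℚ) := by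
    rw [mul_pow, h, hx]; push_cast; field_simp
  obtain ⟨m, hm⟩ := h4_rat_int_of_sq_int _ _ hz
  have hm2 : m ^ 2 = d * (n * (n - d) * (n - 81 * d)) := by
    have : ((m ^ 2 : ℤ) : ℚ) = ((d * (n * (n - d) * (n - 81 * d)) : ℤ) : ℚ) := by
      rw [← hz, hm]; push_cast; ring
    exact_mod_cast this
  have hm0 : m ≠ 0 := by
    rintro rfl
    have : y * (d : ℚ) ^ 2 = 0 := by rw [hm]; simp
    rcases mul_eq_zero.mp this with h' | h'
    · exact hy h'
    · exact hdne (pow_eq_zero_iff (two_ne_zero) |>.mp h')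
  -- coprimality
  have hcop : IsCoprime n d := by
    rw [Int.isCoprime_iff_gcd_eq_one, hn, hd]
    have := x.reduced
    rwa [Nat.Coprime, ← Int.gcd_natCast_natCast] at this
  have hc1 : IsCoprime d (n - d) := by
    have := hcop.symm.add_mul_left_right (-1)
    simpa [sub_eq_add_neg] using this
  have hc2 : IsCoprime d (n - 81 * d) := by
    have := hcop.symm.add_mul_left_right (-81)
    have e : n + d * (-81) = n - 81 * d := by ring
    rwa [e] at this
  have hcR : IsCoprime d (n * (n - d) * (n - 81 * d)) :=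
    (hcop.symm.mul_right hc1).mul_right hc2
  obtain ⟨s, hs⟩ : ∃ s : ℤ, d = s ^ 2 := by
    obtain ⟨s, hs | hs⟩ := Int.sq_of_isCoprime hcR hm2.symm
    · exact ⟨s, hs⟩
    · exfalso; have := sq_nonneg s; omega
  have hs0 : s ≠ 0 := by
    rintro rfl
    rw [hs] at hdpos; simp at hdpos
  obtain ⟨m', hmm', hm'⟩ : ∃ m' : ℤ, m = s * m' ∧ m' ^ 2 = n * (n - d) * (n - 81 * d) := by
    have hm3 : m ^ 2 = s ^ 2 * (n * (n - d) * (n - 81 * d)) := by rw [hm2, hs]
    have hdvd : s ∣ m := by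
      have : s ^ 2 ∣ m ^ 2 := ⟨_, hm3⟩
      exact (Int.pow_dvd_pow_iff (two_ne_zero)).mp this
    obtain ⟨m', rfl⟩ := hdvd
    refine ⟨m', rfl, ?_⟩
    have hs2 : s ^ 2 ≠ 0 := pow_ne_zero _ hs0
    have : s ^ 2 * m' ^ 2 = s ^ 2 * (n * (n - d) * (n - 81 * d)) := by rw [← hm3]; ring
    exact mul_left_cancel₀ hs2 this
  refine ⟨n, s, m', ?_, hs0, ?_, ?_, ?_⟩
  · rw [hs] at hcop
    exact (IsCoprime.pow_right_iff (by norm_num)).mp hcop
  · rintro rfl
    apply hm0; rw [hmm']; ring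
  · rw [hm', hs]
  · rw [hx, hs]; push_cast; ring

/-- (Ca): the rational class theorem from the integer one. -/
theorem h4_classE2_of_int (hI : H4ClassInt) : H4ClassE2 := by
  intro x y h hy
  obtain ⟨n, s, m, hcop, hs0, hm0, hm, hx⟩ := h4_int_of_point x y h hy
  obtain ⟨α, β, γ, hα, hcase⟩ := hI n s m hcop hs0 hm0 hm
  have hsq : (s : ℚ) ≠ 0 := by exact_mod_cast hs0
  refine ⟨α / s, β / s, γ / s, ?_, ?_⟩
  · rw [hx, hα]; push_cast; field_simp
  · have e1 : x - 1 = ((n - s ^ 2 : ℤ) : ℚ) / (s : ℚ) ^ 2 := by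
      rw [hx]; push_cast; field_simp
    have e2 : x - 81 = ((n - 81 * s ^ 2 : ℤ) : ℚ) / (s : ℚ) ^ 2 := by
      rw [hx]; push_cast; field_simp
    have e3 : 1 - x = ((s ^ 2 - n : ℤ) : ℚ) / (s : ℚ) ^ 2 := by
      rw [hx]; push_cast; field_simp
    have e4 : 81 - x = ((81 * s ^ 2 - n : ℤ) : ℚ) / (s : ℚ) ^ 2 := by
      rw [hx]; push_cast; field_simp
    rcases hcase with ⟨hb, hc⟩ | ⟨hb, hc⟩ | ⟨hb, hc⟩ | ⟨hb, hc⟩
    · left
      rw [e1, e2, hb, hc]; push_cast
      exact ⟨by rw [div_pow], by rw [div_pow]⟩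
    · right; left
      rw [e3, e4, hb, hc]; push_cast
      exact ⟨by rw [div_pow], by rw [div_pow]⟩
    · right; right; left
      rw [e1, e2, hb, hc]; push_cast
      exact ⟨by rw [div_pow]; ring, by rw [div_pow]; ring⟩
    · right; right; right
      rw [e3, e4, hb, hc]; push_cast
      exact ⟨by rw [div_pow]; ring, by rw [div_pow]; ring⟩

/-- **Piece (C)**: the rational points of `15a1 : Y^2 = X (X - 16) (X + 9)`. -/
theorem rational_points_15a1 : RationalPoints15a1 :=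
  fun X Y h => h4_points_15a1 (h4_classE2_of_int h8_class_int) h5_growth X Y h

end Fermat.Agent.Lib.S51
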