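/-
S51 project, piece (A1) (helper3): the duplication formula on `x`-coordinates, points of order
`3` and `5` in terms of `psi3`, `psi2Sq`, `dupNum`, and the bounds `|E[3]| ≤ 9`, `|E[5]| ≤ 33`.
-/
import Mathlib
import Fermat.Agent.Lib.S51.Defs

set_option autoImplicit false

open WeierstrassCurve WeierstrassCurve.Affine Polynomial

namespace Fermat.Agent.Lib.S51

variable {K : Type*} [Field K] (W : WeierstrassCurve K)


/-- On the curve, `(2y + a₁x + a₃)² = psi2Sq x`. -/
theorem sq_sub_negY_eq_psi2Sq {x y : K} (h : W.toAffine.Equation x y) :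
    (y - W.toAffine.negY x y) ^ 2 = psi2Sq W x := by
  rw [Affine.equation_iff] at h
  simp only [Affine.negY, psi2Sq, WeierstrassCurve.b₂, WeierstrassCurve.b₄, WeierstrassCurve.b₆]
  linear_combination 4 * h

theorem psi2Sq_ne_zero_of_ne_negY {x y : K} (h : W.toAffine.Equation x y)
    (hy : y ≠ W.toAffine.negY x y) : psi2Sq W x ≠ 0 := by
  rw [← sq_sub_negY_eq_psi2Sq W h]
  exact pow_ne_zero 2 (sub_ne_zero.mpr hy)

theorem psi3_eq_mul_sub (x : K) : psi3 W x = x * psi2Sq W x - dupNum W x := by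
  simp only [psi3, psi2Sq, dupNum]; ring

variable [DecidableEq K]

/-- The duplication formula on `x`-coordinates (numerator form). -/
theorem addX_slope_mul_psi2Sq {x y : K} (h : W.toAffine.Equation x y)
    (hy : y ≠ W.toAffine.negY x y) :
    W.toAffine.addX x x (W.toAffine.slope x x y y) * psi2Sq W x = dupNum W x := by
  have hne : 2 * y + W.a₁ * x + W.a₃ ≠ 0 := by
    intro h0
    apply hy
    simp only [Affine.negY]
    linear_combination h0
  have hsl : W.toAffine.slope x x y y =
      (3 * x ^ 2 + 2 * W.a₂ * x + W.a₄ - W.a₁ * y) / (2 * y + W.a₁ * x + W.a₃) := by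
    rw [Affine.slope_of_Y_ne rfl hy]
    congr 1
    simp only [Affine.negY]
    ring
  have hpsi : psi2Sq W x = (2 * y + W.a₁ * x + W.a₃) ^ 2 := by
    rw [← sq_sub_negY_eq_psi2Sq W h]
    simp only [Affine.negY]
    ring
  rw [hsl, hpsi]
  rw [Affine.equation_iff] at h
  simp only [Affine.addX, dupNum, WeierstrassCurve.b₄,
    WeierstrassCurve.b₆, WeierstrassCurve.b₈]
  have hne' : 2 * y + x * W.a₁ + W.a₃ ≠ 0 := by rwa [mul_comm x]
  field_simp
  linear_combination (-(W.a₁ ^ 2 + 4 * W.a₂ + 8 * x)) * h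

/-- Doubling a point which is not 2-torsion. -/
theorem two_nsmul_some_of_ne {x y : K} (h : W.toAffine.Nonsingular x y)
    (hy : y ≠ W.toAffine.negY x y) :
    ∃ (x' y' : K) (h' : W.toAffine.Nonsingular x' y'),
      (2 : ℕ) • (Affine.Point.some x y h) = Affine.Point.some x' y' h' ∧
        x' * psi2Sq W x = dupNum W x := by
  refine ⟨_, _, Affine.nonsingular_add h h fun hxy => hy hxy.right, ?_, ?_⟩
  · rw [two_nsmul]
    exact Affine.Point.add_self_of_Y_ne hy
  · exact addX_slope_mul_psi2Sq W h.1 hy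

theorem two_nsmul_some_of_eq {x y : K} (h : W.toAffine.Nonsingular x y)
    (hy : y = W.toAffine.negY x y) :
    (2 : ℕ) • (Affine.Point.some x y h) = 0 := by
  rw [two_nsmul]
  exact Affine.Point.add_self_of_Y_eq hy

/-- Points of exact order `3`: the `x`-coordinate is a root of `psi3`. -/
theorem psi3_eq_zero_of_three_nsmul {P : W.toAffine.Point} (hP : P ≠ 0) (h3 : (3 : ℕ) • P = 0) :
    ∃ (x y : K) (h : W.toAffine.Nonsingular x y), P = Affine.Point.some x y h ∧
      psi3 W x = 0 ∧ psi2Sq W x ≠ 0 := by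
  rcases P with _ | ⟨x, y, h⟩
  · exact absurd rfl hP
  · refine ⟨x, y, h, rfl, ?_⟩
    by_cases hy : y = W.toAffine.negY x y
    · exfalso
      have h2 := two_nsmul_some_of_eq W h hy
      have : (3 : ℕ) • Affine.Point.some x y h = (2 : ℕ) • Affine.Point.some x y h +
          Affine.Point.some x y h := by
        rw [succ_nsmul]
      rw [this, h2, zero_add] at h3
      exact hP h3
    · obtain ⟨x', y', h', h2, hx'⟩ := two_nsmul_some_of_ne W h hy
      have h3' : (3 : ℕ) • Affine.Point.some x y h = (2 : ℕ) • Affine.Point.some x y h +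
          Affine.Point.some x y h := by
        rw [succ_nsmul]
      rw [h3', h2] at h3
      have hneg : Affine.Point.some x' y' h' = -Affine.Point.some x y h :=
        eq_neg_of_add_eq_zero_left h3
      have hxx : x' = x := Affine.Point.X_eq_iff.mpr (Or.inr hneg)
      refine ⟨?_, psi2Sq_ne_zero_of_ne_negY W h.1 hy⟩
      rw [psi3_eq_mul_sub, ← hx', hxx, sub_self]

/-- Points of exact order `5`: the `x`-coordinates of `P` and `2P` form a 2-cycle of the
duplication map. -/
theorem five_pair_of_five_nsmul {P : W.toAffine.Point} (hP : P ≠ 0) (h5 : (5 : ℕ) • P = 0) :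
    ∃ (x₁ y₁ : K) (h₁ : W.toAffine.Nonsingular x₁ y₁) (x₂ y₂ : K)
      (h₂ : W.toAffine.Nonsingular x₂ y₂),
      P = Affine.Point.some x₁ y₁ h₁ ∧ (2 : ℕ) • P = Affine.Point.some x₂ y₂ h₂ ∧
      x₁ ≠ x₂ ∧ psi2Sq W x₁ ≠ 0 ∧ psi2Sq W x₂ ≠ 0 ∧
      x₂ * psi2Sq W x₁ = dupNum W x₁ ∧ x₁ * psi2Sq W x₂ = dupNum W x₂ := by
  rcases P with _ | ⟨x₁, y₁, h₁⟩
  · exact absurd rfl hP
  set P := Affine.Point.some x₁ y₁ h₁ with hPdef
  have h4 : (4 : ℕ) • P = -P := by
    have : (5 : ℕ) • P = (4 : ℕ) • P + P := by rw [succ_nsmul]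
    rw [this] at h5
    exact eq_neg_of_add_eq_zero_left h5
  have h22 : (2 : ℕ) • ((2 : ℕ) • P) = (4 : ℕ) • P := by rw [← mul_nsmul]
  by_cases hy₁ : y₁ = W.toAffine.negY x₁ y₁
  · exfalso
    have h2 := two_nsmul_some_of_eq W h₁ hy₁
    rw [← hPdef] at h2
    rw [h2, nsmul_zero] at h22
    rw [← h22] at h4
    exact hP (neg_eq_zero.mp h4.symm)
  obtain ⟨x₂, y₂, h₂, h2, hx₂⟩ := two_nsmul_some_of_ne W h₁ hy₁
  rw [← hPdef] at h2
  refine ⟨x₁, y₁, h₁, x₂, y₂, h₂, rfl, h2, ?_⟩
  by_cases hy₂ : y₂ = W.toAffine.negY x₂ y₂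
  · exfalso
    have h2' := two_nsmul_some_of_eq W h₂ hy₂
    rw [← h2, h22, h4] at h2'
    exact hP (neg_eq_zero.mp h2')
  obtain ⟨x₃, y₃, h₃, h2', hx₃⟩ := two_nsmul_some_of_ne W h₂ hy₂
  rw [← h2, h22, h4] at h2'
  have hx₃₁ : x₃ = x₁ :=
    (Affine.Point.X_eq_iff (h₁ := h₃) (h₂ := h₁)).mpr (Or.inr (by rw [← h2', hPdef]))
  refine ⟨?_, psi2Sq_ne_zero_of_ne_negY W h₁.1 hy₁, psi2Sq_ne_zero_of_ne_negY W h₂.1 hy₂, hx₂,
    by rw [← hx₃₁]; exact hx₃⟩
  intro hx
  rcases (Affine.Point.X_eq_iff (h₁ := h₁) (h₂ := h₂)).mp hx with h | h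
  · -- P = 2P
    rw [← hPdef, ← h2] at h
    have : P = 0 := by
      have h' : (2 : ℕ) • P = P + P := two_nsmul P
      rw [h'] at h
      exact left_eq_add.mp h
    exact hP this
  · -- P = -2P, so 3P = 0, hence P = 0
    rw [← hPdef, ← h2] at h
    have h3 : (3 : ℕ) • P = 0 := by
      have h3' : (3 : ℕ) • P = (2 : ℕ) • P + P := by rw [succ_nsmul]
      have h2P : (2 : ℕ) • P = -P := by
        have := congrArg Neg.neg h
        rw [neg_neg] at this
        exact this.symm
      rw [h3', h2P, neg_add_cancel]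
    have h6 : (6 : ℕ) • P = 0 := by
      have : (6 : ℕ) • P = (2 : ℕ) • ((3 : ℕ) • P) := by rw [← mul_nsmul]
      rw [this, h3, nsmul_zero]
    have : (6 : ℕ) • P = (5 : ℕ) • P + P := by rw [succ_nsmul]
    rw [this, h5, zero_add] at h6
    exact hP h6


section Count

variable {K : Type*} [Field K] (W : WeierstrassCurve K)


/-- Coordinates of a point (`none` for the point at infinity). -/
def pointCoords : W.toAffine.Point → Option (K × K)
  | .zero => none
  | .some x y _ => some (x, y)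

theorem pointCoords_injective : Function.Injective (pointCoords W) := by
  rintro (_ | ⟨x₁, y₁, h₁⟩) (_ | ⟨x₂, y₂, h₂⟩) h <;>
    simp only [pointCoords, Option.some.injEq, Prod.mk.injEq, reduceCtorEq] at h
  · rfl
  · obtain ⟨rfl, rfl⟩ := h; rfl

/-- The quadratic polynomial in `y` cutting out the points with given `x`. -/
noncomputable def yPoly (x : K) : K[X] :=
  X ^ 2 + C (W.a₁ * x + W.a₃) * X - C (x ^ 3 + W.a₂ * x ^ 2 + W.a₄ * x + W.a₆)

theorem yPoly_natDegree (x : K) : (yPoly W x).natDegree = 2 := by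
  unfold yPoly
  compute_degree!

theorem yPoly_ne_zero (x : K) : yPoly W x ≠ 0 := by
  intro h
  have := yPoly_natDegree W x
  rw [h, natDegree_zero] at this
  exact absurd this (by norm_num)

theorem eval_yPoly_eq_zero {x y : K} (h : W.toAffine.Equation x y) : (yPoly W x).eval y = 0 := by
  rw [Affine.equation_iff] at h
  simp only [yPoly, eval_sub, eval_add, eval_pow, eval_X, eval_mul, eval_C]
  linear_combination h

/-- A set of points whose `x`-coordinates are roots of a nonzero polynomial `p` is finite, of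
cardinality at most `2 deg p + 1`. -/
theorem ncard_points_le (p : K[X]) (hp : p ≠ 0) (S : Set W.toAffine.Point)
    (hS : ∀ P ∈ S, P = 0 ∨ ∃ (x y : K) (h : W.toAffine.Nonsingular x y),
      P = Affine.Point.some x y h ∧ p.eval x = 0) :
    S.Finite ∧ S.ncard ≤ 2 * p.natDegree + 1 := by
  classical
  let T : Finset (K × K) :=
    p.roots.toFinset.biUnion fun x => ((yPoly W x).roots.toFinset).image (Prod.mk x)
  have hTcard : T.card ≤ 2 * p.natDegree := by
    calc T.card ≤ ∑ x ∈ p.roots.toFinset, (((yPoly W x).roots.toFinset).image (Prod.mk x)).card :=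
          Finset.card_biUnion_le
      _ ≤ ∑ _x ∈ p.roots.toFinset, 2 := by
          apply Finset.sum_le_sum
          intro x _
          calc (((yPoly W x).roots.toFinset).image (Prod.mk x)).card
              ≤ ((yPoly W x).roots.toFinset).card := Finset.card_image_le
            _ ≤ (yPoly W x).roots.card := Multiset.toFinset_card_le _
            _ ≤ (yPoly W x).natDegree := Polynomial.card_roots' _
            _ = 2 := yPoly_natDegree W x
      _ = p.roots.toFinset.card * 2 := by rw [Finset.sum_const, smul_eq_mul]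
      _ ≤ p.natDegree * 2 := by
          apply Nat.mul_le_mul_right
          exact (Multiset.toFinset_card_le _).trans (Polynomial.card_roots' _)
      _ = 2 * p.natDegree := by ring
  let U : Finset (Option (K × K)) := insert none (T.image some)
  have hUcard : U.card ≤ 2 * p.natDegree + 1 := by
    calc U.card ≤ (T.image some).card + 1 := Finset.card_insert_le _ _
      _ ≤ T.card + 1 := by gcongr; exact Finset.card_image_le
      _ ≤ 2 * p.natDegree + 1 := by omega
  have hsub : pointCoords W '' S ⊆ (U : Set (Option (K × K))) := by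
    rintro _ ⟨P, hPS, rfl⟩
    rcases hS P hPS with rfl | ⟨x, y, h, rfl, hx⟩
    · simp [U, pointCoords]
    · have hx' : x ∈ p.roots.toFinset := by
        rw [Multiset.mem_toFinset, mem_roots hp]
        exact hx
      have hy' : y ∈ (yPoly W x).roots.toFinset := by
        rw [Multiset.mem_toFinset, mem_roots (yPoly_ne_zero W x)]
        exact eval_yPoly_eq_zero W h.1
      have : (x, y) ∈ T := by
        simp only [T, Finset.mem_biUnion, Finset.mem_image]
        exact ⟨x, hx', y, hy', rfl⟩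
      simp only [U, pointCoords, Finset.coe_insert, Finset.coe_image, Set.mem_insert_iff,
        reduceCtorEq, Set.mem_image, Finset.mem_coe, Option.some.injEq, exists_eq_right, false_or]
      exact this
  have hfinimg : (pointCoords W '' S).Finite := (Finset.finite_toSet U).subset hsub
  have hfin : S.Finite := hfinimg.of_finite_image (pointCoords_injective W).injOn
  refine ⟨hfin, ?_⟩
  calc S.ncard = (pointCoords W '' S).ncard :=
        (Set.ncard_image_of_injective S (pointCoords_injective W)).symm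
    _ ≤ (U : Set (Option (K × K))).ncard := Set.ncard_le_ncard hsub (Finset.finite_toSet U)
    _ = U.card := Set.ncard_coe_finset U
    _ ≤ 2 * p.natDegree + 1 := hUcard


end Count

section Polys

variable {K : Type*} [Field K] (W : WeierstrassCurve K)


/-- `psi3` as a polynomial. -/
noncomputable def psi3Poly : K[X] :=
  C 3 * X ^ 4 + C W.b₂ * X ^ 3 + C (3 * W.b₄) * X ^ 2 + C (3 * W.b₆) * X + C W.b₈

theorem eval_psi3Poly (x : K) : (psi3Poly W).eval x = psi3 W x := by
  simp only [psi3Poly, psi3, eval_add, eval_mul, eval_C, eval_pow, eval_X]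
  try ring

theorem natDegree_psi3Poly [CharZero K] : (psi3Poly W).natDegree = 4 := by
  unfold psi3Poly
  compute_degree!

/-- `dupNum` as a polynomial. -/
noncomputable def dupNumPoly : K[X] := X ^ 4 - C W.b₄ * X ^ 2 - C (2 * W.b₆) * X - C W.b₈

/-- `psi2Sq` as a polynomial. -/
noncomputable def psi2SqPoly : K[X] := C 4 * X ^ 3 + C W.b₂ * X ^ 2 + C (2 * W.b₄) * X + C W.b₆

theorem eval_dupNumPoly (x : K) : (dupNumPoly W).eval x = dupNum W x := by
  simp only [dupNumPoly, dupNum, eval_sub, eval_mul, eval_C, eval_pow, eval_X]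

theorem eval_psi2SqPoly (x : K) : (psi2SqPoly W).eval x = psi2Sq W x := by
  simp only [psi2SqPoly, psi2Sq, eval_add, eval_mul, eval_C, eval_pow, eval_X]

/-- The polynomial of degree `16` whose roots contain the fixed points of the square of the
duplication map: `x ψ₂²(N/D) D⁴ - N₂(N/D) D⁴` with `N = dupNum`, `D = psi2Sq`. -/
noncomputable def fiveCyclePoly : K[X] :=
  X * (C 4 * dupNumPoly W ^ 3 * psi2SqPoly W + C W.b₂ * dupNumPoly W ^ 2 * psi2SqPoly W ^ 2
      + C (2 * W.b₄) * dupNumPoly W * psi2SqPoly W ^ 3 + C W.b₆ * psi2SqPoly W ^ 4)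
    - (dupNumPoly W ^ 4 - C W.b₄ * dupNumPoly W ^ 2 * psi2SqPoly W ^ 2
      - C (2 * W.b₆) * dupNumPoly W * psi2SqPoly W ^ 3 - C W.b₈ * psi2SqPoly W ^ 4)

theorem natDegree_fiveCyclePoly [CharZero K] : (fiveCyclePoly W).natDegree = 16 := by
  unfold fiveCyclePoly dupNumPoly psi2SqPoly
  compute_degree!

theorem eval_fiveCyclePoly_eq_zero {x₁ x₂ : K} (hd : psi2Sq W x₁ ≠ 0)
    (h12 : x₂ * psi2Sq W x₁ = dupNum W x₁) (h21 : x₁ * psi2Sq W x₂ = dupNum W x₂) :
    (fiveCyclePoly W).eval x₁ = 0 := by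
  have hx₂ : x₂ = dupNum W x₁ / psi2Sq W x₁ := by
    field_simp
    exact h12
  simp only [fiveCyclePoly, eval_sub, eval_mul, eval_add, eval_pow, eval_C, eval_X,
    eval_dupNumPoly, eval_psi2SqPoly]
  have key : x₁ * psi2Sq W x₂ * psi2Sq W x₁ ^ 4 = dupNum W x₂ * psi2Sq W x₁ ^ 4 := by rw [h21]
  generalize dupNum W x₁ = N at hx₂ key ⊢
  generalize psi2Sq W x₁ = D at hd hx₂ key ⊢
  subst hx₂
  simp only [psi2Sq, dupNum] at key
  have e1 : x₁ * (4 * (N / D) ^ 3 + W.b₂ * (N / D) ^ 2 + 2 * W.b₄ * (N / D) + W.b₆) * D ^ 4 =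
      x₁ * (4 * N ^ 3 * D + W.b₂ * N ^ 2 * D ^ 2 + 2 * W.b₄ * N * D ^ 3 + W.b₆ * D ^ 4) := by
    field_simp
  have e2 : ((N / D) ^ 4 - W.b₄ * (N / D) ^ 2 - 2 * W.b₆ * (N / D) - W.b₈) * D ^ 4 =
      N ^ 4 - W.b₄ * N ^ 2 * D ^ 2 - 2 * W.b₆ * N * D ^ 3 - W.b₈ * D ^ 4 := by
    field_simp
  rw [e1, e2] at key
  linear_combination key


end Polys

section Bounds

variable {K : Type*} [Field K] (W : WeierstrassCurve K) [DecidableEq K] [CharZero K]

theorem three_torsion_finite_ncard :
    {P : W.toAffine.Point | (3 : ℕ) • P = 0}.Finite ∧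
      {P : W.toAffine.Point | (3 : ℕ) • P = 0}.ncard ≤ 9 := by
  have hp : psi3Poly W ≠ 0 := by
    intro h
    have := natDegree_psi3Poly W
    rw [h, natDegree_zero] at this
    exact absurd this (by norm_num)
  have := ncard_points_le W (psi3Poly W) hp {P : W.toAffine.Point | (3 : ℕ) • P = 0} (by
    intro P hP
    by_cases h0 : P = 0
    · exact Or.inl h0
    · obtain ⟨x, y, h, rfl, hx, -⟩ := psi3_eq_zero_of_three_nsmul W h0 hP
      exact Or.inr ⟨x, y, h, rfl, by rw [eval_psi3Poly]; exact hx⟩)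
  rwa [natDegree_psi3Poly] at this

theorem five_torsion_finite_ncard :
    {P : W.toAffine.Point | (5 : ℕ) • P = 0}.Finite ∧
      {P : W.toAffine.Point | (5 : ℕ) • P = 0}.ncard ≤ 33 := by
  have hp : fiveCyclePoly W ≠ 0 := by
    intro h
    have := natDegree_fiveCyclePoly W
    rw [h, natDegree_zero] at this
    exact absurd this (by norm_num)
  have := ncard_points_le W (fiveCyclePoly W) hp {P : W.toAffine.Point | (5 : ℕ) • P = 0} (by
    intro P hP
    by_cases h0 : P = 0
    · exact Or.inl h0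
    · obtain ⟨x₁, y₁, h₁, x₂, y₂, h₂, rfl, -, -, hd₁, -, h12, h21⟩ :=
        five_pair_of_five_nsmul W h0 hP
      exact Or.inr ⟨x₁, y₁, h₁, rfl, eval_fiveCyclePoly_eq_zero W hd₁ h12 h21⟩)
  rwa [natDegree_fiveCyclePoly] at this

omit [CharZero K] in
theorem torsionBy_three_coe_eq :
    ((Submodule.torsionBy ℤ W.toAffine.Point 3 : Submodule ℤ W.toAffine.Point) :
      Set W.toAffine.Point) = {P : W.toAffine.Point | (3 : ℕ) • P = 0} := by
  ext P
  rw [SetLike.mem_coe, Submodule.mem_torsionBy_iff]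
  change (3 : ℤ) • P = 0 ↔ (3 : ℕ) • P = 0
  rw [← natCast_zsmul]
  rfl

omit [CharZero K] in
theorem torsionBy_five_coe_eq :
    ((Submodule.torsionBy ℤ W.toAffine.Point 5 : Submodule ℤ W.toAffine.Point) :
      Set W.toAffine.Point) = {P : W.toAffine.Point | (5 : ℕ) • P = 0} := by
  ext P
  rw [SetLike.mem_coe, Submodule.mem_torsionBy_iff]
  change (5 : ℤ) • P = 0 ↔ (5 : ℕ) • P = 0
  rw [← natCast_zsmul]
  rfl

/-- `|E[3]| ≤ 9`. -/
theorem card_torsionBy_three_le :
    Finite (Submodule.torsionBy ℤ W.toAffine.Point 3) ∧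
      Nat.card (Submodule.torsionBy ℤ W.toAffine.Point 3) ≤ 9 := by
  have h := three_torsion_finite_ncard W
  have hset := torsionBy_three_coe_eq W
  constructor
  · have : Finite ((Submodule.torsionBy ℤ W.toAffine.Point 3 : Submodule ℤ W.toAffine.Point) :
        Set W.toAffine.Point) := by
      rw [hset]; exact h.1.to_subtype
    exact this
  · have : Nat.card ((Submodule.torsionBy ℤ W.toAffine.Point 3 : Submodule ℤ W.toAffine.Point) :
        Set W.toAffine.Point) ≤ 9 := by
      rw [Nat.card_coe_set_eq, hset]; exact h.2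
    exact this

/-- `|E[5]| ≤ 33` (hence `≤ 25`, being a power of `5`). -/
theorem card_torsionBy_five_le :
    Finite (Submodule.torsionBy ℤ W.toAffine.Point 5) ∧
      Nat.card (Submodule.torsionBy ℤ W.toAffine.Point 5) ≤ 33 := by
  have h := five_torsion_finite_ncard W
  have hset := torsionBy_five_coe_eq W
  constructor
  · have : Finite ((Submodule.torsionBy ℤ W.toAffine.Point 5 : Submodule ℤ W.toAffine.Point) :
        Set W.toAffine.Point) := by
      rw [hset]; exact h.1.to_subtype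
    exact this
  · have : Nat.card ((Submodule.torsionBy ℤ W.toAffine.Point 5 : Submodule ℤ W.toAffine.Point) :
        Set W.toAffine.Point) ≤ 33 := by
      rw [Nat.card_coe_set_eq, hset]; exact h.2
    exact this

end Bounds

end Fermat.Agent.Lib.S51
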