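/-
S51 project, piece (A1), parallel version (helper6): duplication formula on `x`-coordinates,
points of order 3 and 5 in terms of `psi3`, `psi2Sq`, `dupNum`, and bounds for the number of
points killed by 3 and by 5.
-/
import Mathlib
import Fermat.Agent.Lib.S51.Defs

set_option autoImplicit false

noncomputable section

namespace Fermat.Agent.Lib.S51

open WeierstrassCurve WeierstrassCurve.Affine Polynomial

variable {F : Type*} [Field F] (W : WeierstrassCurve F)

/-- on the curve, `(2y + a₁x + a₃)² = psi2Sq x` -/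
lemma h6_psi2_sq {x y : F} (h : W.toAffine.Equation x y) :
    (y - W.toAffine.negY x y) ^ 2 = psi2Sq W x := by
  rw [equation_iff] at h
  simp only [negY, psi2Sq, b₂, b₄, b₆]
  linear_combination 4 * h

lemma h6_psi3_eq (x : F) : psi3 W x = x * psi2Sq W x - dupNum W x := by
  simp only [psi3, psi2Sq, dupNum]
  ring

variable [DecidableEq F]

/-- the duplication formula on `x`-coordinates -/
lemma h6_addX_dup {x y : F} (h : W.toAffine.Equation x y) (hy : y ≠ W.toAffine.negY x y) :
    W.toAffine.addX x x (W.toAffine.slope x x y y) * psi2Sq W x = dupNum W x := by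
  have hd : y - W.toAffine.negY x y ≠ 0 := sub_ne_zero.mpr hy
  rw [slope_of_Y_ne rfl hy, ← h6_psi2_sq W h]
  rw [equation_iff] at h
  simp only [addX, dupNum, b₄, b₆, b₈]
  field_simp
  simp only [negY]
  linear_combination (-(W.a₁ ^ 2 + 4 * W.a₂ + 8 * x)) * h

/-- doubling a point which is not killed by 2 -/
lemma h6_dup {x y : F} (h : W.toAffine.Nonsingular x y) (hy : y ≠ W.toAffine.negY x y) :
    psi2Sq W x ≠ 0 ∧ ∃ x2 y2 : F, ∃ h2 : W.toAffine.Nonsingular x2 y2,
      Point.some x y h + Point.some x y h = Point.some x2 y2 h2 ∧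
        x2 * psi2Sq W x = dupNum W x := by
  refine ⟨?_, _, _, _, Point.add_self_of_Y_ne hy, h6_addX_dup W h.1 hy⟩
  rw [← h6_psi2_sq W h.1]
  exact pow_ne_zero 2 (sub_ne_zero.mpr hy)

/-- a point with `y = negY x y` is killed by 2 -/
lemma h6_add_self_of_Y_eq {x y : F} (h : W.toAffine.Nonsingular x y)
    (hy : y = W.toAffine.negY x y) : Point.some x y h + Point.some x y h = 0 :=
  Point.add_self_of_Y_eq hy

/-- points of order 3 -/
lemma h6_order3 {P : W.toAffine.Point} (hP : P ≠ 0) (h3 : (3 : ℕ) • P = 0) :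
    ∃ x y : F, ∃ h : W.toAffine.Nonsingular x y,
      P = Point.some x y h ∧ psi3 W x = 0 ∧ psi2Sq W x ≠ 0 := by
  rcases P with _ | ⟨x, y, h⟩
  · exact absurd rfl hP
  have h3' : Point.some x y h + Point.some x y h = -Point.some x y h := by
    have : (3 : ℕ) • Point.some x y h =
        (Point.some x y h + Point.some x y h) + Point.some x y h := by abel
    rw [this] at h3
    exact eq_neg_of_add_eq_zero_left h3
  by_cases hy : y = W.toAffine.negY x y
  · rw [h6_add_self_of_Y_eq W h hy] at h3'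
    exact absurd (neg_eq_zero.mp h3'.symm) hP
  · obtain ⟨hne, x2, y2, h2, e2, hx2⟩ := h6_dup W h hy
    rw [e2, Point.neg_some, Point.some.injEq] at h3'
    refine ⟨x, y, h, rfl, ?_, hne⟩
    rw [h6_psi3_eq, ← hx2, h3'.1, sub_self]

/-- points of order 5 -/
lemma h6_order5 {P : W.toAffine.Point} (hP : P ≠ 0) (h5 : (5 : ℕ) • P = 0) :
    ∃ xP yP xQ yQ : F, ∃ hp : W.toAffine.Nonsingular xP yP,
      ∃ hq : W.toAffine.Nonsingular xQ yQ,
      P = Point.some xP yP hp ∧ P + P = Point.some xQ yQ hq ∧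
      psi2Sq W xP ≠ 0 ∧ psi2Sq W xQ ≠ 0 ∧
      xQ * psi2Sq W xP = dupNum W xP ∧ xP * psi2Sq W xQ = dupNum W xQ ∧ xP ≠ xQ := by
  rcases P with _ | ⟨x, y, h⟩
  · exact absurd rfl hP
  set P : W.toAffine.Point := Point.some x y h with hPdef
  have h5' : ((P + P) + (P + P)) + P = 0 := by
    have : (5 : ℕ) • P = ((P + P) + (P + P)) + P := by abel
    rw [← this]; exact h5
  by_cases hy : y = W.toAffine.negY x y
  · have h2 : P + P = 0 := h6_add_self_of_Y_eq W h hy
    rw [h2, add_zero, zero_add] at h5'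
    exact absurd h5' hP
  obtain ⟨hne, x2, y2, h2, e2, hx2⟩ := h6_dup W h hy
  have e2' : P + P = Point.some x2 y2 h2 := e2
  by_cases hy2 : y2 = W.toAffine.negY x2 y2
  · have h4 : (P + P) + (P + P) = 0 := by
      rw [e2']; exact h6_add_self_of_Y_eq W h2 hy2
    rw [h4, zero_add] at h5'
    exact absurd h5' hP
  obtain ⟨hne2, x4, y4, h4, e4, hx4⟩ := h6_dup W h2 hy2
  have h4' : (P + P) + (P + P) = -P := eq_neg_of_add_eq_zero_left h5'
  rw [e2', e4, hPdef, Point.neg_some, Point.some.injEq] at h4'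
  refine ⟨x, y, x2, y2, h, h2, rfl, e2', hne, hne2, hx2, ?_, ?_⟩
  · rw [← h4'.1]; exact hx4
  · intro hxx
    rcases (Point.X_eq_iff (h₁ := h) (h₂ := h2)).mp hxx with e | e
    · -- `P = 2P`, so `P = 0`
      have : P = P + P := by rw [e2']; exact e
      have : P = 0 := by
        have h' := congrArg (fun Q => Q - P) this
        simpa using h'.symm
      exact hP this
    · -- `P = -2P`, so `3P = 0` and `5P = 0`, hence `P = 0`
      have e' : P = -(P + P) := by rw [e2']; exact e
      have h3 : (P + P) + P = 0 := by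
        nth_rewrite 3 [e']
        exact add_neg_cancel _
      have : P = 0 := by
        have h6 : ((P + P) + P) + ((P + P) + P) = 0 := by rw [h3, add_zero]
        have : P = (((P + P) + P) + ((P + P) + P)) - (((P + P) + (P + P)) + P) := by abel
        rw [this, h6, h5', sub_zero]
      exact hP this

/-- a point of order 3 and a point of order 5 have different `x`-coordinates -/
lemma h6_x_ne_of_order {xT yT xP yP : F} {hT : W.toAffine.Nonsingular xT yT}
    {hp : W.toAffine.Nonsingular xP yP} (h3 : (3 : ℕ) • Point.some xT yT hT = 0)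
    (h5 : (5 : ℕ) • Point.some xP yP hp = 0) : xT ≠ xP := by
  intro hxx
  have hT0 : Point.some xT yT hT ≠ 0 := Point.some_ne_zero _
  have key : (5 : ℕ) • Point.some xT yT hT = 0 := by
    rcases (Point.X_eq_iff (h₁ := hT) (h₂ := hp)).mp hxx with e | e
    · rw [e]; exact h5
    · rw [e, smul_neg, h5, neg_zero]
  apply hT0
  have : Point.some xT yT hT =
      (2 : ℕ) • ((3 : ℕ) • Point.some xT yT hT) - (5 : ℕ) • Point.some xT yT hT := by
    abel
  rw [this, h3, key, smul_zero, sub_zero]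

/-! ### counting points with prescribed `x`-coordinates -/

/-- the coordinates of a point -/
def h6_coord : W.toAffine.Point → Option (F × F)
  | .zero => none
  | .some x y _ => some (x, y)

omit [DecidableEq F] in
lemma h6_coord_injective : Function.Injective (h6_coord W) := by
  rintro (_ | ⟨x, y, h⟩) (_ | ⟨x', y', h'⟩) e
  · rfl
  · simp [h6_coord] at e
  · simp [h6_coord] at e
  · simp only [h6_coord, Option.some.injEq, Prod.mk.injEq] at e
    obtain ⟨rfl, rfl⟩ := e
    rfl

/-- the quadratic polynomial satisfied by the `y`-coordinates of the points with given `x` -/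
def h6_ypoly (x : F) : F[X] :=
  X ^ 2 + C (W.a₁ * x + W.a₃) * X - C (x ^ 3 + W.a₂ * x ^ 2 + W.a₄ * x + W.a₆)

omit [DecidableEq F] in
lemma h6_ypoly_natDegree (x : F) : (h6_ypoly W x).natDegree = 2 := by
  unfold h6_ypoly
  compute_degree!

omit [DecidableEq F] in
lemma h6_ypoly_ne_zero (x : F) : h6_ypoly W x ≠ 0 := by
  intro h
  have := h6_ypoly_natDegree W x
  rw [h] at this
  simp at this

omit [DecidableEq F] in
lemma h6_mem_roots_ypoly {x y : F} (h : W.toAffine.Equation x y) :
    y ∈ (h6_ypoly W x).roots := by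
  rw [mem_roots (h6_ypoly_ne_zero W x)]
  rw [equation_iff] at h
  simp only [h6_ypoly, IsRoot.def, eval_sub, eval_add, eval_pow, eval_mul, eval_X, eval_C]
  linear_combination h

/-- a set of points whose `x`-coordinates lie in a finite set `T` is finite, of cardinality at
most `1 + 2 |T|` -/
lemma h6_finite_and_ncard_le (T : Finset F) (S : Set W.toAffine.Point)
    (hS : ∀ x y, ∀ h : W.toAffine.Nonsingular x y, Point.some x y h ∈ S → x ∈ T) :
    S.Finite ∧ S.ncard ≤ 1 + 2 * T.card := by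
  classical
  let A : Finset (F × F) :=
    T.biUnion fun x => (h6_ypoly W x).roots.toFinset.image fun y => (x, y)
  have hA : A.card ≤ 2 * T.card := by
    calc A.card ≤ ∑ x ∈ T, ((h6_ypoly W x).roots.toFinset.image fun y => (x, y)).card :=
          Finset.card_biUnion_le
      _ ≤ ∑ _x ∈ T, 2 := by
          apply Finset.sum_le_sum
          intro x _
          calc ((h6_ypoly W x).roots.toFinset.image fun y => (x, y)).card
              ≤ (h6_ypoly W x).roots.toFinset.card := Finset.card_image_le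
            _ ≤ Multiset.card (h6_ypoly W x).roots := Multiset.toFinset_card_le _
            _ ≤ (h6_ypoly W x).natDegree := card_roots' _
            _ = 2 := h6_ypoly_natDegree W x
      _ = 2 * T.card := by rw [Finset.sum_const, smul_eq_mul, mul_comm]
  let B : Finset (Option (F × F)) := insert none (A.image some)
  have hB : B.card ≤ 1 + 2 * T.card := by
    calc B.card ≤ (A.image some).card + 1 := Finset.card_insert_le _ _
      _ ≤ A.card + 1 := by
          have := Finset.card_image_le (s := A) (f := (some : F × F → Option (F × F)))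
          omega
      _ ≤ 1 + 2 * T.card := by omega
  have hsub : h6_coord W '' S ⊆ (B : Set (Option (F × F))) := by
    rintro _ ⟨P, hP, rfl⟩
    rcases P with _ | ⟨x, y, h⟩
    · simp [h6_coord, B]
    · have hx : x ∈ T := hS x y h hP
      simp only [h6_coord, B, Finset.coe_insert, Finset.coe_image, Set.mem_insert_iff,
        Set.mem_image, Finset.mem_coe, Option.some.injEq, exists_eq_right, reduceCtorEq,
        false_or]
      simp only [A, Finset.mem_biUnion, Finset.mem_image, Multiset.mem_toFinset, Prod.mk.injEq]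
      exact ⟨x, hx, y, h6_mem_roots_ypoly W h.1, rfl, rfl⟩
  have hfin : (h6_coord W '' S).Finite := (Finset.finite_toSet B).subset hsub
  have hSfin : S.Finite := hfin.of_finite_image (h6_coord_injective W).injOn
  refine ⟨hSfin, ?_⟩
  calc S.ncard = (h6_coord W '' S).ncard :=
        (Set.ncard_image_of_injective S (h6_coord_injective W)).symm
    _ ≤ (B : Set (Option (F × F))).ncard := Set.ncard_le_ncard hsub (Finset.finite_toSet B)
    _ = B.card := Set.ncard_coe_finset B
    _ ≤ 1 + 2 * T.card := hB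

/-! ### the polynomials cutting out the `x`-coordinates of the points of order 3 and 5 -/

/-- `psi3` as a polynomial -/
def h6_psi3Poly : F[X] :=
  C 3 * X ^ 4 + C W.b₂ * X ^ 3 + C (3 * W.b₄) * X ^ 2 + C (3 * W.b₆) * X + C W.b₈

omit [DecidableEq F] in
lemma h6_psi3Poly_eval (x : F) : (h6_psi3Poly W).eval x = psi3 W x := by
  simp only [h6_psi3Poly, psi3, eval_add, eval_mul, eval_pow, eval_X, eval_C]

omit [DecidableEq F] in
lemma h6_psi3Poly_natDegree [CharZero F] : (h6_psi3Poly W).natDegree = 4 := by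
  unfold h6_psi3Poly
  compute_degree!

/-- `dupNum` as a polynomial -/
def h6_NPoly : F[X] := X ^ 4 - C W.b₄ * X ^ 2 - C (2 * W.b₆) * X - C W.b₈

/-- `psi2Sq` as a polynomial -/
def h6_SPoly : F[X] := C 4 * X ^ 3 + C W.b₂ * X ^ 2 + C (2 * W.b₄) * X + C W.b₆

omit [DecidableEq F] in
lemma h6_NPoly_eval (x : F) : (h6_NPoly W).eval x = dupNum W x := by
  simp only [h6_NPoly, dupNum, eval_sub, eval_mul, eval_pow, eval_X, eval_C]

omit [DecidableEq F] in
lemma h6_SPoly_eval (x : F) : (h6_SPoly W).eval x = psi2Sq W x := by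
  simp only [h6_SPoly, psi2Sq, eval_add, eval_mul, eval_pow, eval_X, eval_C]

/-- the polynomial of degree 16 vanishing at the `x`-coordinates of the points of order 5:
the numerator of `x * psi2Sq (D x) - dupNum (D x)` for `D = dupNum / psi2Sq` -/
def h6_phi5Poly : F[X] :=
  X * (C 4 * (X ^ 4 - C W.b₄ * X ^ 2 - C (2 * W.b₆) * X - C W.b₈) ^ 3 *
          (C 4 * X ^ 3 + C W.b₂ * X ^ 2 + C (2 * W.b₄) * X + C W.b₆) +
        C W.b₂ * (X ^ 4 - C W.b₄ * X ^ 2 - C (2 * W.b₆) * X - C W.b₈) ^ 2 *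
          (C 4 * X ^ 3 + C W.b₂ * X ^ 2 + C (2 * W.b₄) * X + C W.b₆) ^ 2 +
        C (2 * W.b₄) * (X ^ 4 - C W.b₄ * X ^ 2 - C (2 * W.b₆) * X - C W.b₈) *
          (C 4 * X ^ 3 + C W.b₂ * X ^ 2 + C (2 * W.b₄) * X + C W.b₆) ^ 3 +
        C W.b₆ * (C 4 * X ^ 3 + C W.b₂ * X ^ 2 + C (2 * W.b₄) * X + C W.b₆) ^ 4) -
      ((X ^ 4 - C W.b₄ * X ^ 2 - C (2 * W.b₆) * X - C W.b₈) ^ 4 -
        C W.b₄ * (X ^ 4 - C W.b₄ * X ^ 2 - C (2 * W.b₆) * X - C W.b₈) ^ 2 *
          (C 4 * X ^ 3 + C W.b₂ * X ^ 2 + C (2 * W.b₄) * X + C W.b₆) ^ 2 -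
        C (2 * W.b₆) * (X ^ 4 - C W.b₄ * X ^ 2 - C (2 * W.b₆) * X - C W.b₈) *
          (C 4 * X ^ 3 + C W.b₂ * X ^ 2 + C (2 * W.b₄) * X + C W.b₆) ^ 3 -
        C W.b₈ * (C 4 * X ^ 3 + C W.b₂ * X ^ 2 + C (2 * W.b₄) * X + C W.b₆) ^ 4)

omit [DecidableEq F] in
lemma h6_phi5Poly_natDegree [CharZero F] : (h6_phi5Poly W).natDegree = 16 := by
  unfold h6_phi5Poly
  compute_degree!

omit [DecidableEq F] in
/-- `phi5` evaluated at `xP` when `xQ = D xP` -/
lemma h6_phi5Poly_eval {xP xQ : F} (hPQ : xQ * psi2Sq W xP = dupNum W xP) :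
    (h6_phi5Poly W).eval xP =
      psi2Sq W xP ^ 4 * (xP * psi2Sq W xQ - dupNum W xQ) := by
  have e : (h6_phi5Poly W).eval xP =
      xP * (4 * dupNum W xP ^ 3 * psi2Sq W xP + W.b₂ * dupNum W xP ^ 2 * psi2Sq W xP ^ 2 +
        2 * W.b₄ * dupNum W xP * psi2Sq W xP ^ 3 + W.b₆ * psi2Sq W xP ^ 4) -
      (dupNum W xP ^ 4 - W.b₄ * dupNum W xP ^ 2 * psi2Sq W xP ^ 2 -
        2 * W.b₆ * dupNum W xP * psi2Sq W xP ^ 3 - W.b₈ * psi2Sq W xP ^ 4) := by
    simp only [h6_phi5Poly, dupNum, psi2Sq, eval_sub, eval_add, eval_mul, eval_pow, eval_X, eval_C]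
  rw [e, ← hPQ]
  simp only [psi2Sq, dupNum]
  ring

/-! ### the bounds -/

section Bounds

variable [CharZero F]

/-- the points killed by 3: a finite set with at most 9 elements -/
theorem h6_three_torsion_finite_ncard :
    {P : W.toAffine.Point | (3 : ℕ) • P = 0}.Finite ∧
      {P : W.toAffine.Point | (3 : ℕ) • P = 0}.ncard ≤ 9 := by
  classical
  have hne : h6_psi3Poly W ≠ 0 := by
    intro h
    have := h6_psi3Poly_natDegree W
    rw [h] at this
    simp at this
  obtain ⟨hfin, hcard⟩ := h6_finite_and_ncard_le W (h6_psi3Poly W).roots.toFinset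
    {P : W.toAffine.Point | (3 : ℕ) • P = 0} (by
      intro x y h hmem
      obtain ⟨x', y', h', e, h0, -⟩ := h6_order3 W (Point.some_ne_zero h) hmem
      rw [Point.some.injEq] at e
      rw [Multiset.mem_toFinset, mem_roots hne, IsRoot.def, h6_psi3Poly_eval, e.1]
      exact h0)
  refine ⟨hfin, hcard.trans ?_⟩
  have : (h6_psi3Poly W).roots.toFinset.card ≤ 4 :=
    (Multiset.toFinset_card_le _).trans ((card_roots' _).trans (h6_psi3Poly_natDegree W).le)
  omega

/-- the points killed by 5: a finite set with at most 33 elements -/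
theorem h6_five_torsion_finite_ncard :
    {P : W.toAffine.Point | (5 : ℕ) • P = 0}.Finite ∧
      {P : W.toAffine.Point | (5 : ℕ) • P = 0}.ncard ≤ 33 := by
  classical
  have hne : h6_phi5Poly W ≠ 0 := by
    intro h
    have := h6_phi5Poly_natDegree W
    rw [h] at this
    simp at this
  obtain ⟨hfin, hcard⟩ := h6_finite_and_ncard_le W (h6_phi5Poly W).roots.toFinset
    {P : W.toAffine.Point | (5 : ℕ) • P = 0} (by
      intro x y h hmem
      obtain ⟨xP, yP, xQ, yQ, hp, hq, e, -, -, -, hPQ, hQP, -⟩ :=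
        h6_order5 W (Point.some_ne_zero h) hmem
      rw [Point.some.injEq] at e
      rw [Multiset.mem_toFinset, mem_roots hne, IsRoot.def, e.1, h6_phi5Poly_eval W hPQ, hQP,
        sub_self, mul_zero])
  refine ⟨hfin, hcard.trans ?_⟩
  have : (h6_phi5Poly W).roots.toFinset.card ≤ 16 :=
    (Multiset.toFinset_card_le _).trans ((card_roots' _).trans (h6_phi5Poly_natDegree W).le)
  omega

omit [CharZero F] in
lemma h6_torsionBy_coe (n : ℕ) :
    ((Submodule.torsionBy ℤ W.toAffine.Point (n : ℤ) : Submodule ℤ W.toAffine.Point) :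
      Set W.toAffine.Point) = {P : W.toAffine.Point | n • P = 0} := by
  ext P
  simp only [SetLike.mem_coe, Submodule.mem_torsionBy_iff, natCast_zsmul, Set.mem_ofPred_eq]

/-- the `3`-torsion module is finite with at most 9 elements -/
theorem h6_card_torsionBy_three :
    Finite (Submodule.torsionBy ℤ W.toAffine.Point ((3 : ℕ) : ℤ)) ∧
      Nat.card (Submodule.torsionBy ℤ W.toAffine.Point ((3 : ℕ) : ℤ)) ≤ 9 := by
  obtain ⟨hfin, hcard⟩ := h6_three_torsion_finite_ncard W
  rw [← h6_torsionBy_coe] at hfin hcard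
  exact ⟨hfin.to_subtype, by rwa [← _root_.Nat.card_coe_set_eq] at hcard⟩

/-- the `5`-torsion module is finite with at most 33 elements -/
theorem h6_card_torsionBy_five :
    Finite (Submodule.torsionBy ℤ W.toAffine.Point ((5 : ℕ) : ℤ)) ∧
      Nat.card (Submodule.torsionBy ℤ W.toAffine.Point ((5 : ℕ) : ℤ)) ≤ 33 := by
  obtain ⟨hfin, hcard⟩ := h6_five_torsion_finite_ncard W
  rw [← h6_torsionBy_coe] at hfin hcard
  exact ⟨hfin.to_subtype, by rwa [← _root_.Nat.card_coe_set_eq] at hcard⟩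

end Bounds

/-! ### isogeny data from a point of order 3 and a point of order 5 -/

theorem h6_isogenyData {T P : W.toAffine.Point} (hT : T ≠ 0) (h3 : (3 : ℕ) • T = 0)
    (hP : P ≠ 0) (h5 : (5 : ℕ) • P = 0) :
    ∃ xT yT xP yP xQ yQ : F, ∃ hT' : W.toAffine.Nonsingular xT yT,
      ∃ hP' : W.toAffine.Nonsingular xP yP, ∃ hQ' : W.toAffine.Nonsingular xQ yQ,
      T = Point.some xT yT hT' ∧ P = Point.some xP yP hP' ∧ P + P = Point.some xQ yQ hQ' ∧
        IsogenyData W xT xP xQ := by
  obtain ⟨xT, yT, hT', eT, hpsi3, -⟩ := h6_order3 W hT h3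
  obtain ⟨xP, yP, xQ, yQ, hP', hQ', eP, eQ, hSP, hSQ, hPQ, hQP, hne⟩ := h6_order5 W hP h5
  refine ⟨xT, yT, xP, yP, xQ, yQ, hT', hP', hQ', eT, eP, eQ, ?_⟩
  have h5Q : (5 : ℕ) • (P + P) = 0 := by rw [smul_add, h5, add_zero]
  refine ⟨hpsi3, hSP, hSQ, hPQ, hQP, hne, ?_, ?_⟩
  · exact h6_x_ne_of_order W (by rw [← eT]; exact h3) (by rw [← eP]; exact h5)
  · exact h6_x_ne_of_order W (by rw [← eT]; exact h3) (by rw [← eQ]; exact h5Q)

/-! ### a proper nonzero subspace of a small space is a line -/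

theorem h6_line_of_card_lt {p : ℕ} [Fact p.Prime] {V : Type*} [AddCommGroup V]
    [Module (ZMod p) V] [Finite V] (hcard : Nat.card V < p ^ 3) (N : Submodule (ZMod p) V)
    (h0 : N ≠ ⊥) (h1 : N ≠ ⊤) :
    ∃ v ∈ N, v ≠ 0 ∧ ∀ w ∈ N, ∃ k : ℕ, w = k • v := by
  have hp : p.Prime := Fact.out
  have hVcard : Nat.card V = p ^ Module.finrank (ZMod p) V := by
    have := Module.natCard_eq_pow_finrank (K := ZMod p) (V := V)
    rwa [Nat.card_zmod] at this
  have hd : Module.finrank (ZMod p) V ≤ 2 := by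
    by_contra hcon
    have h3 : 3 ≤ Module.finrank (ZMod p) V := by omega
    have := Nat.pow_le_pow_right hp.pos h3
    omega
  have hlt : Module.finrank (ZMod p) N < Module.finrank (ZMod p) V :=
    Submodule.finrank_lt h1
  have hpos : 0 < Module.finrank (ZMod p) N := by
    rw [Module.finrank_pos_iff, Submodule.nontrivial_iff_ne_bot]
    exact h0
  have h1' : Module.finrank (ZMod p) N = 1 := by omega
  obtain ⟨v, hv, hspan⟩ := finrank_eq_one_iff'.mp h1'
  refine ⟨v.1, v.2, fun h => hv (Subtype.ext h), fun w hw => ?_⟩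
  obtain ⟨c, hc⟩ := hspan ⟨w, hw⟩
  refine ⟨c.val, ?_⟩
  have hc' : c • v.1 = w := congrArg Subtype.val hc
  rw [← hc', ← Nat.cast_smul_eq_nsmul (ZMod p), ZMod.natCast_zmod_val]

end Fermat.Agent.Lib.S51
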