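/-
S51 project (no semistable curve has a rational 15-isogeny): the arithmetic endgame.
* a semistable integral Weierstrass model with nonzero discriminant has `c₄ ≠ 0` and `c₆ ≠ 0`
  (so `j ≠ 0, 1728`);
* its `j`-invariant is none of the four rational `j`-invariants of curves with a rational
  `15`-isogeny (`-25/2`, `-349938025/8`, `-121945/32`, `46969655/32768`): for these `5` would divide
  both `c₄` and `Δ`.
-/
import Mathlib
import Fermat.Prelude.Def_FLTPrelim_Modularity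

set_option autoImplicit false

namespace Fermat.Agent.Lib.S51

open WeierstrassCurve

/-- A semistable model whose `c₄` is divisible by every prime dividing `Δ` has `Δ = ± 1`. -/
theorem Δ_eq_one_or_of_semistable (W : WeierstrassCurve ℤ) (hW : W.IsSemistableModel)
    (h : ∀ p : ℕ, p.Prime → (p : ℤ) ∣ W.Δ → (p : ℤ) ∣ W.c₄) : W.Δ = 1 ∨ W.Δ = -1 := by
  have h1 : W.Δ.natAbs = 1 := by
    by_contra hne
    obtain ⟨p, hp, hpd⟩ := Nat.exists_prime_and_dvd hne
    have hpΔ : (p : ℤ) ∣ W.Δ := Int.natCast_dvd.mpr hpd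
    exact hW p hp hpΔ (h p hp hpΔ)
  exact Int.natAbs_eq_natAbs_iff.mp (by simpa using h1)

theorem not_sq_eq_1728 (x : ℤ) : x ^ 2 ≠ 1728 := by
  intro h
  have h' : x.natAbs * x.natAbs = 1728 := by
    have : (x.natAbs : ℤ) * x.natAbs = 1728 := by
      rw [Int.natAbs_mul_self' x]
      linarith [h, sq x]
    exact_mod_cast this
  have hlt : x.natAbs < 42 := by nlinarith
  generalize x.natAbs = n at h' hlt
  interval_cases n <;> omega

theorem semistable_c4_ne_zero (W : WeierstrassCurve ℤ) (hW : W.IsSemistableModel) :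
    W.c₄ ≠ 0 := by
  intro h0
  have hrel := W.c_relation
  rw [h0] at hrel
  rcases Δ_eq_one_or_of_semistable W hW (fun p _ _ => by rw [h0]; exact dvd_zero _) with h | h
  · rw [h] at hrel
    nlinarith [sq_nonneg W.c₆]
  · rw [h] at hrel
    exact not_sq_eq_1728 W.c₆ (by linarith)


theorem int_eq_of_cube_eq_1728 (x : ℤ) (h : x ^ 3 = 1728) : x = 12 := by
  have h1 : x ≤ 12 := by
    by_contra hlt
    push Not at hlt
    have : (13 : ℤ) ^ 3 ≤ x ^ 3 := pow_le_pow_left₀ (by norm_num) (by omega) 3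
    omega
  have h2 : 0 ≤ x := by
    by_contra hlt
    push Not at hlt
    have : x ^ 3 < 0 := Odd.pow_neg (by decide) hlt
    omega
  interval_cases x <;> omega

theorem semistable_c6_ne_zero (W : WeierstrassCurve ℤ) (hW : W.IsSemistableModel) :
    W.c₆ ≠ 0 := by
  intro h0
  have hrel := W.c_relation
  rw [h0] at hrel
  have hdvd : ∀ p : ℕ, p.Prime → (p : ℤ) ∣ W.Δ → (p : ℤ) ∣ W.c₄ := by
    intro p hp hpΔ
    have h3 : (p : ℤ) ∣ W.c₄ ^ 3 := by
      have : W.c₄ ^ 3 = 1728 * W.Δ := by linarith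
      rw [this]
      exact Dvd.dvd.mul_left hpΔ _
    exact Int.Prime.dvd_pow' hp h3
  -- `c₄ = ± 12`
  have hc4 : W.c₄ = 12 ∨ W.c₄ = -12 := by
    rcases Δ_eq_one_or_of_semistable W hW hdvd with h | h
    · left
      rw [h] at hrel
      exact int_eq_of_cube_eq_1728 _ (by linarith)
    · right
      rw [h] at hrel
      have : (-W.c₄) ^ 3 = 1728 := by
        rw [Odd.neg_pow (by decide)]
        linarith
      have := int_eq_of_cube_eq_1728 _ this
      omega
  -- contradiction modulo `16`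
  have hc4def : W.c₄ = (W.a₁ ^ 2 + 4 * W.a₂) ^ 2 - 24 * (2 * W.a₄ + W.a₁ * W.a₃) := by
    simp only [c₄, b₂, b₄]
  -- `a₁` is even
  have heven : Even W.a₁ := by
    by_contra hodd
    rw [Int.not_even_iff_odd] at hodd
    have h1 : Odd ((W.a₁ ^ 2 + 4 * W.a₂) ^ 2) := by
      apply Odd.pow
      exact (hodd.pow).add_even (by exact ⟨2 * W.a₂, by ring⟩)
    have h2 : Even ((W.a₁ ^ 2 + 4 * W.a₂) ^ 2) := by
      have : (W.a₁ ^ 2 + 4 * W.a₂) ^ 2 = W.c₄ + 24 * (2 * W.a₄ + W.a₁ * W.a₃) := by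
        rw [hc4def]; ring
      rw [this]
      rcases hc4 with h | h <;> rw [h]
      · exact ⟨6 + 12 * (2 * W.a₄ + W.a₁ * W.a₃), by ring⟩
      · exact ⟨-6 + 12 * (2 * W.a₄ + W.a₁ * W.a₃), by ring⟩
    exact (Int.not_even_iff_odd.mpr h1) h2
  obtain ⟨k, hk⟩ := heven
  have h16 : W.c₄ = 16 * (k ^ 2 + W.a₂) ^ 2 - 24 * (2 * W.a₄ + W.a₁ * W.a₃) := by
    rw [hc4def, hk]; ring
  generalize (k ^ 2 + W.a₂) ^ 2 = m at h16
  generalize (2 * W.a₄ + W.a₁ * W.a₃) = n at h16
  rcases hc4 with h | h <;> omega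

/-- The arithmetic core of the endgame: `a c³ = b D` with `5 ∤ a`, `5 ∣ b`, `125 ∤ b` forces
`5 ∣ c` and `5 ∣ D`. -/
theorem five_dvd_of_mul_cube_eq {a b c D : ℤ} (h : a * c ^ 3 = b * D) (ha : ¬ (5 : ℤ) ∣ a)
    (hb : (5 : ℤ) ∣ b) (hb' : ¬ (125 : ℤ) ∣ b) : (5 : ℤ) ∣ c ∧ (5 : ℤ) ∣ D := by
  have h5 : Prime (5 : ℤ) := Int.prime_iff_natAbs_prime.mpr (by norm_num)
  have hc : (5 : ℤ) ∣ c := by
    have h1 : (5 : ℤ) ∣ a * c ^ 3 := by rw [h]; exact Dvd.dvd.mul_right hb _
    rcases h5.dvd_or_dvd h1 with h2 | h2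
    · exact absurd h2 ha
    · exact h5.dvd_of_dvd_pow h2
  refine ⟨hc, ?_⟩
  by_contra hD
  obtain ⟨k, rfl⟩ := hc
  have hcop : IsCoprime (125 : ℤ) D := by
    have : IsCoprime (5 : ℤ) D := (h5.coprime_iff_not_dvd).mpr hD
    have := this.pow_left (m := 3)
    norm_num at this
    exact this
  have h125 : (125 : ℤ) ∣ b * D := ⟨a * k ^ 3, by rw [← h]; ring⟩
  exact hb' (hcop.dvd_of_dvd_mul_right h125)

/-- A semistable model has `j`-invariant (written `c₄³ / Δ` in any field of characteristic zero)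
different from the four `j`-invariants of curves with a rational `15`-isogeny. -/
theorem semistable_j_ne (W : WeierstrassCurve ℤ) (hΔ : W.Δ ≠ 0) (hW : W.IsSemistableModel)
    (F : Type*) [Field F] [CharZero F] :
    (W.c₄ : F) ^ 3 / (W.Δ : F) ≠ -25 / 2 ∧
    (W.c₄ : F) ^ 3 / (W.Δ : F) ≠ -349938025 / 8 ∧
    (W.c₄ : F) ^ 3 / (W.Δ : F) ≠ -121945 / 32 ∧
    (W.c₄ : F) ^ 3 / (W.Δ : F) ≠ 46969655 / 32768 := by
  have hΔF : (W.Δ : F) ≠ 0 := by exact_mod_cast hΔ
  have key : ∀ a b : ℤ, a ≠ 0 → ¬ (5 : ℤ) ∣ a → (5 : ℤ) ∣ b → ¬ (125 : ℤ) ∣ b →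
      (W.c₄ : F) ^ 3 / (W.Δ : F) ≠ (b : F) / (a : F) := by
    intro a b ha0 ha hb hb' heq
    have haF : (a : F) ≠ 0 := by exact_mod_cast ha0
    rw [div_eq_div_iff hΔF haF] at heq
    have hZ : a * W.c₄ ^ 3 = b * W.Δ := by
      have : ((a * W.c₄ ^ 3 : ℤ) : F) = ((b * W.Δ : ℤ) : F) := by
        push_cast; linear_combination heq
      exact_mod_cast this
    obtain ⟨h1, h2⟩ := five_dvd_of_mul_cube_eq hZ ha hb hb'
    exact hW 5 (by norm_num) (by exact_mod_cast h2) (by exact_mod_cast h1)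
  refine ⟨?_, ?_, ?_, ?_⟩
  · have := key 2 (-25) (by norm_num) (by norm_num) (by norm_num) (by norm_num)
    push_cast at this
    exact this
  · have := key 8 (-349938025) (by norm_num) (by norm_num) (by norm_num) (by norm_num)
    push_cast at this
    exact this
  · have := key 32 (-121945) (by norm_num) (by norm_num) (by norm_num) (by norm_num)
    push_cast at this
    exact this
  · have := key 32768 46969655 (by norm_num) (by norm_num) (by norm_num) (by norm_num)
    push_cast at this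
    exact this

/-- The `j`-invariant of the base change of an integral model to a field of characteristic `0`. -/
theorem j_map_intCast (W : WeierstrassCurve ℤ) (F : Type*) [Field F] [CharZero F]
    [(W.map (Int.castRingHom F)).IsElliptic] :
    (W.map (Int.castRingHom F)).j = (W.c₄ : F) ^ 3 / (W.Δ : F) := by
  rw [j, Units.val_inv_eq_inv_val, coe_Δ', map_Δ, map_c₄, eq_intCast, eq_intCast, div_eq_inv_mul]


/-- The base change of an integral model with `Δ ≠ 0` to a field of characteristic `0` is an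
elliptic curve. -/
theorem isElliptic_map_intCast (W : WeierstrassCurve ℤ) (hΔ : W.Δ ≠ 0) (F : Type*) [Field F]
    [CharZero F] : (W.map (Int.castRingHom F)).IsElliptic := by
  rw [isElliptic_iff, map_Δ, eq_intCast, isUnit_iff_ne_zero]
  exact_mod_cast hΔ

/-- Summary of the endgame: the `j`-invariant of a semistable model avoids `0`, `1728` and the
four `j`-invariants of curves with a rational `15`-isogeny. -/
theorem semistable_j_avoids (W : WeierstrassCurve ℤ) (hΔ : W.Δ ≠ 0) (hW : W.IsSemistableModel)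
    (F : Type*) [Field F] [CharZero F] [(W.map (Int.castRingHom F)).IsElliptic] :
    (W.map (Int.castRingHom F)).j ≠ 0 ∧ (W.map (Int.castRingHom F)).j ≠ 1728 ∧
    (W.map (Int.castRingHom F)).j ≠ -25 / 2 ∧
    (W.map (Int.castRingHom F)).j ≠ -349938025 / 8 ∧
    (W.map (Int.castRingHom F)).j ≠ -121945 / 32 ∧
    (W.map (Int.castRingHom F)).j ≠ 46969655 / 32768 := by
  have hΔF : (W.Δ : F) ≠ 0 := by exact_mod_cast hΔ
  have hc4 : (W.c₄ : F) ≠ 0 := by exact_mod_cast semistable_c4_ne_zero W hW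
  have hc6 : (W.c₆ : F) ≠ 0 := by exact_mod_cast semistable_c6_ne_zero W hW
  have hrel : (1728 : F) * (W.Δ : F) = (W.c₄ : F) ^ 3 - (W.c₆ : F) ^ 2 := by
    exact_mod_cast congrArg (Int.cast : ℤ → F) W.c_relation
  obtain ⟨h1, h2, h3, h4⟩ := semistable_j_ne W hΔ hW F
  rw [j_map_intCast]
  refine ⟨?_, ?_, h1, h2, h3, h4⟩
  · exact div_ne_zero (pow_ne_zero 3 hc4) hΔF
  · intro h
    rw [div_eq_iff hΔF] at h
    have : (W.c₆ : F) ^ 2 = 0 := by linear_combination h + hrel
    exact hc6 (pow_eq_zero_iff (by norm_num) |>.mp this)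

end Fermat.Agent.Lib.S51
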