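/-
S51 project: piece (D) in the shape of the interface `Endgame` of `Defs.lean`.
-/
import Mathlib
import Fermat.Agent.Lib.S51.Defs
import Fermat.Agent.Lib.S51.Endgame

set_option autoImplicit false

namespace Fermat.Agent.Lib.S51

/-- Piece (D): the endgame holds. -/
theorem endgame_holds : Endgame := by
  intro W hΔ hW j hj
  have hΔF : (W.Δ : ℚ) ≠ 0 := by exact_mod_cast hΔ
  have hjeq : j = (W.c₄ : ℚ) ^ 3 / (W.Δ : ℚ) := by
    rw [eq_div_iff hΔF]
    exact hj
  rw [hjeq]
  exact semistable_j_ne W hΔ hW ℚ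

end Fermat.Agent.Lib.S51
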