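/-
S51 project, piece (A2): over an algebraically closed field of characteristic zero, every elliptic
curve has a nonzero point killed by `3` and a nonzero point killed by `5`.

Method: the normal forms `y² + a x y + y = x³` (the origin has order `3`) and
`y² + (1 - b) x y - b y = x³ - b x²` (Tate normal form, the origin has order `5`) realise every
`j`-invariant; curves with the same `j` are isomorphic over a separably closed field, and a change
of variables induces an isomorphism of the groups of points (`vcPointEquiv`).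
-/
import Mathlib
import Fermat.Agent.Lib.S51.VarChangePoint

set_option autoImplicit false

noncomputable section

namespace Fermat.Agent.Lib.S51

open WeierstrassCurve WeierstrassCurve.Affine Polynomial

variable {K : Type*} [Field K]

lemma point_some_congr {W : WeierstrassCurve K} {x y x' y' : K} (h : W.toAffine.Nonsingular x y)
    (hx : x = x') (hy : y = y') :
    ∃ h' : W.toAffine.Nonsingular x' y', Point.some x y h = Point.some x' y' h' := by
  subst hx hy
  exact ⟨h, rfl⟩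

/-! ### order three -/

/-- the normal form `y² + a x y + y = x³` -/
def nf3 (a : K) : WeierstrassCurve K := ⟨a, 0, 1, 0, 0⟩

lemma nf3_Δ (a : K) : (nf3 a).Δ = a ^ 3 - 27 := by
  simp only [nf3, WeierstrassCurve.Δ, b₂, b₄, b₆, b₈]
  ring

lemma nf3_c₄ (a : K) : (nf3 a).c₄ = a * (a ^ 3 - 24) := by
  simp only [nf3, WeierstrassCurve.c₄, b₂, b₄]
  ring

lemma nf3_nonsingular (a : K) : (nf3 a).toAffine.Nonsingular 0 0 := by
  rw [nonsingular_zero]
  exact ⟨rfl, Or.inl one_ne_zero⟩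

lemma nf3_three_nsmul [DecidableEq K] (a : K) :
    (3 : ℕ) • (Point.some 0 0 (nf3_nonsingular a)) = (0 : (nf3 a).toAffine.Point) := by
  set P : (nf3 a).toAffine.Point := Point.some 0 0 (nf3_nonsingular a) with hP
  have hY : (0 : K) ≠ (nf3 a).toAffine.negY 0 0 := by
    simp [negY, nf3]
  have h2 : P + P = -P := by
    rw [hP, Point.add_self_of_Y_ne hY, Point.neg_some]
    have hs : (nf3 a).toAffine.slope 0 0 0 0 = 0 := by
      rw [slope_of_Y_ne rfl hY]
      simp [nf3]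
    obtain ⟨h', e⟩ := point_some_congr (W := nf3 a)
      (nonsingular_add (nf3_nonsingular a) (nf3_nonsingular a) fun hxy => hY hxy.right)
      (x' := 0) (y' := (nf3 a).toAffine.negY 0 0)
      (by rw [hs]; simp [addX, nf3])
      (by rw [hs]; simp [addY, negAddY, addX, negY, nf3])
    rw [e]
  calc (3 : ℕ) • P = (P + P) + P := by abel
    _ = 0 := by rw [h2, neg_add_cancel]

/-! ### order five -/

/-- the Tate normal form `y² + (1 - b) x y - b y = x³ - b x²` -/
def nf5 (b : K) : WeierstrassCurve K := ⟨1 - b, -b, -b, 0, 0⟩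

lemma nf5_Δ (b : K) : (nf5 b).Δ = b ^ 5 * (b ^ 2 - 11 * b - 1) := by
  simp only [nf5, WeierstrassCurve.Δ, b₂, b₄, b₆, b₈]
  ring

lemma nf5_c₄ (b : K) : (nf5 b).c₄ = b ^ 4 - 12 * b ^ 3 + 14 * b ^ 2 + 12 * b + 1 := by
  simp only [nf5, WeierstrassCurve.c₄, b₂, b₄]
  ring

lemma nf5_nonsingular {b : K} (hb : b ≠ 0) : (nf5 b).toAffine.Nonsingular 0 0 := by
  rw [nonsingular_zero]
  exact ⟨rfl, Or.inl (by simpa [nf5] using hb)⟩

lemma nf5_five_nsmul [DecidableEq K] {b : K} (hb : b ≠ 0) :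
    (5 : ℕ) • (Point.some 0 0 (nf5_nonsingular hb)) = (0 : (nf5 b).toAffine.Point) := by
  set P : (nf5 b).toAffine.Point := Point.some 0 0 (nf5_nonsingular hb) with hP
  have hY : (0 : K) ≠ (nf5 b).toAffine.negY 0 0 := by
    simp only [negY, nf5]
    intro h
    apply hb
    linear_combination -h
  -- `2 P = (b, b²)`
  have hs : (nf5 b).toAffine.slope 0 0 0 0 = 0 := by
    rw [slope_of_Y_ne rfl hY]
    simp [nf5]
  obtain ⟨h2, e2⟩ := point_some_congr (W := nf5 b)
    (nonsingular_add (nf5_nonsingular hb) (nf5_nonsingular hb) fun hxy => hY hxy.right)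
    (x' := b) (y' := b ^ 2)
    (by rw [hs]; simp [addX, nf5])
    (by rw [hs]; simp only [addY, negAddY, addX, negY, nf5]; ring)
  have hPP : P + P = Point.some b (b ^ 2) h2 := by
    rw [hP, Point.add_self_of_Y_ne hY, e2]
  -- `3 P = (b, 0) = - 2 P`
  have hs3 : (nf5 b).toAffine.slope b 0 (b ^ 2) 0 = b := by
    rw [slope_of_X_ne hb]
    field_simp
    ring
  obtain ⟨h3, e3⟩ := point_some_congr (W := nf5 b)
    (nonsingular_add h2 (nf5_nonsingular hb) fun hxy => hb hxy.left)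
    (x' := b) (y' := (nf5 b).toAffine.negY b (b ^ 2))
    (by rw [hs3]; simp only [addX, nf5]; ring)
    (by rw [hs3]; simp only [addY, negAddY, addX, negY, nf5]; ring)
  have hPPP : (P + P) + P = -(P + P) := by
    rw [hPP, hP, Point.add_of_X_ne hb, e3, Point.neg_some]
  calc (5 : ℕ) • P = ((P + P) + P) + (P + P) := by abel
    _ = 0 := by rw [hPPP, neg_add_cancel]

/-! ### realising every `j`-invariant -/

lemma exists_nf3_param [IsAlgClosed K] [CharZero K] (j : K) :
    ∃ a : K, a ^ 3 - 27 ≠ 0 ∧ (a * (a ^ 3 - 24)) ^ 3 = j * (a ^ 3 - 27) := by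
  have hdeg : ((X * (X ^ 3 - C 24)) ^ 3 - C j * (X ^ 3 - C 27) : K[X]).natDegree = 12 := by
    compute_degree!
  have hdeg' : ((X * (X ^ 3 - C 24)) ^ 3 - C j * (X ^ 3 - C 27) : K[X]).degree ≠ 0 := by
    intro h
    have := natDegree_eq_zero_iff_degree_le_zero.mpr (le_of_eq h)
    rw [hdeg] at this
    norm_num at this
  obtain ⟨a, ha⟩ := IsAlgClosed.exists_root _ hdeg'
  simp only [IsRoot.def, eval_sub, eval_pow, eval_mul, eval_X, eval_C] at ha
  refine ⟨a, ?_, by linear_combination ha⟩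
  intro h0
  have h27 : a ^ 3 = 27 := by linear_combination h0
  have : (27 * 27 : K) = 0 := by
    have h1 : (a * (a ^ 3 - 24)) ^ 3 = 0 := by rw [sub_eq_zero.mp ha, h0, mul_zero]
    have h2 : (a * (a ^ 3 - 24)) ^ 3 = a ^ 3 * (a ^ 3 - 24) ^ 3 := by ring
    rw [h2, h27] at h1
    linear_combination h1
  norm_num at this

lemma exists_nf5_param [IsAlgClosed K] [CharZero K] (j : K) :
    ∃ b : K, b ^ 5 * (b ^ 2 - 11 * b - 1) ≠ 0 ∧
      (b ^ 4 - 12 * b ^ 3 + 14 * b ^ 2 + 12 * b + 1) ^ 3 = j * (b ^ 5 * (b ^ 2 - 11 * b - 1)) := by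
  have hdeg : ((X ^ 4 - C 12 * X ^ 3 + C 14 * X ^ 2 + C 12 * X + C 1) ^ 3 -
      C j * (X ^ 5 * (X ^ 2 - C 11 * X - C 1)) : K[X]).natDegree = 12 := by
    compute_degree!
  have hdeg' : ((X ^ 4 - C 12 * X ^ 3 + C 14 * X ^ 2 + C 12 * X + C 1) ^ 3 -
      C j * (X ^ 5 * (X ^ 2 - C 11 * X - C 1)) : K[X]).degree ≠ 0 := by
    intro h
    have := natDegree_eq_zero_iff_degree_le_zero.mpr (le_of_eq h)
    rw [hdeg] at this
    norm_num at this
  obtain ⟨b, hb⟩ := IsAlgClosed.exists_root _ hdeg'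
  simp only [IsRoot.def, eval_sub, eval_pow, eval_mul, eval_add, eval_X, eval_C] at hb
  refine ⟨b, ?_, by linear_combination hb⟩
  intro h0
  have hc : (b ^ 4 - 12 * b ^ 3 + 14 * b ^ 2 + 12 * b + 1) ^ 3 = 0 := by
    rw [sub_eq_zero.mp hb, h0, mul_zero]
  have hc' : b ^ 4 - 12 * b ^ 3 + 14 * b ^ 2 + 12 * b + 1 = 0 := by
    exact pow_eq_zero_iff (by norm_num) |>.mp hc
  rcases mul_eq_zero.mp h0 with h1 | h1
  · have hb0 : b = 0 := pow_eq_zero_iff (by norm_num) |>.mp h1
    rw [hb0] at hc'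
    norm_num at hc'
  · -- `c₄ = 5 b²` modulo `b² - 11 b - 1`
    have h5 : 5 * b ^ 2 = 0 := by
      linear_combination hc' - (b ^ 2 - b - 1) * h1
    have hb0 : b = 0 := by
      have : b ^ 2 = 0 := by
        rcases mul_eq_zero.mp h5 with h | h
        · norm_num at h
        · exact h
      exact pow_eq_zero_iff (by norm_num) |>.mp this
    rw [hb0] at h1
    norm_num at h1

/-! ### main results -/

section Main

variable [IsAlgClosed K] [CharZero K] [DecidableEq K]

/-- every elliptic curve over an algebraically closed field of characteristic zero has a nonzero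
point killed by `3` -/
theorem exists_three_torsion (W : WeierstrassCurve K) (hΔ : W.Δ ≠ 0) :
    ∃ P : W.toAffine.Point, P ≠ 0 ∧ (3 : ℕ) • P = 0 := by
  have : W.IsElliptic := ⟨isUnit_iff_ne_zero.mpr hΔ⟩
  obtain ⟨a, ha, hj⟩ := exists_nf3_param W.j
  have hΔ' : (nf3 a).Δ ≠ 0 := by rw [nf3_Δ]; exact ha
  have : (nf3 a).IsElliptic := ⟨isUnit_iff_ne_zero.mpr hΔ'⟩
  have hjj : (nf3 a).j = W.j := by
    have e1 : ((nf3 a).Δ' : K) = a ^ 3 - 27 := by rw [coe_Δ', nf3_Δ]
    rw [j, Units.val_inv_eq_inv_val, e1, nf3_c₄, hj]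
    field_simp
  obtain ⟨C, hC⟩ := exists_variableChange_of_j_eq W (nf3 a) hjj.symm
  have key : ∀ W' : WeierstrassCurve K, W' = nf3 a →
      ∃ P : W'.toAffine.Point, P ≠ 0 ∧ (3 : ℕ) • P = 0 := by
    rintro _ rfl
    exact ⟨Point.some 0 0 (nf3_nonsingular a), Point.some_ne_zero _, nf3_three_nsmul a⟩
  obtain ⟨P, hP, h3⟩ := key (C • W) hC
  refine ⟨vcPointEquiv W C P, ?_, ?_⟩
  · rwa [ne_eq, vcPointEquiv_eq_zero_iff]
  · rw [← map_nsmul, h3, map_zero]

/-- every elliptic curve over an algebraically closed field of characteristic zero has a nonzero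
point killed by `5` -/
theorem exists_five_torsion (W : WeierstrassCurve K) (hΔ : W.Δ ≠ 0) :
    ∃ P : W.toAffine.Point, P ≠ 0 ∧ (5 : ℕ) • P = 0 := by
  have : W.IsElliptic := ⟨isUnit_iff_ne_zero.mpr hΔ⟩
  obtain ⟨b, hb, hj⟩ := exists_nf5_param W.j
  have hb0 : b ≠ 0 := by
    rintro rfl
    simp at hb
  have hΔ' : (nf5 b).Δ ≠ 0 := by rw [nf5_Δ]; exact hb
  have : (nf5 b).IsElliptic := ⟨isUnit_iff_ne_zero.mpr hΔ'⟩
  have hjj : (nf5 b).j = W.j := by
    have e1 : ((nf5 b).Δ' : K) = b ^ 5 * (b ^ 2 - 11 * b - 1) := by rw [coe_Δ', nf5_Δ]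
    rw [j, Units.val_inv_eq_inv_val, e1, nf5_c₄, hj, mul_comm, mul_assoc,
      mul_inv_cancel₀ hb, mul_one]
  obtain ⟨C, hC⟩ := exists_variableChange_of_j_eq W (nf5 b) hjj.symm
  have key : ∀ W' : WeierstrassCurve K, W' = nf5 b →
      ∃ P : W'.toAffine.Point, P ≠ 0 ∧ (5 : ℕ) • P = 0 := by
    rintro _ rfl
    exact ⟨Point.some 0 0 (nf5_nonsingular hb0), Point.some_ne_zero _, nf5_five_nsmul hb0⟩
  obtain ⟨P, hP, h5⟩ := key (C • W) hC
  refine ⟨vcPointEquiv W C P, ?_, ?_⟩
  · rwa [ne_eq, vcPointEquiv_eq_zero_iff]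
  · rw [← map_nsmul, h5, map_zero]

/-- nontriviality of the `n`-torsion module from a nonzero point killed by `n` -/
lemma nontrivial_torsionBy_of_exists {A : Type*} [AddCommGroup A] (n : ℕ)
    (h : ∃ P : A, P ≠ 0 ∧ n • P = 0) : Nontrivial (Submodule.torsionBy ℤ A (n : ℤ)) := by
  obtain ⟨P, hP, hn⟩ := h
  refine ⟨⟨⟨P, ?_⟩, 0, ?_⟩⟩
  · rw [Submodule.mem_torsionBy_iff, natCast_zsmul]
    exact hn
  · intro h0
    exact hP (congrArg Subtype.val h0)

theorem nontrivial_torsionBy_three {F : Type*} [Field F] [Algebra F K] (E : WeierstrassCurve F)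
    (hΔ : E.Δ ≠ 0) : Nontrivial (Submodule.torsionBy ℤ (E⁄K).Point ((3 : ℕ) : ℤ)) := by
  apply nontrivial_torsionBy_of_exists
  apply exists_three_torsion
  rw [WeierstrassCurve.baseChange, map_Δ]
  exact (_root_.map_ne_zero _).mpr hΔ

theorem nontrivial_torsionBy_five {F : Type*} [Field F] [Algebra F K] (E : WeierstrassCurve F)
    (hΔ : E.Δ ≠ 0) : Nontrivial (Submodule.torsionBy ℤ (E⁄K).Point ((5 : ℕ) : ℤ)) := by
  apply nontrivial_torsionBy_of_exists
  apply exists_five_torsion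
  rw [WeierstrassCurve.baseChange, map_Δ]
  exact (_root_.map_ne_zero _).mpr hΔ

end Main

end Fermat.Agent.Lib.S51
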