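/-
S51 project: existence of a point of order `3` on a Weierstrass curve with `Δ ≠ 0` over an
algebraically closed field in which `3 ≠ 0` (root of the `3`-division polynomial, Bezout identity
between `Ψ₃` and `Ψ₂Sq`, duplication formula).
-/
import Mathlib

set_option autoImplicit false

namespace Fermat.Agent.Lib.S51

open WeierstrassCurve Polynomial

variable {K : Type*} [Field K]

/-- Bezout identity between `Ψ₃` and `Ψ₂Sq`: a common root forces `Δ = 0`. -/
theorem h8_bezout_psi3_psi2Sq (W : WeierstrassCurve K) (x : K) :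
    W.Δ = (48 * x ^ 2 + 8 * W.b₂ * x - W.b₂ ^ 2 + 32 * W.b₄) *
        (3 * x ^ 4 + W.b₂ * x ^ 3 + 3 * W.b₄ * x ^ 2 + 3 * W.b₆ * x + W.b₈) +
      (-36 * x ^ 3 - 9 * W.b₂ * x ^ 2 + W.b₂ ^ 2 * x - 42 * W.b₄ * x + W.b₂ * W.b₄ - 27 * W.b₆) *
        (4 * x ^ 3 + W.b₂ * x ^ 2 + 2 * W.b₄ * x + W.b₆) := by
  simp only [Δ, b₂, b₄, b₆, b₈]
  ring

/-- On the curve, `(2y + a₁x + a₃)² = Ψ₂Sq(x)`. -/
theorem h8_sq_two_y_eq_psi2Sq (W : WeierstrassCurve K) {x y : K} (h : W.toAffine.Equation x y) :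
    (2 * y + W.a₁ * x + W.a₃) ^ 2 = 4 * x ^ 3 + W.b₂ * x ^ 2 + 2 * W.b₄ * x + W.b₆ := by
  rw [Affine.equation_iff] at h
  simp only [b₂, b₄, b₆]
  linear_combination 4 * h

/-- The duplication formula for the `x`-coordinate, in polynomial form. -/
theorem h8_dup_x_formula (W : WeierstrassCurve K) {x y : K} (h : W.toAffine.Equation x y) :
    (3 * x ^ 2 + 2 * W.a₂ * x + W.a₄ - W.a₁ * y) ^ 2 +
        W.a₁ * (3 * x ^ 2 + 2 * W.a₂ * x + W.a₄ - W.a₁ * y) * (2 * y + W.a₁ * x + W.a₃) -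
        (W.a₂ + 2 * x) * (2 * y + W.a₁ * x + W.a₃) ^ 2 =
      x ^ 4 - W.b₄ * x ^ 2 - 2 * W.b₆ * x - W.b₈ := by
  rw [Affine.equation_iff] at h
  simp only [b₄, b₆, b₈]
  linear_combination (-8 * x - 4 * W.a₂ - W.a₁ ^ 2) * h

variable [DecidableEq K]

/-- `x(2P) * Ψ₂Sq(x(P)) = dupNum(x(P))` for a point that is not `2`-torsion. -/
theorem h8_addX_self_mul (W : WeierstrassCurve K) {x y : K} (h : W.toAffine.Equation x y)
    (hy : y ≠ W.toAffine.negY x y) :
    W.toAffine.addX x x (W.toAffine.slope x x y y) *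
        (4 * x ^ 3 + W.b₂ * x ^ 2 + 2 * W.b₄ * x + W.b₆) =
      x ^ 4 - W.b₄ * x ^ 2 - 2 * W.b₆ * x - W.b₈ := by
  have hd : 2 * y + W.a₁ * x + W.a₃ ≠ 0 := by
    intro h0
    apply hy
    simp only [Affine.negY]
    linear_combination h0
  have hs : W.toAffine.slope x x y y =
      (3 * x ^ 2 + 2 * W.a₂ * x + W.a₄ - W.a₁ * y) / (2 * y + W.a₁ * x + W.a₃) := by
    rw [Affine.slope_of_Y_ne rfl hy]
    congr 1
    simp only [Affine.negY]
    ring
  rw [← h8_sq_two_y_eq_psi2Sq W h, ← h8_dup_x_formula W h, hs]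
  simp only [Affine.addX]
  generalize 2 * y + W.a₁ * x + W.a₃ = d at hd ⊢
  generalize 3 * x ^ 2 + 2 * W.a₂ * x + W.a₄ - W.a₁ * y = n
  field_simp
  ring

/-- A point `P = (x, y)` with `Ψ₃(x) = 0` on a curve with `Δ ≠ 0` has order `3`. -/
theorem h8_three_nsmul_eq_zero_of_psi3 (W : WeierstrassCurve K) (hΔ : W.Δ ≠ 0) {x y : K}
    (hns : W.toAffine.Nonsingular x y)
    (hx : 3 * x ^ 4 + W.b₂ * x ^ 3 + 3 * W.b₄ * x ^ 2 + 3 * W.b₆ * x + W.b₈ = 0) :
    3 • (Affine.Point.some x y hns : W.toAffine.Point) = 0 := by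
  have heq : W.toAffine.Equation x y := hns.1
  -- `P` is not `2`-torsion
  have hpsi2 : 4 * x ^ 3 + W.b₂ * x ^ 2 + 2 * W.b₄ * x + W.b₆ ≠ 0 := by
    intro h0
    apply hΔ
    rw [h8_bezout_psi3_psi2Sq W x, hx, h0]
    ring
  have hy : y ≠ W.toAffine.negY x y := by
    intro h0
    apply hpsi2
    rw [← h8_sq_two_y_eq_psi2Sq W heq]
    have : 2 * y + W.a₁ * x + W.a₃ = 0 := by
      simp only [Affine.negY] at h0
      linear_combination h0
    rw [this]
    ring
  -- `x(2P) = x(P)`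
  have hxx : W.toAffine.addX x x (W.toAffine.slope x x y y) = x := by
    have h1 := h8_addX_self_mul W heq hy
    have h2 : x * (4 * x ^ 3 + W.b₂ * x ^ 2 + 2 * W.b₄ * x + W.b₆) =
        x ^ 4 - W.b₄ * x ^ 2 - 2 * W.b₆ * x - W.b₈ := by
      linear_combination hx
    exact mul_right_cancel₀ hpsi2 (h1.trans h2.symm)
  have h2P : (Affine.Point.some x y hns : W.toAffine.Point) + Affine.Point.some x y hns =
      Affine.Point.some _ _ (Affine.nonsingular_add hns hns fun hxy => hy hxy.right) :=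
    Affine.Point.add_self_of_Y_ne hy
  have hcases := (Affine.Point.X_eq_iff
    (h₁ := Affine.nonsingular_add hns hns fun hxy => hy hxy.right) (h₂ := hns)).mp hxx
  rw [← h2P] at hcases
  have h3 : (3 : ℕ) • (Affine.Point.some x y hns : W.toAffine.Point) =
      Affine.Point.some x y hns + Affine.Point.some x y hns + Affine.Point.some x y hns := by
    rw [succ_nsmul, succ_nsmul, one_nsmul]
  rw [h3]
  rcases hcases with h | h
  · exfalso
    have : (Affine.Point.some x y hns : W.toAffine.Point) = 0 := by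
      have := congrArg (fun Q => Q - Affine.Point.some x y hns) h
      simp at this
    exact Affine.Point.some_ne_zero hns this
  · rw [h]
    exact neg_add_cancel _

/-- Existence of a point of order `3` over an algebraically closed field with `3 ≠ 0`. -/
theorem h8_exists_point_order_three [IsAlgClosed K] (h3 : (3 : K) ≠ 0) (W : WeierstrassCurve K)
    (hΔ : W.Δ ≠ 0) :
    ∃ (x y : K) (hns : W.toAffine.Nonsingular x y),
      3 * x ^ 4 + W.b₂ * x ^ 3 + 3 * W.b₄ * x ^ 2 + 3 * W.b₆ * x + W.b₈ = 0 ∧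
      3 • (Affine.Point.some x y hns : W.toAffine.Point) = 0 := by
  -- a root of `Ψ₃`
  obtain ⟨x, hx⟩ := IsAlgClosed.exists_root W.Ψ₃ (by
    rw [degree_eq_natDegree (ne_zero_of_natDegree_gt (W.natDegree_Ψ₃_pos h3)), W.natDegree_Ψ₃ h3]
    norm_num)
  have hx' : 3 * x ^ 4 + W.b₂ * x ^ 3 + 3 * W.b₄ * x ^ 2 + 3 * W.b₆ * x + W.b₈ = 0 := by
    have := hx
    simp only [IsRoot.def, Ψ₃, eval_add, eval_mul, eval_pow, eval_X, eval_C, eval_ofNat] at this
    exact this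
  -- a `y`-coordinate
  obtain ⟨y, hy⟩ := IsAlgClosed.exists_root
    (X ^ 2 + C (W.a₁ * x + W.a₃) * X - C (x ^ 3 + W.a₂ * x ^ 2 + W.a₄ * x + W.a₆) : K[X]) (by
      have : (X ^ 2 + C (W.a₁ * x + W.a₃) * X - C (x ^ 3 + W.a₂ * x ^ 2 + W.a₄ * x + W.a₆) :
          K[X]).degree = 2 := by compute_degree!
      rw [this]
      norm_num)
  have heq : W.toAffine.Equation x y := by
    rw [Affine.equation_iff]
    simp only [IsRoot.def, eval_add, eval_sub, eval_mul, eval_pow, eval_X, eval_C] at hy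
    linear_combination hy
  have hns : W.toAffine.Nonsingular x y :=
    (W.toAffine.equation_iff_nonsingular_of_Δ_ne_zero hΔ).mp heq
  exact ⟨x, y, hns, hx', h8_three_nsmul_eq_zero_of_psi3 W hΔ hns hx'⟩

/-- Existence of a nonzero point killed by `3`. -/
theorem h8_exists_ne_zero_three_nsmul [IsAlgClosed K] (h3 : (3 : K) ≠ 0) (W : WeierstrassCurve K)
    (hΔ : W.Δ ≠ 0) : ∃ P : W.toAffine.Point, P ≠ 0 ∧ 3 • P = 0 := by
  obtain ⟨x, y, hns, -, h⟩ := h8_exists_point_order_three h3 W hΔ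
  exact ⟨_, Affine.Point.some_ne_zero hns, h⟩

/-- The `3`-torsion of the point group is nontrivial. -/
theorem h8_nontrivial_torsionBy_three [IsAlgClosed K] (h3 : (3 : K) ≠ 0) (W : WeierstrassCurve K)
    (hΔ : W.Δ ≠ 0) : Nontrivial (Submodule.torsionBy ℤ W.toAffine.Point (3 : ℕ)) := by
  obtain ⟨P, hP0, hP⟩ := h8_exists_ne_zero_three_nsmul h3 W hΔ
  refine ⟨⟨⟨P, ?_⟩, 0, ?_⟩⟩
  · rw [Submodule.mem_torsionBy_iff, natCast_zsmul]
    exact hP
  · intro h
    exact hP0 (congrArg Subtype.val h)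

end Fermat.Agent.Lib.S51
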