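/-
S51, piece (A3): Galois extraction (helper9).
From the prelude's `¬ GaloisRepIsIrreducible` for n = 3, 5 (plus nontriviality and a cardinality bound
on the n-torsion), extract a torsion point / cyclic subgroup whose x-coordinate data are rational.
-/
import Mathlib
import Fermat.Prelude.Def_FLTPrelim_GaloisRep

set_option autoImplicit false

namespace Fermat.Agent.Lib.S51

open WeierstrassCurve WeierstrassCurve.Affine WeierstrassCurve.Affine.Point

/-- A one-dimensional subspace: a proper nonzero subspace of a small `ZMod p`-vector space. -/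
theorem h9_exists_generator {p : ℕ} [Fact p.Prime] {V : Type*} [AddCommGroup V]
    [Module (ZMod p) V] [Finite V] (hcard : Nat.card V < p ^ 3)
    (N : Submodule (ZMod p) V) (hbot : N ≠ ⊥) (htop : N ≠ ⊤) :
    ∃ v ∈ N, v ≠ 0 ∧ ∀ w ∈ N, ∃ c : ZMod p, c • v = w := by
  have hp : p.Prime := Fact.out
  have : Module.Finite (ZMod p) V := Module.Finite.of_finite
  have h1 : Nat.card V = p ^ Module.finrank (ZMod p) V := by
    rw [Module.natCard_eq_pow_finrank (K := ZMod p) (V := V), Nat.card_zmod]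
  have h2 : Module.finrank (ZMod p) V < 3 := by
    rw [h1] at hcard
    exact (Nat.pow_lt_pow_iff_right hp.one_lt).mp hcard
  have h3 : Module.finrank (ZMod p) N < Module.finrank (ZMod p) V := Submodule.finrank_lt htop
  have h4 : Module.finrank (ZMod p) N ≠ 0 := by
    intro h0
    exact hbot (Submodule.finrank_eq_zero.mp h0)
  have h5 : Module.finrank (ZMod p) N = 1 := by omega
  obtain ⟨v, hv0, hv⟩ := finrank_eq_one_iff'.mp h5
  refine ⟨v.1, v.2, fun h => hv0 (Subtype.ext h), fun w hw => ?_⟩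
  obtain ⟨c, hc⟩ := hv ⟨w, hw⟩
  exact ⟨c, by simpa using congrArg Subtype.val hc⟩


/-- The `x`-coordinate of a point, with junk value `0` at infinity. -/
noncomputable def h9_xc {F : Type*} [Field F] {W : Affine F} : W.Point → F
  | .zero => 0
  | .some x _ _ => x

@[simp] lemma h9_xc_zero {F : Type*} [Field F] {W : Affine F} : h9_xc (0 : W.Point) = 0 := rfl

@[simp] lemma h9_xc_some {F : Type*} [Field F] {W : Affine F} {x y : F} (h : W.Nonsingular x y) :
    h9_xc (Point.some x y h) = x := rfl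

lemma h9_xc_neg {F : Type*} [Field F] [DecidableEq F] {W : Affine F} (P : W.Point) :
    h9_xc (-P) = h9_xc P := by
  cases P with
  | zero => rfl
  | some x y h => rw [Point.neg_some]; rfl

section Galois

variable (E : WeierstrassCurve ℚ)

local notation "Qb" => AlgebraicClosure ℚ

lemma h9_smul_some (σ : Qb ≃ₐ[ℚ] Qb) {x y : Qb} (h : (E⁄Qb).Nonsingular x y) :
    ∃ h' : (E⁄Qb).Nonsingular (σ x) (σ y), σ • (Point.some x y h) = Point.some (σ x) (σ y) h' :=
  ⟨_, rfl⟩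

lemma h9_xc_smul (σ : Qb ≃ₐ[ℚ] Qb) (P : (E⁄Qb).Point) : h9_xc (σ • P) = σ (h9_xc P) := by
  cases P with
  | zero => exact (map_zero σ).symm
  | some x y h => rfl

theorem h9_isGalois_Qbar : IsGalois ℚ Qb := by
  have h : (DivisionRing.toRatAlgebra : Algebra ℚ (AlgebraicClosure ℚ)) =
      AlgebraicClosure.instAlgebra (k := ℚ) (R := ℚ) := Subsingleton.elim _ _
  rw [h]
  let _ : Algebra ℚ (AlgebraicClosure ℚ) := AlgebraicClosure.instAlgebra (k := ℚ) (R := ℚ)
  exact IsAlgClosure.isGalois ℚ (AlgebraicClosure ℚ)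

/-- An element of `Qb` fixed by the whole Galois group is rational. -/
lemma h9_rational_of_fixed (z : Qb) (h : ∀ σ : Qb ≃ₐ[ℚ] Qb, σ z = z) :
    ∃ q : ℚ, z = algebraMap ℚ Qb q := by
  have := h9_isGalois_Qbar
  obtain ⟨q, hq⟩ := (InfiniteGalois.mem_range_algebraMap_iff_fixed (k := ℚ) (K := Qb) z).mpr h
  exact ⟨q, hq.symm⟩

/-- From reducibility (in the prelude's sense) of the mod-`p` representation, given that the
`p`-torsion is nontrivial, finite and of cardinality `< p ^ 3`: a point `P ≠ 0` of order `p`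
such that every Galois conjugate of `P` is a nonzero multiple of `P`. -/
theorem h9_stable_line (p : ℕ) [Fact p.Prime]
    (hfin : Finite (Submodule.torsionBy ℤ (E⁄Qb).Point p))
    (hcard : Nat.card (Submodule.torsionBy ℤ (E⁄Qb).Point p) < p ^ 3)
    (hnt : Nontrivial (Submodule.torsionBy ℤ (E⁄Qb).Point p))
    (hred : ¬ GaloisRepIsIrreducible (K := Qb) ℚ E p) :
    ∃ P : (E⁄Qb).Point, P ≠ 0 ∧ p • P = 0 ∧
      ∀ σ : Qb ≃ₐ[ℚ] Qb, ∃ k : ℕ, 0 < k ∧ k < p ∧ σ • P = k • P := by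
  have hp : p.Prime := Fact.out
  have : NeZero p := ⟨hp.ne_zero⟩
  unfold GaloisRepIsIrreducible at hred
  push Not at hred
  obtain ⟨N, hN, hbot, htop⟩ := hred hnt
  obtain ⟨v, hvN, hv0, hv⟩ := h9_exists_generator hcard N hbot htop
  refine ⟨v.1, fun h => hv0 (Subtype.ext h), ?_, fun σ => ?_⟩
  · have := v.2
    rw [Submodule.mem_torsionBy_iff] at this
    rw [← Nat.cast_smul_eq_nsmul ℤ]
    exact this
  · obtain ⟨c, hc⟩ := hv (σ • v) (hN σ v hvN)
    refine ⟨c.val, ?_, ZMod.val_lt c, ?_⟩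
    · rcases Nat.eq_zero_or_pos c.val with h0 | h0
      · exfalso
        have hc0 : c = 0 := (ZMod.val_eq_zero c).mp h0
        rw [hc0, zero_smul] at hc
        have : σ⁻¹ • (σ • v) = v := inv_smul_smul σ v
        rw [← hc, smul_zero] at this
        exact hv0 this.symm
      · exact h0
    · have h1 : (c.val : ZMod p) • v = c • v := by rw [ZMod.natCast_zmod_val]
      rw [Nat.cast_smul_eq_nsmul] at h1
      have h2 : c.val • v = σ • v := h1.trans hc
      have h3 := congrArg Subtype.val h2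
      have h4 : ((c.val • v : Submodule.torsionBy ℤ (E⁄Qb).Point p) : (E⁄Qb).Point) =
          c.val • (v : (E⁄Qb).Point) := by
        simp
      have h5 : ((σ • v : Submodule.torsionBy ℤ (E⁄Qb).Point p) : (E⁄Qb).Point) =
          σ • (v : (E⁄Qb).Point) := rfl
      rw [← h5, ← h3, h4]

/-- Set-level version of `h9_stable_line`: hypotheses about `{P | p • P = 0}`. -/
theorem h9_stable_line' (p : ℕ) [Fact p.Prime]
    (hfin : {P : (E⁄Qb).Point | p • P = 0}.Finite)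
    (hcard : {P : (E⁄Qb).Point | p • P = 0}.ncard < p ^ 3)
    (hex : ∃ P : (E⁄Qb).Point, P ≠ 0 ∧ p • P = 0)
    (hred : ¬ GaloisRepIsIrreducible (K := Qb) ℚ E p) :
    ∃ P : (E⁄Qb).Point, P ≠ 0 ∧ p • P = 0 ∧
      ∀ σ : Qb ≃ₐ[ℚ] Qb, ∃ k : ℕ, 0 < k ∧ k < p ∧ σ • P = k • P := by
  have hset : ((Submodule.torsionBy ℤ (E⁄Qb).Point p : Submodule ℤ (E⁄Qb).Point) :
      Set (E⁄Qb).Point) = {P : (E⁄Qb).Point | p • P = 0} := by
    ext P
    simp only [SetLike.mem_coe, Submodule.mem_torsionBy_iff, Set.mem_ofPred_eq,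
      Nat.cast_smul_eq_nsmul]
  have hfin' : Finite (Submodule.torsionBy ℤ (E⁄Qb).Point p) := by
    have : Finite ((Submodule.torsionBy ℤ (E⁄Qb).Point p : Submodule ℤ (E⁄Qb).Point) :
      Set (E⁄Qb).Point) := by rw [hset]; exact hfin.to_subtype
    exact this
  have hcard' : Nat.card (Submodule.torsionBy ℤ (E⁄Qb).Point p) < p ^ 3 := by
    have : Nat.card ((Submodule.torsionBy ℤ (E⁄Qb).Point p : Submodule ℤ (E⁄Qb).Point) :
      Set (E⁄Qb).Point) < p ^ 3 := by
      rw [Nat.card_coe_set_eq, hset]; exact hcard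
    exact this
  have hnt : Nontrivial (Submodule.torsionBy ℤ (E⁄Qb).Point p) := by
    obtain ⟨P, hP0, hP⟩ := hex
    refine ⟨⟨⟨P, ?_⟩, 0, fun h => hP0 (congrArg Subtype.val h)⟩⟩
    rw [Submodule.mem_torsionBy_iff, Nat.cast_smul_eq_nsmul]
    exact hP
  exact h9_stable_line E p hfin' hcard' hnt hred

/-- **(G3)** If the mod-3 representation is reducible (prelude sense), there is a point of order 3
with rational `x`-coordinate. -/
theorem h9_three
    (hfin : {P : (E⁄Qb).Point | 3 • P = 0}.Finite)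
    (hcard : {P : (E⁄Qb).Point | 3 • P = 0}.ncard < 27)
    (hex : ∃ P : (E⁄Qb).Point, P ≠ 0 ∧ 3 • P = 0)
    (hred : ¬ GaloisRepIsIrreducible (K := Qb) ℚ E 3) :
    ∃ (q : ℚ) (y : Qb) (h : (E⁄Qb).Nonsingular (algebraMap ℚ Qb q) y),
      3 • Point.some (algebraMap ℚ Qb q) y h = 0 := by
  have : Fact (Nat.Prime 3) := ⟨by norm_num⟩
  obtain ⟨P, hP0, hP3, hσ⟩ := h9_stable_line' E 3 hfin (by norm_num; exact hcard) hex hred
  have h2 : 2 • P = -P := by
    have : 2 • P + P = 0 := by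
      have h : 2 • P + P = 3 • P := by rw [show (3 : ℕ) = 2 + 1 from rfl, add_nsmul, one_nsmul]
      rw [h, hP3]
    exact eq_neg_of_add_eq_zero_left this
  have hfix : ∀ σ : Qb ≃ₐ[ℚ] Qb, σ (h9_xc P) = h9_xc P := by
    intro σ
    obtain ⟨k, hk0, hk3, hk⟩ := hσ σ
    rw [← h9_xc_smul, hk]
    interval_cases k
    · rw [one_nsmul]
    · rw [h2, h9_xc_neg]
  obtain ⟨q, hq⟩ := h9_rational_of_fixed _ hfix
  cases P with
  | zero => exact absurd rfl hP0
  | some x y h =>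
    have hx : x = algebraMap ℚ Qb q := hq
    subst hx
    exact ⟨q, y, h, hP3⟩

/-- **(G5)** If the mod-5 representation is reducible (prelude sense), there is a point `P` of
order 5 such that the pair `{x(P), x(2P)}` is Galois-stable. -/
theorem h9_five
    (hfin : {P : (E⁄Qb).Point | 5 • P = 0}.Finite)
    (hcard : {P : (E⁄Qb).Point | 5 • P = 0}.ncard < 125)
    (hex : ∃ P : (E⁄Qb).Point, P ≠ 0 ∧ 5 • P = 0)
    (hred : ¬ GaloisRepIsIrreducible (K := Qb) ℚ E 5) :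
    ∃ (xP yP xQ yQ : Qb) (hP : (E⁄Qb).Nonsingular xP yP) (hQ : (E⁄Qb).Nonsingular xQ yQ),
      5 • Point.some xP yP hP = 0 ∧ 2 • Point.some xP yP hP = Point.some xQ yQ hQ ∧
      ∀ σ : Qb ≃ₐ[ℚ] Qb, (σ xP = xP ∧ σ xQ = xQ) ∨ (σ xP = xQ ∧ σ xQ = xP) := by
  have : Fact (Nat.Prime 5) := ⟨by norm_num⟩
  obtain ⟨P, hP0, hP5, hσ⟩ := h9_stable_line' E 5 hfin (by norm_num; exact hcard) hex hred
  have h3 : (3 • P : (E⁄Qb).Point) = -(2 • P : (E⁄Qb).Point) := by
    have : 3 • P + 2 • P = 0 := by rw [← add_nsmul]; exact hP5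
    exact eq_neg_of_add_eq_zero_left this
  have h4 : 4 • P = -P := by
    have : 4 • P + P = 0 := by
      have h : 4 • P + P = 5 • P := by rw [show (5 : ℕ) = 4 + 1 from rfl, add_nsmul, one_nsmul]
      rw [h, hP5]
    exact eq_neg_of_add_eq_zero_left this
  have h6 : 6 • P = P := by
    rw [show (6 : ℕ) = 5 + 1 from rfl, add_nsmul, hP5, zero_add, one_nsmul]
  have h8 : (8 • P : (E⁄Qb).Point) = -(2 • P : (E⁄Qb).Point) := by
    rw [show (8 : ℕ) = 5 + 3 from rfl, add_nsmul, hP5, zero_add, h3]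
  have hQ0 : 2 • P ≠ 0 := by
    intro h
    apply hP0
    have : P = 5 • P - 2 • (2 • P) := by
      rw [← mul_nsmul]
      have : 5 • P = 4 • P + P := by rw [show (5 : ℕ) = 4 + 1 from rfl, add_nsmul, one_nsmul]
      rw [this]; norm_num
    rw [this, hP5, h, nsmul_zero, sub_zero]
  have hfix : ∀ σ : Qb ≃ₐ[ℚ] Qb,
      (σ (h9_xc P) = h9_xc P ∧ σ (h9_xc (2 • P)) = h9_xc (2 • P)) ∨
      (σ (h9_xc P) = h9_xc (2 • P) ∧ σ (h9_xc (2 • P)) = h9_xc P) := by
    intro σ
    obtain ⟨k, hk0, hk5, hk⟩ := hσ σ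
    have hk2 : σ • (2 • P) = (2 * k) • P := by
      have hc : σ • (2 • P) = 2 • (σ • P) := map_nsmul (Point.map σ.toAlgHom) 2 P
      rw [hc, hk, ← mul_nsmul']
    rw [← h9_xc_smul, ← h9_xc_smul, hk, hk2]
    interval_cases k
    · left; exact ⟨by rw [one_nsmul], by norm_num⟩
    · right; exact ⟨rfl, by norm_num; rw [h4, h9_xc_neg]⟩
    · right; exact ⟨by rw [h3, h9_xc_neg], by norm_num; rw [h6]⟩
    · left; exact ⟨by rw [h4, h9_xc_neg], by norm_num; rw [h8, h9_xc_neg]⟩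
  cases P with
  | zero => exact absurd rfl hP0
  | some xP yP hP =>
    cases hQ : (2 • Point.some xP yP hP : (E⁄Qb).Point) with
    | zero => exact absurd hQ hQ0
    | some xQ yQ hQ' =>
      refine ⟨xP, yP, xQ, yQ, hP, hQ', hP5, hQ, fun σ => ?_⟩
      have := hfix σ
      rw [hQ] at this
      exact this

/-- The elementary symmetric functions of a Galois-stable pair are rational. -/
theorem h9_pair_symm_rational {xP xQ : Qb}
    (hσ : ∀ σ : Qb ≃ₐ[ℚ] Qb, (σ xP = xP ∧ σ xQ = xQ) ∨ (σ xP = xQ ∧ σ xQ = xP)) :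
    ∃ e₁ e₂ : ℚ, xP + xQ = algebraMap ℚ Qb e₁ ∧ xP * xQ = algebraMap ℚ Qb e₂ := by
  obtain ⟨e₁, h₁⟩ := h9_rational_of_fixed (xP + xQ) (fun σ => by
    rcases hσ σ with ⟨h1, h2⟩ | ⟨h1, h2⟩ <;> rw [map_add, h1, h2]
    exact add_comm _ _)
  obtain ⟨e₂, h₂⟩ := h9_rational_of_fixed (xP * xQ) (fun σ => by
    rcases hσ σ with ⟨h1, h2⟩ | ⟨h1, h2⟩ <;> rw [map_mul, h1, h2]
    exact mul_comm _ _)
  exact ⟨e₁, e₂, h₁, h₂⟩

/-- The invariant `U = (xT - xP)(xT - xQ)/(xQ - xP)^2` of a rational `xT` and a Galois-stable pair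
`{xP, xQ}` is rational. -/
theorem h9_U_rational {xP xQ : Qb}
    (hσ : ∀ σ : Qb ≃ₐ[ℚ] Qb, (σ xP = xP ∧ σ xQ = xQ) ∨ (σ xP = xQ ∧ σ xQ = xP)) (q : ℚ) :
    ∃ U : ℚ, (algebraMap ℚ Qb q - xP) * (algebraMap ℚ Qb q - xQ) / (xQ - xP) ^ 2 =
      algebraMap ℚ Qb U := by
  refine h9_rational_of_fixed _ (fun σ => ?_)
  have hq : σ (algebraMap ℚ Qb q) = algebraMap ℚ Qb q := σ.commutes q
  rcases hσ σ with ⟨h1, h2⟩ | ⟨h1, h2⟩
  · rw [map_div₀, map_mul, map_pow, map_sub, map_sub, map_sub, hq, h1, h2]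
  · rw [map_div₀, map_mul, map_pow, map_sub, map_sub, map_sub, hq, h1, h2]
    ring

end Galois

end Fermat.Agent.Lib.S51
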