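/-
S51, piece (A): assembly of `Extraction` (helper9).
Duplication formula in `x`-coordinates, points of order 3 and 5 in terms of `psi3`, `psi2Sq`,
`dupNum`, and the final extraction of the isogeny data from reducibility mod 3 and mod 5,
given the cardinality bounds on the 3- and 5-torsion.
-/
import Mathlib
import Fermat.Agent.Lib.S51.Defs
import Fermat.Agent.Lib.S51.Galois
import Fermat.Agent.Lib.S51.Exists
import Fermat.Agent.Lib.S51.Exists3

set_option autoImplicit false

namespace Fermat.Agent.Lib.S51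

open WeierstrassCurve WeierstrassCurve.Affine WeierstrassCurve.Affine.Point

section Dup

variable {F : Type*} [Field F] [DecidableEq F] (W : WeierstrassCurve F)

/-- Duplication in `x`-coordinates: if `2 • (x, y) = (x₂, y₂)` then `psi2Sq x ≠ 0` and
`x₂ * psi2Sq x = dupNum x`. -/
theorem h9_dup {x y x₂ y₂ : F} (h : W.toAffine.Nonsingular x y)
    (h₂ : W.toAffine.Nonsingular x₂ y₂)
    (hd : 2 • (Point.some x y h : W.toAffine.Point) = Point.some x₂ y₂ h₂) :
    psi2Sq W x ≠ 0 ∧ x₂ * psi2Sq W x = dupNum W x := by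
  rw [two_nsmul] at hd
  by_cases hy : y = W.toAffine.negY x y
  · rw [Point.add_self_of_Y_eq hy] at hd
    exact absurd hd.symm (Point.some_ne_zero h₂)
  · rw [Point.add_self_of_Y_ne hy] at hd
    have hx : W.toAffine.addX x x (W.toAffine.slope x x y y) = x₂ := by
      injection hd
    have h1 := h8_addX_self_mul W h.1 hy
    have h2 := h8_sq_two_y_eq_psi2Sq W h.1
    have hne : 2 * y + W.a₁ * x + W.a₃ ≠ 0 := by
      intro h0
      apply hy
      simp only [Affine.negY]
      linear_combination h0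
    refine ⟨?_, ?_⟩
    · unfold psi2Sq
      rw [← h2]
      exact pow_ne_zero 2 hne
    · unfold psi2Sq dupNum
      rw [← hx]
      exact h1

/-- A point of order 3 has `psi3 x = 0`. -/
theorem h9_psi3_of_three {x y : F} (h : W.toAffine.Nonsingular x y)
    (h3 : 3 • (Point.some x y h : W.toAffine.Point) = 0) : psi3 W x = 0 := by
  have h2 : 2 • (Point.some x y h : W.toAffine.Point) = -Point.some x y h := by
    have : 2 • (Point.some x y h : W.toAffine.Point) + Point.some x y h = 0 := by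
      have e : 2 • (Point.some x y h : W.toAffine.Point) + Point.some x y h =
          3 • (Point.some x y h : W.toAffine.Point) := by
        rw [show (3 : ℕ) = 2 + 1 from rfl, add_nsmul, one_nsmul]
      rw [e, h3]
    exact eq_neg_of_add_eq_zero_left this
  rw [Point.neg_some] at h2
  obtain ⟨-, hd⟩ := h9_dup W h _ h2
  unfold psi2Sq dupNum at hd
  unfold psi3
  linear_combination hd

/-- A nonzero point cannot be killed by both 3 and 5. -/
theorem h9_eq_zero_of_three_of_five {A : Type*} [AddCommGroup A] {P : A} (h3 : 3 • P = 0)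
    (h5 : 5 • P = 0) : P = 0 := by
  have h6 : 6 • P = 0 := by
    rw [show (6 : ℕ) = 2 * 3 from rfl, mul_nsmul', h3, nsmul_zero]
  have : 6 • P = 5 • P + P := by
    rw [show (6 : ℕ) = 5 + 1 from rfl, add_nsmul, one_nsmul]
  rw [this, h5, zero_add] at h6
  exact h6

/-- The `x`-coordinates of a point of order 3 and of a point of order 5 are different. -/
theorem h9_x_ne_of_orders {x y x' y' : F} (h : W.toAffine.Nonsingular x y)
    (h' : W.toAffine.Nonsingular x' y')
    (h3 : 3 • (Point.some x y h : W.toAffine.Point) = 0)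
    (h5 : 5 • (Point.some x' y' h' : W.toAffine.Point) = 0) : x ≠ x' := by
  intro hx
  rcases (Point.X_eq_iff (h₁ := h') (h₂ := h)).mp hx.symm with he | he
  · rw [he] at h5
    exact Point.some_ne_zero h (h9_eq_zero_of_three_of_five h3 h5)
  · have h3' : 3 • (Point.some x' y' h' : W.toAffine.Point) = 0 := by
      rw [he, neg_nsmul, h3, _root_.neg_zero]
    exact Point.some_ne_zero h' (h9_eq_zero_of_three_of_five h3' h5)

/-- The five-pair relations for a point `P` of order 5 and `Q = 2P`. -/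
theorem h9_five_pair {xP yP xQ yQ : F} (hP : W.toAffine.Nonsingular xP yP)
    (hQ : W.toAffine.Nonsingular xQ yQ)
    (h5 : 5 • (Point.some xP yP hP : W.toAffine.Point) = 0)
    (h2 : 2 • (Point.some xP yP hP : W.toAffine.Point) = Point.some xQ yQ hQ) :
    psi2Sq W xP ≠ 0 ∧ psi2Sq W xQ ≠ 0 ∧ xQ * psi2Sq W xP = dupNum W xP ∧
      xP * psi2Sq W xQ = dupNum W xQ ∧ xP ≠ xQ := by
  obtain ⟨a1, a2⟩ := h9_dup W hP hQ h2
  have h4 : 2 • (Point.some xQ yQ hQ : W.toAffine.Point) = -Point.some xP yP hP := by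
    rw [← h2, ← mul_nsmul]
    have : (2 * 2) • (Point.some xP yP hP : W.toAffine.Point) + Point.some xP yP hP = 0 := by
      have e : (2 * 2) • (Point.some xP yP hP : W.toAffine.Point) + Point.some xP yP hP =
          5 • (Point.some xP yP hP : W.toAffine.Point) := by
        rw [show (5 : ℕ) = 2 * 2 + 1 from rfl, add_nsmul, one_nsmul]
      rw [e, h5]
    exact eq_neg_of_add_eq_zero_left this
  rw [Point.neg_some] at h4
  obtain ⟨b1, b2⟩ := h9_dup W hQ _ h4
  refine ⟨a1, b1, a2, b2, ?_⟩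
  intro hx
  rcases (Point.X_eq_iff (h₁ := hQ) (h₂ := hP)).mp hx.symm with he | he
  · -- 2P = P, so P = 0
    rw [he, two_nsmul] at h2
    have : (Point.some xP yP hP : W.toAffine.Point) = 0 := by
      have := congrArg (fun Q => Q - Point.some xP yP hP) h2
      simp at this
    exact Point.some_ne_zero hP this
  · -- 2P = -P, so 3P = 0
    rw [he] at h2
    have h3 : 3 • (Point.some xP yP hP : W.toAffine.Point) = 0 := by
      rw [show (3 : ℕ) = 2 + 1 from rfl, add_nsmul, one_nsmul, h2, neg_add_cancel]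
    exact Point.some_ne_zero hP (h9_eq_zero_of_three_of_five h3 h5)

end Dup

section Main

local notation "Qb" => AlgebraicClosure ℚ

/-- The cardinality bounds (piece (A1)) needed for the extraction. -/
def TorsionBounds : Prop :=
  ∀ W : WeierstrassCurve ℚ, W.Δ ≠ 0 →
    ({P : (W⁄Qb).Point | 3 • P = 0}.Finite ∧ {P : (W⁄Qb).Point | 3 • P = 0}.ncard < 27) ∧
    ({P : (W⁄Qb).Point | 5 • P = 0}.Finite ∧ {P : (W⁄Qb).Point | 5 • P = 0}.ncard < 125)

theorem h9_extraction_of_bounds (hb : TorsionBounds) : Extraction := by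
  intro W hΔ hred3 hred5
  obtain ⟨⟨hfin3, hcard3⟩, ⟨hfin5, hcard5⟩⟩ := hb W hΔ
  have hΔ' : (W.baseChange Qb).Δ ≠ 0 := by
    rw [WeierstrassCurve.baseChange, map_Δ]
    exact (_root_.map_ne_zero _).mpr hΔ
  have hex3 : ∃ P : (W⁄Qb).Point, P ≠ 0 ∧ 3 • P = 0 := exists_three_torsion _ hΔ'
  have hex5 : ∃ P : (W⁄Qb).Point, P ≠ 0 ∧ 5 • P = 0 := exists_five_torsion _ hΔ'
  obtain ⟨q, yT, hT, hT3⟩ := h9_three W hfin3 hcard3 hex3 hred3
  obtain ⟨xP, yP, xQ, yQ, hP, hQ, hP5, hPQ, hσ⟩ := h9_five W hfin5 hcard5 hex5 hred5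
  obtain ⟨c1, c2, c3, c4, c5⟩ := h9_five_pair (W.baseChange Qb) hP hQ hP5 hPQ
  have hQ5 : 5 • (Point.some xQ yQ hQ : (W⁄Qb).Point) = 0 := by
    rw [← hPQ, ← mul_nsmul, mul_comm, mul_nsmul, hP5, nsmul_zero]
  refine ⟨algebraMap ℚ Qb q, xP, xQ, ⟨?_, c1, c2, c3, c4, c5, ?_, ?_⟩, ⟨q, rfl⟩, ?_⟩
  · exact h9_psi3_of_three (W.baseChange Qb) hT hT3
  · exact h9_x_ne_of_orders (W.baseChange Qb) hT hP hT3 hP5
  · exact h9_x_ne_of_orders (W.baseChange Qb) hT hQ hT3 hQ5
  · obtain ⟨U, hU⟩ := h9_U_rational hσ q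
    exact ⟨U, hU.symm⟩

end Main

end Fermat.Agent.Lib.S51
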