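/-
S51, piece (A) closed: `extraction_holds : Extraction` (helper9), from the Galois extraction
(`Galois.lean`, `Extract.lean`), the existence of 3- and 5-torsion (`Exists.lean`, helper6) and the
torsion bounds (`Dup6.lean`, helper6).
-/
import Mathlib
import Fermat.Agent.Lib.S51.Extract
import Fermat.Agent.Lib.S51.Dup6

set_option autoImplicit false

namespace Fermat.Agent.Lib.S51

open WeierstrassCurve WeierstrassCurve.Affine WeierstrassCurve.Affine.Point

theorem h9_torsionBounds : TorsionBounds := by
  intro W _
  obtain ⟨f3, c3⟩ := h6_three_torsion_finite_ncard (W.baseChange (AlgebraicClosure ℚ))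
  obtain ⟨f5, c5⟩ := h6_five_torsion_finite_ncard (W.baseChange (AlgebraicClosure ℚ))
  exact ⟨⟨f3, lt_of_le_of_lt c3 (by norm_num)⟩, ⟨f5, lt_of_le_of_lt c5 (by norm_num)⟩⟩

/-- Piece (A) of S51. -/
theorem extraction_holds : Extraction :=
  h9_extraction_of_bounds h9_torsionBounds

end Fermat.Agent.Lib.S51
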