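/-
S51 project, piece (B2) (helper2): the `j`-identity for the parameter `t = Δ / Ψ₂²(x)²` attached to
a root `x` of the `3`-division polynomial `Ψ₃`:  `(t + 27) (t + 3) ^ 3 = j t`, in the
denominator-free form `(Δ + 27 D ^ 2) (Δ + 3 D ^ 2) ^ 3 = c₄ ^ 3 D ^ 6`, `D = Ψ₂²(x)`.
-/
import Mathlib
import Fermat.Agent.Lib.S51.Defs

set_option autoImplicit false

namespace Fermat.Agent.Lib.S51

open WeierstrassCurve

variable {F : Type*} [CommRing F] (W : WeierstrassCurve F)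

/-- The `j`-identity in the special case `b₈ = 0` (the root of `Ψ₃` is `0`). -/
theorem h2_j_identity_aux (h8 : W.b₈ = 0) :
    (W.Δ + 27 * W.b₆ ^ 2) * (W.Δ + 3 * W.b₆ ^ 2) ^ 3 = W.c₄ ^ 3 * W.b₆ ^ 6 := by
  have hrel : W.b₂ * W.b₆ = W.b₄ ^ 2 := by
    have := W.b_relation
    rw [h8] at this
    linear_combination -this
  have hΔ : W.Δ = W.b₄ ^ 3 - 27 * W.b₆ ^ 2 := by
    rw [WeierstrassCurve.Δ, h8]
    linear_combination (9 * W.b₄) * hrel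
  have hc : W.c₄ * W.b₆ ^ 2 = W.b₄ * (W.b₄ ^ 3 - 24 * W.b₆ ^ 2) := by
    rw [WeierstrassCurve.c₄]
    linear_combination (W.b₂ * W.b₆ + W.b₄ ^ 2) * hrel
  rw [hΔ]
  calc (W.b₄ ^ 3 - 27 * W.b₆ ^ 2 + 27 * W.b₆ ^ 2) * (W.b₄ ^ 3 - 27 * W.b₆ ^ 2 + 3 * W.b₆ ^ 2) ^ 3
      = (W.b₄ * (W.b₄ ^ 3 - 24 * W.b₆ ^ 2)) ^ 3 := by ring
    _ = (W.c₄ * W.b₆ ^ 2) ^ 3 := by rw [hc]
    _ = W.c₄ ^ 3 * W.b₆ ^ 6 := by ring

/-- **The `j`-identity**: if `Ψ₃(x) = 0` and `D = Ψ₂²(x)` then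
`(Δ + 27 D ^ 2) (Δ + 3 D ^ 2) ^ 3 = c₄ ^ 3 D ^ 6`. -/
theorem h2_j_identity (x : F) (hx : psi3 W x = 0) :
    (W.Δ + 27 * psi2Sq W x ^ 2) * (W.Δ + 3 * psi2Sq W x ^ 2) ^ 3 = W.c₄ ^ 3 * psi2Sq W x ^ 6 := by
  set C : VariableChange F := ⟨1, x, 0, 0⟩ with hC
  have h6 : (C • W).b₆ = psi2Sq W x := by
    rw [variableChange_b₆, psi2Sq]; simp [hC]; ring
  have h8 : (C • W).b₈ = 0 := by
    rw [variableChange_b₈, ← hx, psi3]; simp [hC]; ring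
  have hΔ : (C • W).Δ = W.Δ := by rw [variableChange_Δ]; simp [hC]
  have hc : (C • W).c₄ = W.c₄ := by rw [variableChange_c₄]; simp [hC]
  have := h2_j_identity_aux (C • W) h8
  rwa [h6, hΔ, hc] at this

/-- If `Δ` is a unit-like (nonzero in a domain) then `Ψ₂²` and `Ψ₃` have no common root. -/
theorem h2_psi2Sq_ne_zero [IsDomain F] (hΔ : W.Δ ≠ 0) (x : F) (hx : psi3 W x = 0) :
    psi2Sq W x ≠ 0 := by
  intro h0
  have := h2_j_identity W x hx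
  rw [h0] at this
  simp only [ne_eq, OfNat.ofNat_ne_zero, not_false_eq_true, zero_pow, mul_zero, add_zero] at this
  exact hΔ (pow_eq_zero_iff (by norm_num : (1 + 3) ≠ 0) |>.mp (by rw [pow_succ]; linear_combination this))

/-- The field version: `(t + 27) (t + 3) ^ 3 = j t` with `t = Δ / Ψ₂²(x) ^ 2`, `j = c₄ ^ 3 / Δ`. -/
theorem h2_j_identity_field {K : Type*} [Field K] (W : WeierstrassCurve K) (hΔ : W.Δ ≠ 0) (x : K)
    (hx : psi3 W x = 0) :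
    (W.Δ / psi2Sq W x ^ 2 + 27) * (W.Δ / psi2Sq W x ^ 2 + 3) ^ 3 =
      (W.c₄ ^ 3 / W.Δ) * (W.Δ / psi2Sq W x ^ 2) := by
  have hD := h2_psi2Sq_ne_zero W hΔ x hx
  have := h2_j_identity W x hx
  field_simp
  linear_combination this

/-- The `j`-identity in the shape used by the interface `KeyIdentity`. -/
theorem h2_j_identity_t {K : Type*} [Field K] (W : WeierstrassCurve K) (hΔ : W.Δ ≠ 0) (x : K)
    (hx : psi3 W x = 0) (t : K) (ht : t = W.Δ / psi2Sq W x ^ 2) :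
    (t + 27) * (t + 3) ^ 3 * W.Δ = W.c₄ ^ 3 * t := by
  have h := h2_j_identity_field W hΔ x hx
  rw [← ht] at h
  rw [h]
  field_simp

end Fermat.Agent.Lib.S51
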