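/-
S51 project, piece (B): the key identity (helper7).

From the `x`-coordinates `xT` (point of order 3), `xP`, `xQ` (point of order 5 and its double) of an
elliptic curve we produce a point on `y² = x(x-16)(x+9)` and recover the `j`-invariant from it.
-/
import Mathlib
import Fermat.Agent.Lib.S51.Defs

set_option autoImplicit false

open WeierstrassCurve

namespace Fermat.Agent.Lib.S51

section Translate

variable {K : Type*} [CommRing K] (W : WeierstrassCurve K)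

/-- Bezout identity between `psi3` and `psi2Sq`. -/
theorem bezout_psi3_psi2Sq (x : K) :
    (48 * x ^ 2 + 8 * W.b₂ * x - W.b₂ ^ 2 + 32 * W.b₄) * psi3 W x +
      (-36 * x ^ 3 - 9 * W.b₂ * x ^ 2 + W.b₂ ^ 2 * x - 42 * W.b₄ * x + W.b₂ * W.b₄ - 27 * W.b₆) *
        psi2Sq W x = W.Δ := by
  unfold psi3 psi2Sq
  rw [WeierstrassCurve.Δ]
  linear_combination (12 * x ^ 2 + 2 * W.b₂ * x + 8 * W.b₄) * W.b_relation

/-- `psi3 = x * psi2Sq - dupNum`. -/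
theorem psi3_eq (x : K) : psi3 W x = x * psi2Sq W x - dupNum W x := by
  simp only [psi3, psi2Sq, dupNum]; ring

/-- The translated `b₂`. -/
def tb2 (r : K) : K := W.b₂ + 12 * r
/-- The translated `b₄`. -/
def tb4 (r : K) : K := W.b₄ + r * W.b₂ + 6 * r ^ 2

theorem t_rel (r : K) : 4 * psi3 W r = tb2 W r * psi2Sq W r - tb4 W r ^ 2 := by
  unfold psi3 psi2Sq tb2 tb4
  linear_combination W.b_relation

theorem t_Δ (r : K) : W.Δ = -tb2 W r ^ 2 * psi3 W r - 8 * tb4 W r ^ 3 - 27 * psi2Sq W r ^ 2 +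
    9 * tb2 W r * tb4 W r * psi2Sq W r := by
  unfold psi3 psi2Sq tb2 tb4
  rw [WeierstrassCurve.Δ]
  linear_combination (6 * W.b₂ * r + 36 * r ^ 2) * W.b_relation

theorem t_c₄ (r : K) : W.c₄ = tb2 W r ^ 2 - 24 * tb4 W r := by
  unfold tb2 tb4
  rw [WeierstrassCurve.c₄]
  ring

theorem psi2Sq_translate (r x : K) : psi2Sq W x =
    4 * (x - r) ^ 3 + tb2 W r * (x - r) ^ 2 + 2 * tb4 W r * (x - r) + psi2Sq W r := by
  unfold psi2Sq tb2 tb4; ring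

theorem psi3_translate (r x : K) : psi3 W x =
    3 * (x - r) ^ 4 + tb2 W r * (x - r) ^ 3 + 3 * tb4 W r * (x - r) ^ 2 +
      3 * psi2Sq W r * (x - r) + psi3 W r := by
  unfold psi3 psi2Sq tb2 tb4; ring

theorem dupNum_translate (r x : K) : dupNum W x - r * psi2Sq W x =
    (x - r) ^ 4 - tb4 W r * (x - r) ^ 2 - 2 * psi2Sq W r * (x - r) - psi3 W r := by
  unfold dupNum psi3 psi2Sq tb4; ring

end Translate

section JIdentity

variable {K : Type*} [CommRing K] (W : WeierstrassCurve K)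

/-- The `j`-identity: for a root `x` of `psi3` and `Ψ = psi2Sq x`, `t = Δ/Ψ²` satisfies
`(t+27)(t+3)³ = j t`, in denominator-free form. -/
theorem j_identity (x : K) (h3 : psi3 W x = 0) :
    (W.Δ + 27 * psi2Sq W x ^ 2) * (W.Δ + 3 * psi2Sq W x ^ 2) ^ 3 =
      W.c₄ ^ 3 * psi2Sq W x ^ 6 := by
  have hA : tb2 W x * psi2Sq W x = tb4 W x ^ 2 := by
    have := t_rel W x
    rw [h3] at this
    linear_combination -this
  have hΔ : W.Δ = tb4 W x ^ 3 - 27 * psi2Sq W x ^ 2 := by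
    rw [t_Δ W x, h3]
    linear_combination (9 * tb4 W x) * hA
  have hc : W.c₄ * psi2Sq W x ^ 2 = tb4 W x * (tb4 W x ^ 3 - 24 * psi2Sq W x ^ 2) := by
    rw [t_c₄ W x]
    linear_combination (tb2 W x * psi2Sq W x + tb4 W x ^ 2) * hA
  calc (W.Δ + 27 * psi2Sq W x ^ 2) * (W.Δ + 3 * psi2Sq W x ^ 2) ^ 3
      = (tb4 W x * (tb4 W x ^ 3 - 24 * psi2Sq W x ^ 2)) ^ 3 := by rw [hΔ]; ring
    _ = (W.c₄ * psi2Sq W x ^ 2) ^ 3 := by rw [hc]
    _ = W.c₄ ^ 3 * psi2Sq W x ^ 6 := by ring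

end JIdentity

section TateNormalForm

variable {K : Type*} [CommRing K]

/-- The key polynomial identity in Tate normal form coordinates `(b, x)`. -/
theorem tnf_identity (b x : K)
    (h3 : 3 * x ^ 4 + (b ^ 2 - 6 * b + 1) * x ^ 3 + 3 * (b ^ 2 - b) * x ^ 2 + 3 * b ^ 2 * x - b ^ 3
      = 0) :
    (b ^ 2 - 11 * b - 1) ^ 2 * (x * (x - b)) ^ 6
      - b ^ 2 * (b ^ 2 - 11 * b - 1) ^ 2 * (x * (x - b)) ^ 5
      - 5 * b * (b ^ 2 - 11 * b - 1) *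
          (4 * x ^ 3 + (b ^ 2 - 6 * b + 1) * x ^ 2 + 2 * (b ^ 2 - b) * x + b ^ 2) ^ 2 *
          (x * (x - b)) ^ 3
      - 9 * (4 * x ^ 3 + (b ^ 2 - 6 * b + 1) * x ^ 2 + 2 * (b ^ 2 - b) * x + b ^ 2) ^ 4 *
          (x * (x - b))
      - b ^ 2 * (4 * x ^ 3 + (b ^ 2 - 6 * b + 1) * x ^ 2 + 2 * (b ^ 2 - b) * x + b ^ 2) ^ 4 = 0 := by
  linear_combination
    (-b^8*x^5 + 9*b^7*x^6 + 48*b^7*x^5 + 50*b^7*x^4 + 51*b^7*x^3 + 28*b^7*x^2 + 8*b^7*x + b^7 - 9*b^6*x^7 - 205*b^6*x^6 - 528*b^6*x^5 - 524*b^6*x^4 - 352*b^6*x^3 - 117*b^6*x^2 - 14*b^6*x + 274*b^5*x^7 + 1768*b^5*x^6 + 2405*b^5*x^5 + 1802*b^5*x^4 + 582*b^5*x^3 + 64*b^5*x^2 - 117*b^4*x^8 - 2664*b^4*x^7 - 6117*b^4*x^6 - 4760*b^4*x^5 - 1435*b^4*x^4 - 145*b^4*x^3 + 1886*b^3*x^8 + 9164*b^3*x^7 + 7080*b^3*x^6 + 1980*b^3*x^5 + 185*b^3*x^4 - 512*b^2*x^9 - 8051*b^2*x^8 - 6008*b^2*x^7 - 1563*b^2*x^6 - 136*b^2*x^5 + 3840*b*x^9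 + 2722*b*x^8 + 662*b*x^7 + 54*b*x^6 - 768*x^10 - 512*x^9 - 117*x^8 - 9*x^7) * h3

end TateNormalForm

section Main

/-- **Piece (B)**: the key identity. -/
theorem keyIdentity : KeyIdentity := by
  intro K _ _ W hΔ xT xP xQ hdata
  obtain ⟨hT, hP, hQ, hPQ, hQP, hne, hTP, hTQ⟩ := hdata
  have hΨ : psi2Sq W xT ≠ 0 := by
    intro h
    apply hΔ
    rw [← bezout_psi3_psi2Sq W xT, hT, h]; ring
  -- translated quantities
  obtain ⟨d, hd⟩ : ∃ d, d = psi2Sq W xP := ⟨_, rfl⟩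
  obtain ⟨β, hβ⟩ : ∃ β, β = xQ - xP := ⟨_, rfl⟩
  obtain ⟨ξ, hξ⟩ : ∃ ξ, ξ = xT - xP := ⟨_, rfl⟩
  obtain ⟨B4, hB4⟩ : ∃ B4, B4 = tb4 W xP := ⟨_, rfl⟩
  obtain ⟨B2, hB2⟩ : ∃ B2, B2 = tb2 W xP := ⟨_, rfl⟩
  obtain ⟨B8, hB8⟩ : ∃ B8, B8 = psi3 W xP := ⟨_, rfl⟩
  have hd0 : d ≠ 0 := by rw [hd]; exact hP
  have hβ0 : β ≠ 0 := by rw [hβ]; exact sub_ne_zero.mpr hne.symm
  have hξ0 : ξ ≠ 0 := by rw [hξ]; exact sub_ne_zero.mpr hTP
  have hξβ : ξ - β ≠ 0 := by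
    rw [hξ, hβ]; intro h; apply hTQ; linear_combination h
  have h8 : B8 = -β * d := by
    rw [hB8, psi3_eq, hβ, hd]; linear_combination hPQ
  have hq : β ^ 4 - B4 * β ^ 2 - 2 * d * β - B8 = 0 := by
    rw [hβ, hB4, hd, hB8, ← dupNum_translate W xP xQ]; linear_combination -hQP
  have h4 : B4 * β = β ^ 3 - d := by
    have h : β * (β ^ 3 - B4 * β - d) = 0 := by rw [h8] at hq; linear_combination hq
    have h' := (mul_eq_zero.mp h).resolve_left hβ0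
    linear_combination -h'
  have h2 : B2 * d = 4 * B8 + B4 ^ 2 := by
    rw [hB2, hd, hB8, hB4]; linear_combination -(t_rel W xP)
  -- Tate normal form parameters
  obtain ⟨l, hl⟩ : ∃ l, l = d / β ^ 2 := ⟨_, rfl⟩
  obtain ⟨b, hb⟩ : ∃ b, b = β ^ 3 / d := ⟨_, rfl⟩
  have hl0 : l ≠ 0 := by rw [hl]; exact div_ne_zero hd0 (pow_ne_zero 2 hβ0)
  have hb0 : b ≠ 0 := by rw [hb]; exact div_ne_zero (pow_ne_zero 3 hβ0) hd0
  have e_β : β = l * b := by rw [hl, hb]; field_simp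
  have e_d : d = l ^ 3 * b ^ 2 := by rw [hl, hb]; field_simp
  have e_8 : B8 = -(l ^ 4 * b ^ 3) := by rw [h8, e_β, e_d]; ring
  have e_4 : B4 = l ^ 2 * (b ^ 2 - b) := by
    have h : B4 * (l * b) = (l * b) * (l ^ 2 * (b ^ 2 - b)) := by
      rw [← e_β, h4, e_β, e_d]; ring
    have hlb : l * b ≠ 0 := mul_ne_zero hl0 hb0
    exact mul_left_cancel₀ hlb (by linear_combination h)
  have e_2 : B2 = l * (b ^ 2 - 6 * b + 1) := by
    have h : B2 * d = d * (l * (b ^ 2 - 6 * b + 1)) := by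
      rw [h2, e_8, e_4, e_d]; ring
    exact mul_left_cancel₀ hd0 (by linear_combination h)
  obtain ⟨x, hx⟩ : ∃ x, x = ξ / l := ⟨_, rfl⟩
  have e_ξ : ξ = l * x := by rw [hx]; field_simp
  -- psi3, psi2Sq, Δ in Tate coordinates
  have hp3' : psi3 W xT = l ^ 4 * (3 * x ^ 4 + (b ^ 2 - 6 * b + 1) * x ^ 3 +
      3 * (b ^ 2 - b) * x ^ 2 + 3 * b ^ 2 * x - b ^ 3) := by
    rw [psi3_translate W xP xT, ← hξ, ← hB2, ← hB4, ← hd, ← hB8, e_ξ, e_2, e_4, e_d, e_8]; ring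
  have hp3 : 3 * x ^ 4 + (b ^ 2 - 6 * b + 1) * x ^ 3 + 3 * (b ^ 2 - b) * x ^ 2 + 3 * b ^ 2 * x
      - b ^ 3 = 0 := by
    rw [hT] at hp3'
    exact (mul_eq_zero.mp hp3'.symm).resolve_left (pow_ne_zero 4 hl0)
  obtain ⟨ψ, hψ⟩ : ∃ ψ, ψ = 4 * x ^ 3 + (b ^ 2 - 6 * b + 1) * x ^ 2 + 2 * (b ^ 2 - b) * x + b ^ 2 :=
    ⟨_, rfl⟩
  have hΨ' : psi2Sq W xT = l ^ 3 * ψ := by
    rw [psi2Sq_translate W xP xT, ← hξ, ← hB2, ← hB4, ← hd, e_ξ, e_2, e_4, e_d, hψ]; ring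
  have hψ0 : ψ ≠ 0 := by
    intro h; apply hΨ; rw [hΨ', h, mul_zero]
  have hΔ' : W.Δ = l ^ 6 * (b ^ 5 * (b ^ 2 - 11 * b - 1)) := by
    rw [t_Δ W xP, ← hB2, ← hB4, ← hd, ← hB8, e_2, e_4, e_d, e_8]; ring
  have hE0 : b ^ 2 - 11 * b - 1 ≠ 0 := by
    intro h; apply hΔ; rw [hΔ', h]; ring
  have hV0 : x * (x - b) ≠ 0 := by
    apply mul_ne_zero
    · intro h; apply hξ0; rw [e_ξ, h, mul_zero]
    · intro h; apply hξβ; rw [e_ξ, e_β]; linear_combination l * h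
  have hUeq : (xT - xP) * (xT - xQ) / (xQ - xP) ^ 2 = x * (x - b) / b ^ 2 := by
    have h1 : xT - xQ = ξ - β := by rw [hξ, hβ]; ring
    rw [h1, ← hξ, ← hβ, e_ξ, e_β]
    field_simp
  refine ⟨hΨ, ?_, ?_⟩
  · rw [hUeq]
    exact div_ne_zero hV0 (pow_ne_zero 2 hb0)
  · intro U t m w hU ht hm hw
    rw [hUeq] at hU
    have key := tnf_identity b x hp3
    rw [← hψ] at key
    obtain ⟨V, hV⟩ : ∃ V, V = x * (x - b) := ⟨_, rfl⟩
    obtain ⟨E, hE⟩ : ∃ E, E = b ^ 2 - 11 * b - 1 := ⟨_, rfl⟩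
    rw [← hV, ← hE] at key
    rw [← hV] at hU hV0
    rw [← hE] at hE0 hΔ'
    constructor
    · have ht' : t = b ^ 5 * E / ψ ^ 2 := by
        rw [ht, hΔ', hΨ']; field_simp
      have hw' : w = 9 * ψ ^ 2 / (b * E * V ^ 2) := by
        rw [hw, ht', hU]; field_simp
      rw [hm, hw', hU]
      field_simp
      linear_combination (81 : K) * key
    · have hj := j_identity W xT hT
      rw [ht]
      field_simp
      linear_combination hj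

end Main

end Fermat.Agent.Lib.S51
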