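/-
S51 project, piece (B1), independent proof (helper2): the key identity
`m² + (w² + 5w + 9) m - w² = 0` for `m = -9U`, `w = 9 / (t U²)`.

Method: translate `xP` to `0`.  With `β = xQ - xP`, `d = Ψ₂²(xP)`, `ξ = xT - xP` the translated curve
has `b₆ = d`, `b₈ = -β d`, `β b₄ = β³ - d`, `β² d b₂ = (β³ - d)² - 4 β³ d`,
`d Δ = β³ (β⁶ - 11 β³ d - d²)`, and the cleared identity
`(9U + 1) D⁴ + 5 U³ Δ D² - (U - 1) U⁵ Δ² = 0` (`D = Ψ₂²(xT)`) is, after multiplication by `β¹² d⁴`,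
an explicit polynomial multiple of `β² d Ψ₃(ξ)`.
-/
import Mathlib
import Fermat.Agent.Lib.S51.Defs
import Fermat.Agent.Lib.S51.JIdentity

set_option autoImplicit false

namespace Fermat.Agent.Lib.S51

open WeierstrassCurve

set_option maxHeartbeats 4000000 in
/-- The polynomial certificate. -/
theorem h2_key_poly {R : Type*} [CommRing R] (β d ξ : R) :
    β ^ 2 * (9 * (ξ * (ξ - β)) + β ^ 2) *
        (4 * β ^ 2 * d * ξ ^ 3 + ((β ^ 3 - d) ^ 2 - 4 * β ^ 3 * d) * ξ ^ 2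
          + 2 * β * d * (β ^ 3 - d) * ξ + β ^ 2 * d ^ 2) ^ 4
      + 5 * β ^ 2 * d * (ξ * (ξ - β)) ^ 3 * (β ^ 3 * (β ^ 6 - 11 * β ^ 3 * d - d ^ 2)) *
        (4 * β ^ 2 * d * ξ ^ 3 + ((β ^ 3 - d) ^ 2 - 4 * β ^ 3 * d) * ξ ^ 2
          + 2 * β * d * (β ^ 3 - d) * ξ + β ^ 2 * d ^ 2) ^ 2
      - d ^ 2 * (ξ * (ξ - β) - β ^ 2) * (ξ * (ξ - β)) ^ 5 *
        (β ^ 3 * (β ^ 6 - 11 * β ^ 3 * d - d ^ 2)) ^ 2
    = (β ^ 22 * ξ ^ 5 - 9 * β ^ 21 * ξ ^ 6 + 9 * β ^ 20 * ξ ^ 7 - 48 * β ^ 19 * d * ξ ^ 5 + 205 * β ^ 18 * d * ξ ^ 6 - 50 * β ^ 17 * d ^ 2 * ξ ^ 4 - 274 * β ^ 17 * d * ξ ^ 7 + 528 * β ^ 16 * d ^ 2 * ξ ^ 5 + 117 * β ^ 16 * d * ξ ^ 8 - 51 * β ^ 15 * d ^ 3 * ξ ^ 3 - 1768 * β ^ 15 * d ^ 2 * ξ ^ 6 + 524 * β ^ 14 * d ^ 3 * ξ ^ 4 + 2664 * β ^ 14 * d ^ 2 * ξ ^ 7 - 28 * β ^ 13 * d ^ 4 * ξ ^ 2 - 2405 * β ^ 13 * d ^ 3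 * ξ ^ 5 - 1886 * β ^ 13 * d ^ 2 * ξ ^ 8 + 352 * β ^ 12 * d ^ 4 * ξ ^ 3 + 6117 * β ^ 12 * d ^ 3 * ξ ^ 6 + 512 * β ^ 12 * d ^ 2 * ξ ^ 9 - 8 * β ^ 11 * d ^ 5 * ξ - 1802 * β ^ 11 * d ^ 4 * ξ ^ 4 - 9164 * β ^ 11 * d ^ 3 * ξ ^ 7 + 117 * β ^ 10 * d ^ 5 * ξ ^ 2 + 4760 * β ^ 10 * d ^ 4 * ξ ^ 5 + 8051 * β ^ 10 * d ^ 3 * ξ ^ 8 - β ^ 9 * d ^ 6 - 582 * β ^ 9 * d ^ 5 * ξ ^ 3 - 7080 * β ^ 9 * d ^ 4 * ξ ^ 6 - 3840 * β ^ 9 * d ^ 3 * ξ ^ 9 + 14 * β ^ 8 * d ^ 6 * ξ + 1435 * β ^ 8 * d ^ 5 * ξ ^ 4 + 6008 * β ^ 8 * d ^ 4 * ξ ^ 7 + 768 * β ^ 8 * d ^ 3 * ξ ^ 10 - 64 * β ^ 7 * d ^ 6 * ξ ^ 2 - 1980 * β ^ 7 * d ^ 5 * ξ ^ 5 - 2722 * β ^ 7 * d ^ 4 * ξ ^ 8 + 145 * β ^ 6 * d ^ 6 * ξ ^ 3 + 1563 * β ^ 6 * d ^ 5 * ξ ^ 6 + 512 * β ^ 6 * d ^ 4 * ξ ^ 9 - 185 * β ^ 5 * d ^ 6 * ξ ^ 4 - 662 * β ^ 5 * d ^ 5 * ξ ^ 7 + 136 * β ^ 4 * d ^ 6 * ξ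 ^ 5 + 117 * β ^ 4 * d ^ 5 * ξ ^ 8 - 54 * β ^ 3 * d ^ 6 * ξ ^ 6 + 9 * β ^ 2 * d ^ 6 * ξ ^ 7)
      * (3 * β ^ 2 * d * ξ ^ 4 + ((β ^ 3 - d) ^ 2 - 4 * β ^ 3 * d) * ξ ^ 3
          + 3 * β * d * (β ^ 3 - d) * ξ ^ 2 + 3 * β ^ 2 * d ^ 2 * ξ - β ^ 3 * d ^ 2) := by
  ring

/-- The cleared key identity for a curve normalised so that `xP = 0`, `xQ = β`, `xT = ξ`. -/
theorem h2_key_normalized {K : Type*} [Field K] (W : WeierstrassCurve K) (β ξ : K)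
    (hβ : β ≠ 0) (hd : W.b₆ ≠ 0) (h8 : β * W.b₆ = -W.b₈)
    (h4 : β ^ 4 - W.b₄ * β ^ 2 - 2 * W.b₆ * β - W.b₈ = 0) (hT : psi3 W ξ = 0) :
    (9 * (ξ * (ξ - β) / β ^ 2) + 1) * psi2Sq W ξ ^ 4
      + 5 * (ξ * (ξ - β) / β ^ 2) ^ 3 * W.Δ * psi2Sq W ξ ^ 2
      - (ξ * (ξ - β) / β ^ 2 - 1) * (ξ * (ξ - β) / β ^ 2) ^ 5 * W.Δ ^ 2 = 0 := by
  set d := W.b₆ with hd_def
  have hb8 : W.b₈ = -(β * d) := by linear_combination h8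
  have hb4 : β * W.b₄ = β ^ 3 - d := by
    have h : β * (β ^ 3 - W.b₄ * β - d) = 0 := by
      rw [hb8] at h4; linear_combination h4
    rcases mul_eq_zero.mp h with h | h
    · exact absurd h hβ
    · linear_combination -h
  have hb2 : β ^ 2 * d * W.b₂ = (β ^ 3 - d) ^ 2 - 4 * β ^ 3 * d := by
    have hrel := W.b_relation
    rw [hb8, ← hd_def] at hrel
    linear_combination (-β ^ 2) * hrel + (β * W.b₄ + β ^ 3 - d) * hb4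
  set U := ξ * (ξ - β) / β ^ 2 with hU_def
  have hU : β ^ 2 * U = ξ * (ξ - β) := by
    rw [hU_def]; field_simp
  have hD : β ^ 2 * d * psi2Sq W ξ = 4 * β ^ 2 * d * ξ ^ 3
      + ((β ^ 3 - d) ^ 2 - 4 * β ^ 3 * d) * ξ ^ 2 + 2 * β * d * (β ^ 3 - d) * ξ + β ^ 2 * d ^ 2 := by
    rw [psi2Sq, ← hd_def]
    linear_combination (ξ ^ 2) * hb2 + (2 * β * d * ξ) * hb4
  have hR : 3 * β ^ 2 * d * ξ ^ 4 + ((β ^ 3 - d) ^ 2 - 4 * β ^ 3 * d) * ξ ^ 3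
      + 3 * β * d * (β ^ 3 - d) * ξ ^ 2 + 3 * β ^ 2 * d ^ 2 * ξ - β ^ 3 * d ^ 2 = 0 := by
    rw [psi3, ← hd_def, hb8] at hT
    linear_combination (β ^ 2 * d) * hT - (ξ ^ 3) * hb2 - (3 * β * d * ξ ^ 2) * hb4
  have hΔ : d * W.Δ = β ^ 3 * (β ^ 6 - 11 * β ^ 3 * d - d ^ 2) := by
    have h : β ^ 4 * d * (d * W.Δ) = β ^ 4 * d * (β ^ 3 * (β ^ 6 - 11 * β ^ 3 * d - d ^ 2)) := by
      rw [WeierstrassCurve.Δ, ← hd_def, hb8]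
      linear_combination
        (β * d * (β ^ 2 * d * W.b₂ + ((β ^ 3 - d) ^ 2 - 4 * β ^ 3 * d))
            + 9 * β * d ^ 2 * (β * W.b₄)) * hb2
          + (-8 * β * d ^ 2 * ((β * W.b₄) ^ 2 + (β * W.b₄) * (β ^ 3 - d) + (β ^ 3 - d) ^ 2)
            + 9 * β * d ^ 2 * ((β ^ 3 - d) ^ 2 - 4 * β ^ 3 * d)) * hb4
    exact mul_left_cancel₀ (mul_ne_zero (pow_ne_zero 4 hβ) hd) h
  have key : β ^ 12 * d ^ 4 * ((9 * U + 1) * psi2Sq W ξ ^ 4 + 5 * U ^ 3 * W.Δ * psi2Sq W ξ ^ 2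
      - (U - 1) * U ^ 5 * W.Δ ^ 2) = 0 := by
    have e : β ^ 12 * d ^ 4 * ((9 * U + 1) * psi2Sq W ξ ^ 4 + 5 * U ^ 3 * W.Δ * psi2Sq W ξ ^ 2
        - (U - 1) * U ^ 5 * W.Δ ^ 2)
        = β ^ 2 * (9 * (β ^ 2 * U) + β ^ 2) * (β ^ 2 * d * psi2Sq W ξ) ^ 4
          + 5 * β ^ 2 * d * (β ^ 2 * U) ^ 3 * (d * W.Δ) * (β ^ 2 * d * psi2Sq W ξ) ^ 2
          - d ^ 2 * (β ^ 2 * U - β ^ 2) * (β ^ 2 * U) ^ 5 * (d * W.Δ) ^ 2 := by ring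
    rw [e, hU, hD, hΔ, h2_key_poly, hR, mul_zero]
  exact (mul_eq_zero.mp key).resolve_left (mul_ne_zero (pow_ne_zero 12 hβ) (pow_ne_zero 4 hd))

section Translate

variable {F : Type*} [CommRing F] (W : WeierstrassCurve F) (r : F)

theorem h2_psi2Sq_translate (x : F) :
    psi2Sq ((⟨1, r, 0, 0⟩ : VariableChange F) • W) x = psi2Sq W (x + r) := by
  simp only [psi2Sq, variableChange_b₂, variableChange_b₄, variableChange_b₆]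
  simp
  ring

theorem h2_psi3_translate (x : F) :
    psi3 ((⟨1, r, 0, 0⟩ : VariableChange F) • W) x = psi3 W (x + r) := by
  simp only [psi3, variableChange_b₂, variableChange_b₄, variableChange_b₆, variableChange_b₈]
  simp
  ring

theorem h2_dupNum_translate (x : F) :
    dupNum ((⟨1, r, 0, 0⟩ : VariableChange F) • W) x
      = dupNum W (x + r) - r * psi2Sq W (x + r) := by
  simp only [dupNum, psi2Sq, variableChange_b₄, variableChange_b₆, variableChange_b₈]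
  simp
  ring

theorem h2_Δ_translate : ((⟨1, r, 0, 0⟩ : VariableChange F) • W).Δ = W.Δ := by
  rw [variableChange_Δ]; simp

end Translate

/-- The cleared key identity: `(9U + 1) D⁴ + 5 U³ Δ D² - (U - 1) U⁵ Δ² = 0`. -/
theorem h2_key_cleared {K : Type*} [Field K] (W : WeierstrassCurve K) (xT xP xQ : K)
    (h : IsogenyData W xT xP xQ) :
    (9 * ((xT - xP) * (xT - xQ) / (xQ - xP) ^ 2) + 1) * psi2Sq W xT ^ 4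
      + 5 * ((xT - xP) * (xT - xQ) / (xQ - xP) ^ 2) ^ 3 * W.Δ * psi2Sq W xT ^ 2
      - ((xT - xP) * (xT - xQ) / (xQ - xP) ^ 2 - 1) *
          ((xT - xP) * (xT - xQ) / (xQ - xP) ^ 2) ^ 5 * W.Δ ^ 2 = 0 := by
  set W' := (⟨1, xP, 0, 0⟩ : VariableChange K) • W with hW'
  have hβ : xQ - xP ≠ 0 := sub_ne_zero.mpr (Ne.symm h.hne)
  have h6 : W'.b₆ = psi2Sq W xP := by
    have := h2_psi2Sq_translate W xP 0
    rw [zero_add] at this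
    rw [← this, psi2Sq]; ring
  have h8' : -W'.b₈ = dupNum W xP - xP * psi2Sq W xP := by
    have := h2_dupNum_translate W xP 0
    rw [zero_add] at this
    rw [← this, dupNum]; ring
  have hd : W'.b₆ ≠ 0 := by rw [h6]; exact h.hP
  have h8 : (xQ - xP) * W'.b₆ = -W'.b₈ := by
    rw [h6, h8', ← h.hPQ]; ring
  have h4 : (xQ - xP) ^ 4 - W'.b₄ * (xQ - xP) ^ 2 - 2 * W'.b₆ * (xQ - xP) - W'.b₈ = 0 := by
    have := h2_dupNum_translate W xP (xQ - xP)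
    rw [sub_add_cancel, ← h.hQP, sub_self] at this
    rw [← this, dupNum]
  have hT : psi3 W' (xT - xP) = 0 := by
    rw [hW', h2_psi3_translate, sub_add_cancel]; exact h.hT
  have := h2_key_normalized W' (xQ - xP) (xT - xP) hβ hd h8 h4 hT
  rw [hW', h2_psi2Sq_translate, h2_Δ_translate, sub_add_cancel] at this
  rw [show xT - xP - (xQ - xP) = xT - xQ by ring] at this
  exact this

/-- **Piece (B)**: the key identity. -/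
theorem h2_keyIdentity : KeyIdentity := by
  intro K _ _ W hΔ xT xP xQ h
  have hD : psi2Sq W xT ≠ 0 := h2_psi2Sq_ne_zero W hΔ xT h.hT
  have hβ : xQ - xP ≠ 0 := sub_ne_zero.mpr (Ne.symm h.hne)
  have hU0 : (xT - xP) * (xT - xQ) / (xQ - xP) ^ 2 ≠ 0 :=
    div_ne_zero (mul_ne_zero (sub_ne_zero.mpr h.hTP) (sub_ne_zero.mpr h.hTQ)) (pow_ne_zero 2 hβ)
  refine ⟨hD, hU0, ?_⟩
  intro U t m w hU ht hm hw
  refine ⟨?_, h2_j_identity_t W hΔ xT h.hT t ht⟩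
  have hc := h2_key_cleared W xT xP xQ h
  rw [← hU] at hc hU0
  have ht0 : t ≠ 0 := by rw [ht]; exact div_ne_zero hΔ (pow_ne_zero 2 hD)
  have hwe : w * (W.Δ * U ^ 2) = 9 * psi2Sq W xT ^ 2 := by
    rw [hw, ht]; field_simp
  have hne : W.Δ ^ 2 * U ^ 4 ≠ 0 := mul_ne_zero (pow_ne_zero 2 hΔ) (pow_ne_zero 4 hU0)
  have key : W.Δ ^ 2 * U ^ 4 * (m ^ 2 + (w ^ 2 + 5 * w + 9) * m - w ^ 2) = 0 := by
    rw [hm]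
    have e : W.Δ ^ 2 * U ^ 4 * ((-9 * U) ^ 2 + (w ^ 2 + 5 * w + 9) * (-9 * U) - w ^ 2)
        = 81 * U ^ 6 * W.Δ ^ 2 - 9 * U * (w * (W.Δ * U ^ 2)) ^ 2
          - 45 * U * (w * (W.Δ * U ^ 2)) * (W.Δ * U ^ 2) - 81 * U ^ 5 * W.Δ ^ 2
          - (w * (W.Δ * U ^ 2)) ^ 2 := by ring
    rw [e, hwe]
    linear_combination (-81) * hc
  exact (mul_eq_zero.mp key).resolve_left hne

end Fermat.Agent.Lib.S51
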